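import Fermat.Agent.CFT.Euler.Hom

/-!
Permanence of finiteness of `M[p]` and `M / p M`, and actions on stable subgroups and quotients.
-/

set_option autoImplicit false
set_option linter.unusedSectionVars false
set_option linter.style.haveILetI false

noncomputable section

namespace Fermat.Agent.CFT.Euler

open Fermat.Agent.CFT

variable {p : ℕ} {A B C : Type*} [AddCommGroup A] [AddCommGroup B] [AddCommGroup C]

theorem ModPFinite.of_finite [Finite A] : ModPFinite p A :=
  ⟨inferInstance, AddSubgroup.index_ne_zero_of_finite⟩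

theorem ModPFinite.of_injective (h : ModPFinite p B) (f : A →+ B) (hf : Function.Injective f) :
    Finite (nsmulAddMonoidHom p : A →+ A).ker :=
  haveI := h.tors
  Finite.of_injective (fun x => (⟨f x.1, show p • f x.1 = 0 by
    rw [← map_nsmul, show p • x.1 = 0 from x.2, map_zero]⟩ : (nsmulAddMonoidHom p : B →+ B).ker))
    fun _ _ h => Subtype.ext (hf (congrArg Subtype.val h))

theorem ModPFinite.of_surjective (h : ModPFinite p A) (f : A →+ B) (hf : Function.Surjective f) :
    (nsmulAddMonoidHom p : B →+ B).range.index ≠ 0 := by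
  refine fun h0 => h.quot (Nat.eq_zero_of_zero_dvd (h0 ▸ ?_))
  rw [← AddSubgroup.index_comap_of_surjective _ hf]
  refine AddSubgroup.index_dvd_of_le ?_
  rintro _ ⟨x, rfl⟩
  exact ⟨f x, (map_nsmul f p x).symm⟩

/-- Finiteness passes through short exact sequences. -/
theorem ModPFinite.ses (i : A →+ B) (q : B →+ C) (hi : Function.Injective i)
    (hex : ∀ y, q y = 0 → ∃ x, i x = y) (hq : Function.Surjective q) (_hqi : ∀ x, q (i x) = 0)
    (hA : ModPFinite p A) (hC : ModPFinite p C) : ModPFinite p B := by
  let μA := (nsmulAddMonoidHom p : A →+ A)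
  let μB := (nsmulAddMonoidHom p : B →+ B)
  let μC := (nsmulAddMonoidHom p : C →+ C)
  refine ⟨?_, ?_⟩
  · haveI := hA.tors
    haveI := hC.tors
    let φ : μB.ker →+ μC.ker := (q.comp μB.ker.subtype).codRestrict μC.ker fun x => by
      show p • q x.1 = 0
      rw [← map_nsmul, show p • x.1 = 0 from x.2, map_zero]
    let ψ : μA.ker →+ μB.ker := (i.comp μA.ker.subtype).codRestrict μB.ker fun x => by
      show p • i x.1 = 0
      rw [← map_nsmul, show p • x.1 = 0 from x.2, map_zero]
    have hψ : φ.ker ≤ ψ.range := by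
      rintro ⟨y, hy⟩ h
      obtain ⟨x, rfl⟩ := hex y (congrArg Subtype.val h)
      exact ⟨⟨x, hi (by rw [map_zero]; exact (map_nsmul i p x).trans hy)⟩, rfl⟩
    haveI : Finite ψ.range := Finite.of_surjective _ ψ.rangeRestrict_surjective
    haveI : Finite φ.ker :=
      Finite.of_injective (AddSubgroup.inclusion hψ) (AddSubgroup.inclusion_injective _)
    refine Nat.finite_of_card_ne_zero ?_
    rw [← φ.ker.card_mul_index, AddSubgroup.index_ker]
    exact mul_ne_zero Nat.card_pos.ne' Nat.card_pos.ne'
  · have h1 : (μB.range ⊔ i.range).index ≠ 0 := by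
      refine fun h0 => hC.quot (Nat.eq_zero_of_zero_dvd (h0 ▸ ?_))
      rw [← AddSubgroup.index_comap_of_surjective μC.range hq]
      refine AddSubgroup.index_dvd_of_le ?_
      rintro y ⟨c, hc⟩
      obtain ⟨y', rfl⟩ := hq c
      obtain ⟨x, hx⟩ := hex (y - p • y') (by
        rw [map_sub, map_nsmul, sub_eq_zero]; exact hc.symm)
      exact AddSubgroup.mem_sup.mpr ⟨p • y', ⟨y', rfl⟩, i x, ⟨x, rfl⟩, by rw [hx]; abel⟩
    have h2 : μB.range.relIndex i.range ≠ 0 := by
      intro h0
      apply hA.quot
      have e : i.range = (⊤ : AddSubgroup A).map i := AddMonoidHom.range_eq_map i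
      rw [e] at h0
      have hsub : μA.range.map i ≤ μB.range := by
        rintro _ ⟨_, ⟨a, rfl⟩, rfl⟩
        exact ⟨i a, (map_nsmul i p a).symm⟩
      have h := AddSubgroup.relIndex_dvd_of_le_left (L := (⊤ : AddSubgroup A).map i) hsub
      rw [h0, AddSubgroup.relIndex_map_map_of_injective _ _ hi, AddSubgroup.relIndex_top_right] at h
      exact Nat.eq_zero_of_zero_dvd h
    rw [← AddSubgroup.relIndex_mul_index (le_sup_left : μB.range ≤ μB.range ⊔ i.range),
      AddSubgroup.relIndex_sup_left]
    exact mul_ne_zero h2 h1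

theorem ModPFinite.congr (e : A ≃+ B) (h : ModPFinite p A) : ModPFinite p B :=
  ⟨h.of_injective e.symm.toAddMonoidHom e.symm.injective,
    h.of_surjective e.toAddMonoidHom e.surjective⟩

theorem ModPFinite.pi {ι : Type*} [Fintype ι] {F : ι → Type*} [∀ i, AddCommGroup (F i)]
    (h : ∀ i, ModPFinite p (F i)) : ModPFinite p (∀ i, F i) := by
  refine ⟨?_, ?_⟩
  · haveI := fun i => (h i).tors
    exact Finite.of_injective (fun x i => (⟨x.1 i, congrFun x.2 i⟩ :
      (nsmulAddMonoidHom p : F i →+ F i).ker)) fun x y hxy => Subtype.ext (funext fun i =>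
      congrArg Subtype.val (congrFun hxy i))
  · haveI : ∀ i, (nsmulAddMonoidHom p : F i →+ F i).range.FiniteIndex := fun i => ⟨(h i).quot⟩
    haveI : ∀ i, Finite (F i ⧸ (nsmulAddMonoidHom p : F i →+ F i).range) := fun i =>
      AddSubgroup.finite_quotient_of_finiteIndex
    let φ : (∀ i, F i) →+ ∀ i, F i ⧸ (nsmulAddMonoidHom p : F i →+ F i).range :=
      AddMonoidHom.pi fun i => (QuotientAddGroup.mk' _).comp (Pi.evalAddMonoidHom F i)
    have hker : φ.ker ≤ (nsmulAddMonoidHom p : (∀ i, F i) →+ _).range := by
      intro x hx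
      have hx' : ∀ i, ∃ y : F i, p • y = x i := fun i =>
        (QuotientAddGroup.eq_zero_iff _).mp (congrFun hx i)
      choose y hy using hx'
      exact ⟨y, funext hy⟩
    refine fun h0 => ?_
    have h1 := AddSubgroup.index_dvd_of_le hker
    rw [h0, AddSubgroup.index_ker, zero_dvd_iff] at h1
    exact Nat.card_pos.ne' h1

section Action

variable {G M : Type*} [Group G] [AddCommGroup M] [DistribMulAction G M]

/-- The action on a stable subgroup. -/
@[reducible] def stableAction {S : AddSubgroup M} (hS : IsStable G S) : DistribMulAction G S where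
  smul g x := smulS hS g x
  one_smul x := Subtype.ext (one_smul G (x : M))
  mul_smul g h x := Subtype.ext (mul_smul g h (x : M))
  smul_zero g := Subtype.ext (smul_zero g)
  smul_add g x y := Subtype.ext (smul_add g (x : M) y)

/-- The action on the quotient by a stable subgroup. -/
@[reducible] def quotAction {S : AddSubgroup M} (hS : IsStable G S) :
    DistribMulAction G (M ⧸ S) where
  smul g := QuotientAddGroup.map S S (DistribSMul.toAddMonoidHom M g) fun x hx => hS g x hx
  one_smul := by
    rintro ⟨x⟩
    exact congrArg (QuotientAddGroup.mk (s := S)) (one_smul G x)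
  mul_smul g h := by
    rintro ⟨x⟩
    exact congrArg (QuotientAddGroup.mk (s := S)) (mul_smul g h x)
  smul_zero _ := map_zero _
  smul_add _ := map_add _

end Action

end Fermat.Agent.CFT.Euler
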