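import Fermat.Agent.CFT.Euler.Good
import Fermat.Agent.CFT.Euler.ModP

/-!
Additivity of the Euler index of a presentation in the coefficient module.
-/

set_option autoImplicit false
set_option linter.unusedSectionVars false
set_option linter.style.haveILetI false

noncomputable section

namespace Fermat.Agent.CFT.Euler

open Fermat.Agent.CFT

variable {p : ℕ} {G P : Type} [Group G] [AddCommGroup P] [DistribMulAction G P]
  {S : AddSubgroup P} (hS : IsStable G S)
  {M M' M'' : Type} [AddCommGroup M] [DistribMulAction G M] [AddCommGroup M']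
  [DistribMulAction G M'] [AddCommGroup M''] [DistribMulAction G M'']

/-- Composition with an equivariant map of coefficients. -/
def postHom (i : M →+ M') (hi : ∀ (g : G) (m : M), i (g • m) = g • i m) :
    equivHom (C := M) hS →+ equivHom (C := M') hS :=
  AddMonoidHom.mk' (fun f => ⟨i.comp f.1, fun g s => by
    show i (f.1 _) = g • i (f.1 s)
    rw [f.2, hi]⟩) fun f f' => Subtype.ext (AddMonoidHom.ext fun s => map_add i _ _)

theorem postHom_apply (i : M →+ M') (hi : ∀ (g : G) (m : M), i (g • m) = g • i m)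
    (f : equivHom (C := M) hS) (s : S) : (postHom hS i hi f).1 s = i (f.1 s) := rfl

theorem postHom_injective (i : M →+ M') (hi : ∀ (g : G) (m : M), i (g • m) = g • i m)
    (hinj : Function.Injective i) : Function.Injective (postHom hS i hi) := fun _ _ h =>
  Subtype.ext (AddMonoidHom.ext fun s => hinj
    (DFunLike.congr_fun (congrArg Subtype.val h) s))

theorem exists_postHom_eq (i : M' →+ M) (hi : ∀ (g : G) (m : M'), i (g • m) = g • i m)
    (hinj : Function.Injective i) (f : equivHom (C := M) hS) (h : ∀ s, ∃ x, i x = f.1 s) :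
    ∃ f₀, postHom hS i hi f₀ = f := by
  choose φ hφ using h
  let f₀ : S →+ M' := AddMonoidHom.mk' φ fun s t => hinj (by
    rw [map_add, hφ, hφ, hφ, map_add])
  refine ⟨⟨f₀, fun g s => hinj ?_⟩, Subtype.ext (AddMonoidHom.ext fun s => hφ s)⟩
  show i (φ _) = i (g • φ s)
  rw [hi, hφ, hφ, f.2]

theorem postHom_surjective [Fintype G] [Module.Free ℤ P] [Module.Finite ℤ P] (hP : IsInduced G P)
    (hpS : ∀ x : P, p • x ∈ S) (q : M →+ M'') (hq : ∀ (g : G) (m : M), q (g • m) = g • q m)
    (hqs : Function.Surjective q) (hGood : Good p G M'') :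
    Function.Surjective (postHom hS q hq) := by
  intro f
  obtain ⟨ψ, hψ⟩ := hGood P hP S hS hpS f.1 f.2
  haveI := free_subgroup (P := P) S
  let b := Module.Free.chooseBasis ℤ S
  choose m hm using fun i => hqs (ψ (b i))
  let φ : S →+ M := (b.constr ℤ m).toAddMonoidHom
  have hφ : ∀ s, q (φ s) = ψ s := by
    have e : (q.comp φ).toIntLinearMap = ψ.toIntLinearMap := b.ext fun i => by
      show q (b.constr ℤ m (b i)) = ψ (b i)
      rw [Module.Basis.constr_basis, hm]
    exact fun s => LinearMap.congr_fun e s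
  refine ⟨⟨normOn hS φ, isEquivariantOn_normOn _ _⟩, Subtype.ext (AddMonoidHom.ext fun s => ?_)⟩
  refine Eq.trans ?_ (DFunLike.congr_fun hψ s)
  show q (normOn hS φ s) = normOn hS ψ s
  rw [normOn_apply, normOn_apply, map_sum]
  exact Finset.sum_congr rfl fun g _ => by rw [hq, hφ]

/-- The index of a map of arrows given by isomorphisms. -/
theorem lpIndex_of_bijective (p : ℕ) [Fact p.Prime] {A B A' B' : Type*} [AddCommGroup A]
    [AddCommGroup B] [AddCommGroup A'] [AddCommGroup B'] {f : A →+ B} {f' : A' →+ B'}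
    (a : A →+ A') (b : B →+ B') (ha : Function.Bijective a) (hb : Function.Bijective b)
    (hsq : ∀ x, f' (a x) = b (f x)) :
    lpIndex p f = lpIndex p f' ∧ (FiniteIndexHom f ↔ FiniteIndexHom f') := by
  have h2 : ∀ x, f x = 0 → a x = 0 → x = 0 := fun x _ h => ha.1 (by rw [h, map_zero])
  have h3 : ∀ y, f' y = 0 → ∃ x, f x = 0 ∧ a x = y := fun y hy => by
    obtain ⟨x, rfl⟩ := ha.2 y
    exact ⟨x, hb.1 (by rw [← hsq, hy, map_zero]), rfl⟩
  have h4 : ∀ z, b z ∈ f'.range → z ∈ f.range := fun z ⟨y, hy⟩ => by
    obtain ⟨x, rfl⟩ := ha.2 y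
    exact ⟨x, hb.1 (by rw [← hsq, hy])⟩
  have h5 : ∀ z', ∃ z, z' - b z ∈ f'.range := fun z' => by
    obtain ⟨z, rfl⟩ := hb.2 z'
    exact ⟨z, by rw [sub_self]; exact zero_mem _⟩
  exact ⟨lpIndex_congr (p := p) a b hsq h2 h3 h4 h5, finiteIndexHom_congr_iff a b hsq h2 h3 h4 h5⟩

namespace Pres

variable [Fintype G] [hp : Fact p.Prime] {A : Type} [AddCommGroup A] [DistribMulAction G A]
  (X : Pres p G A)

/-- The index is additive in short exact sequences of coefficient modules. -/
theorem index_add (i : M' →+ M) (q : M →+ M'') (hi : ∀ (g : G) (m : M'), i (g • m) = g • i m)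
    (hq : ∀ (g : G) (m : M), q (g • m) = g • q m) (hinj : Function.Injective i)
    (hex : ∀ y, q y = 0 → ∃ x, i x = y) (hqi : ∀ x, q (i x) = 0) (hqs : Function.Surjective q)
    (hGood : Good p G M'') (hA : ModPFinite p M') (hC : ModPFinite p M'') :
    X.index M = X.index M' + X.index M'' := by
  have hexH : ∀ {R : AddSubgroup X.P} (hR : IsStable G R) (y : equivHom (C := M) hR),
      postHom hR q hq y = 0 → ∃ x, postHom hR i hi x = y := fun hR y hy =>
    exists_postHom_eq hR i hi hinj y fun s => hex _ (DFunLike.congr_fun (congrArg Subtype.val hy) s)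
  have hqiH : ∀ {R : AddSubgroup X.P} (hR : IsStable G R) (x : equivHom (C := M') hR),
      postHom hR q hq (postHom hR i hi x) = 0 := fun hR x =>
    Subtype.ext (AddMonoidHom.ext fun s => hqi _)
  have hKlevel : ∀ x : X.P, p • x ∈ X.K := fun x => X.le (X.level x)
  exact (lpIndex_ses p (a := X.res M') (b := X.res M) (c := X.res M'')
    (postHom X.hK i hi) (postHom X.hK q hq) (postHom X.hS i hi) (postHom X.hS q hq)
    (postHom_injective _ i hi hinj) (postHom_surjective X.hK X.induced hKlevel q hq hqs hGood)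
    (hexH X.hK) (hqiH X.hK) (postHom_injective _ i hi hinj)
    (postHom_surjective X.hS X.induced X.level q hq hqs hGood) (hexH X.hS) (hqiH X.hS)
    (fun _ => rfl) (fun _ => rfl) (X.finiteIndexHom hA) (X.finiteIndexHom hC)).2

omit hp in
theorem postHom_bijective {R : AddSubgroup X.P} (hR : IsStable G R) (e : M ≃+ M')
    (he : ∀ (g : G) (m : M), e (g • m) = g • e m) :
    Function.Bijective (postHom hR e.toAddMonoidHom he) := by
  refine ⟨postHom_injective _ _ _ e.injective, fun f => ?_⟩
  exact exists_postHom_eq hR _ he e.injective f fun s => ⟨e.symm (f.1 s), e.apply_symm_apply _⟩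

/-- Invariance under isomorphisms of coefficient modules. -/
theorem index_congr (e : M ≃+ M') (he : ∀ (g : G) (m : M), e (g • m) = g • e m) :
    X.index M = X.index M' :=
  (lpIndex_of_bijective p _ _ (postHom_bijective X X.hK e he) (postHom_bijective X X.hS e he)
    fun _ => rfl).1

/-- The index of a product. -/
theorem index_pi {ι : Type} [Fintype ι] {F : ι → Type} [∀ i, AddCommGroup (F i)]
    [∀ i, DistribMulAction G (F i)] (hF : ∀ i, ModPFinite p (F i)) :
    X.index (∀ i, F i) = ∑ i, X.index (F i) := by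
  let c : ∀ {R : AddSubgroup X.P} (hR : IsStable G R),
      equivHom (C := ∀ i, F i) hR →+ ∀ i, equivHom (C := F i) hR := fun hR =>
    AddMonoidHom.pi fun i => postHom hR (Pi.evalAddMonoidHom F i) fun _ _ => rfl
  have hc : ∀ {R : AddSubgroup X.P} (hR : IsStable G R), Function.Bijective (c hR) := fun hR => by
    refine ⟨fun f f' h => ?_, fun f => ?_⟩
    · exact Subtype.ext (AddMonoidHom.ext fun s => funext fun i =>
        DFunLike.congr_fun (congrArg Subtype.val (congrFun h i)) s)
    · exact ⟨⟨AddMonoidHom.pi fun i => (f i).1, fun g s => funext fun i => (f i).2 g s⟩, rfl⟩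
  rw [Pres.index, (lpIndex_of_bijective p (c X.hK) (c X.hS) (hc X.hK) (hc X.hS)
    (f' := AddMonoidHom.pi fun i => (X.res (F i)).comp
      (Pi.evalAddMonoidHom (fun i => equivHom (C := F i) X.hK) i)) fun _ => rfl).1]
  exact (lpIndex_pi p _ fun i => X.finiteIndexHom (hF i)).2

/-- Restriction of a presentation to a subgroup. -/
def restrict (H : Subgroup G) [Fintype H] : Pres p H A where
  P := X.P
  induced := X.induced.subgroup H
  K := X.K
  S := X.S
  hK := IsStable.restrict X.hK H
  hS := IsStable.restrict X.hS H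
  le := X.le
  level := X.level
  π := X.π
  surj := X.surj
  ker := X.ker
  equi h x := X.equi (h : G) x

end Pres

end Fermat.Agent.CFT.Euler
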