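import Fermat.Agent.CFT.Euler.ArtinCyclic
import Fermat.Agent.CFT.Euler.ArtinMatrix

/-!
An additive invariant vanishing on modules coinduced from cyclic subgroups of order prime to `p`
vanishes.
-/

set_option autoImplicit false
set_option linter.unusedSectionVars false

noncomputable section

namespace Fermat.Agent.CFT.Euler

variable {G : Type} [Group G] [Finite G] {p : ℕ} [Fact p.Prime] {ψ : ModInvariant G p}
variable {A : Type} [AddCommGroup A] [DistribMulAction G A] [Finite A]

/-- The permutation lattice. -/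
def Lat (X : Type) : Type := X → ℤ

namespace Lat

variable {X : Type}

instance : AddCommGroup (Lat X) := inferInstanceAs (AddCommGroup (X → ℤ))

instance [Finite X] : Module.Finite ℤ (Lat X) := inferInstanceAs (Module.Finite ℤ (X → ℤ))

variable [MulAction G X]

instance : DistribMulAction G (Lat X) where
  smul g f := fun x => f (g⁻¹ • x)
  one_smul f := funext fun x => show f ((1 : G)⁻¹ • x) = f x by simp
  mul_smul a b f := funext fun x => show f ((a * b)⁻¹ • x) = f (b⁻¹ • a⁻¹ • x) by simp [mul_smul]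
  smul_zero _ := rfl
  smul_add _ _ _ := rfl

/-- A basis vector. -/
def unit [DecidableEq X] (x : X) : Lat X := fun y => if y = x then 1 else 0

theorem smul_unit [DecidableEq X] (g : G) (x : X) : g • unit x = unit (g • x) := funext fun y => by
  show (if g⁻¹ • y = x then (1 : ℤ) else 0) = if y = g • x then 1 else 0
  exact if_congr inv_smul_eq_iff rfl rfl

theorem eq_sum [DecidableEq X] [Fintype X] (v : Lat X) : v = ∑ x, v x • unit x := by
  funext y
  rw [show (∑ x, v x • unit x : Lat X) y = ∑ x, v x * (if y = x then 1 else 0) from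
    Finset.sum_apply y _ _]
  simp

end Lat

theorem psi_homMod_lat (hadd : IsAdditive ψ) (hA : ∀ a : A, p • a = 0) (X : Type) [MulAction G X]
    [Fintype X] [DecidableEq X] :
    ψ (HomMod (Lat X) A) (HomMod.nsmul_eq_zero hA) =
      ψ (FunMod X A) (FunMod.nsmul_eq_zero hA) := by
  refine psi_congr hadd _ _
    (AddMonoidHom.mk' (fun φ x => φ.toHom (Lat.unit x)) fun _ _ => rfl) ?_ ?_ ?_
  · intro φ χ h
    ext v
    rw [Lat.eq_sum v, map_sum, map_sum]
    refine Finset.sum_congr rfl fun x _ => ?_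
    rw [map_zsmul, map_zsmul]
    exact congrArg _ (congrFun h x)
  · intro f
    refine ⟨AddMonoidHom.mk' (fun v : Lat X => ∑ x, v x • f x) fun v w => ?_, funext fun x => ?_⟩
    · rw [← Finset.sum_add_distrib]
      exact Finset.sum_congr rfl fun x _ => add_smul (v x) (w x) _
    · show ∑ y, (Lat.unit x : Lat X) y • f y = f x
      rw [Finset.sum_eq_single x (fun y _ hy => by rw [Lat.unit, if_neg hy, zero_smul])
        (fun h => absurd (Finset.mem_univ _) h), Lat.unit, if_pos rfl, one_smul]
  · intro g φ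
    refine funext fun x => ?_
    show (g • φ).toHom (Lat.unit x) = g • φ.toHom (Lat.unit (g⁻¹ • x))
    rw [HomMod.smul_apply, Lat.smul_unit]

theorem exists_int_multiple {X Y : Type} [Fintype X] [Fintype Y] (f : Matrix Y X ℚ) :
    ∃ (N : ℕ) (F : Matrix Y X ℤ), N ≠ 0 ∧ ∀ y x, (F y x : ℚ) = N * f y x := by
  refine ⟨∏ y, ∏ x, (f y x).den, Matrix.of fun y x => ((∏ y, ∏ x, (f y x).den : ℕ) * f y x : ℚ).num,
    Finset.prod_ne_zero_iff.mpr fun y _ => Finset.prod_ne_zero_iff.mpr fun x _ => Rat.den_nz _,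
    fun y x => ?_⟩
  obtain ⟨c, hc⟩ := (Finset.dvd_prod_of_mem (fun x => (f y x).den) (Finset.mem_univ x)).trans
    (Finset.dvd_prod_of_mem (fun y => ∏ x, (f y x).den) (Finset.mem_univ y))
  have e : ((∏ y, ∏ x, (f y x).den : ℕ) : ℚ) * f y x = ((c * (f y x).num : ℤ) : ℚ) := by
    rw [hc]; push_cast
    rw [mul_comm ((f y x).den : ℚ), mul_assoc, mul_comm ((f y x).den : ℚ), Rat.mul_den_eq_num]
  rw [Matrix.of_apply, e, Rat.num_intCast]

theorem psi_funMod_eq_of_fixed (hadd : IsAdditive ψ) (hA : ∀ a : A, p • a = 0) {X Y : Type}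
    [MulAction G X] [MulAction G Y] [Fintype X] [Fintype Y] [DecidableEq X] [DecidableEq Y]
    (hfix : ∀ g : G, (Finset.univ.filter fun x : X => g • x = x).card =
      (Finset.univ.filter fun y : Y => g • y = y).card) :
    ψ (FunMod X A) (FunMod.nsmul_eq_zero hA) = ψ (FunMod Y A) (FunMod.nsmul_eq_zero hA) := by
  have := Fintype.ofFinite G
  obtain ⟨f, h, hf, hfh, hhf⟩ := exists_equiv_matrix hfix
  obtain ⟨N, F, hN, hF⟩ := exists_int_multiple f
  obtain ⟨M, H, hM, hH⟩ := exists_int_multiple h
  have hentry : ∀ (g : G) y x, F (g⁻¹ • y) x = F y (g • x) := fun g y x => by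
    have := congrFun (congrFun (hf g) y) x
    rw [Matrix.mul_apply, Matrix.mul_apply,
      Finset.sum_eq_single (g⁻¹ • y) (fun z _ hz => ?_) (fun h => absurd (Finset.mem_univ _) h),
      Finset.sum_eq_single (g • x) (fun z _ hz => ?_) (fun h => absurd (Finset.mem_univ _) h)]
      at this
    · simp only [permMat, Matrix.of_apply, smul_inv_smul, if_true, one_mul, mul_one] at this
      exact_mod_cast (by rw [hF, hF, this] : (F (g⁻¹ • y) x : ℚ) = F y (g • x))
    · simp [permMat, hz]
    · have : y ≠ g • z := fun e => hz (by rw [e, inv_smul_smul])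
      simp [permMat, this]
  have hFH : ∀ y y', ∑ x, F y x * H x y' = if y = y' then ((N * M : ℕ) : ℤ) else 0 := fun y y' => by
    have e := congrFun (congrFun hfh y) y'
    rw [Matrix.mul_apply, Matrix.one_apply] at e
    refine Int.cast_injective (α := ℚ) ?_
    push_cast
    simp only [hF, hH]
    rw [show ∑ x, (N : ℚ) * f y x * ((M : ℚ) * h x y') = (N * M) * ∑ x, f y x * h x y' by
      rw [Finset.mul_sum]; exact Finset.sum_congr rfl fun x _ => by ring, e]
    split_ifs <;> simp
  have hHF : ∀ x x', ∑ y, H x y * F y x' = if x = x' then ((N * M : ℕ) : ℤ) else 0 := fun x x' => by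
    have e := congrFun (congrFun hhf x) x'
    rw [Matrix.mul_apply, Matrix.one_apply] at e
    refine Int.cast_injective (α := ℚ) ?_
    push_cast
    simp only [hF, hH]
    rw [show ∑ y, (M : ℚ) * h x y * ((N : ℚ) * f y x') = (N * M) * ∑ y, h x y * f y x' by
      rw [Finset.mul_sum]; exact Finset.sum_congr rfl fun x _ => by ring, e]
    split_ifs <;> simp
  let u : Lat X →+ Lat Y := AddMonoidHom.mk' (fun v y => ∑ x, F y x * v x) fun v w => funext fun y => by
    show ∑ x, F y x * (v x + w x) = (∑ x, F y x * v x) + ∑ x, F y x * w x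
    simp [mul_add, Finset.sum_add_distrib]
  have hinj : Function.Injective u := fun v w e => funext fun x => by
    have h1 : ∀ v : Lat X, ∑ y, H x y * u v y = (N * M : ℕ) * v x := fun v => by
      show ∑ y, H x y * ∑ x', F y x' * v x' = _
      simp only [Finset.mul_sum, ← mul_assoc]
      rw [Finset.sum_comm]
      simp only [← Finset.sum_mul, hHF, ite_mul, zero_mul, Finset.sum_ite_eq, Finset.mem_univ,
        if_true]
    have := h1 v
    rw [e, h1 w] at this
    exact mul_left_cancel₀ (by exact_mod_cast mul_ne_zero hN hM) this.symm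
  have := psi_homMod_isogeny (L := Lat Y) (L' := Lat X) hadd hA u (fun g v => funext fun y => by
      show ∑ x, F y x * v (g⁻¹ • x) = ∑ x, F (g⁻¹ • y) x * v x
      refine (Fintype.sum_equiv (MulAction.toPerm g) _ _ fun x => ?_).symm
      simp only [MulAction.toPerm_apply, inv_smul_smul, hentry])
    hinj (fun v hv => funext fun y => by
      have := congrFun hv y
      exact (mul_eq_zero.mp (show (p : ℤ) * v y = 0 by rw [← nsmul_eq_mul]; exact this)).resolve_left
        (by exact_mod_cast (Fact.out : p.Prime).ne_zero))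
    (mul_ne_zero hN hM) fun w => ⟨fun x => ∑ y, H x y * w y, funext fun y => by
      show ∑ x, F y x * ∑ y', H x y' * w y' = ((N * M) • w) y
      simp only [Finset.mul_sum, ← mul_assoc]
      rw [Finset.sum_comm]
      simp only [← Finset.sum_mul, hFH, ite_mul, zero_mul, Finset.sum_ite_eq, Finset.mem_univ,
        if_true]
      exact (nsmul_eq_mul _ _).symm⟩
  rw [psi_homMod_lat hadd hA Y, psi_homMod_lat hadd hA X] at this
  exact this.symm

theorem psi_funMod_sigma (hadd : IsAdditive ψ) (hA : ∀ a : A, p • a = 0) (ι : Type) [Fintype ι] :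
    ∀ (Q : ι → Type) [∀ i, MulAction G (Q i)] [∀ i, Finite (Q i)],
      ψ (FunMod (Σ i, Q i) A) (FunMod.nsmul_eq_zero hA) =
        ∑ i, ψ (FunMod (Q i) A) (FunMod.nsmul_eq_zero hA) := by
  refine Fintype.induction_empty_option
    (P := fun α _ => ∀ (Q : α → Type) [∀ i, MulAction G (Q i)] [∀ i, Finite (Q i)],
      ψ (FunMod (Σ i, Q i) A) (FunMod.nsmul_eq_zero hA) =
        ∑ i, ψ (FunMod (Q i) A) (FunMod.nsmul_eq_zero hA)) ?_ ?_ ?_ ι
  · intro α β _ e ih Q _ _
    let := Fintype.ofEquiv β e.symm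
    have h := ih (fun a => Q (e a))
    refine Eq.trans ?_ (h.trans (Fintype.sum_equiv e _
      (fun b => ψ (FunMod (Q b) A) (FunMod.nsmul_eq_zero hA)) fun _ => rfl))
    have hq : Function.Bijective fun z : Σ a, Q (e a) => (⟨e z.1, z.2⟩ : Σ b, Q b) :=
      (_root_.Equiv.sigmaCongrLeft (β := Q) e).bijective
    refine psi_congr hadd _ _ (FunMod.comap fun z : Σ a, Q (e a) => (⟨e z.1, z.2⟩ : Σ b, Q b)) ?_ ?_
      (FunMod.comap_smul _ fun _ _ => rfl)
    · exact fun f f' hff => funext fun z => by
        obtain ⟨w, rfl⟩ := hq.surjective z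
        exact congrFun hff w
    · intro f
      refine ⟨fun z => f ((_root_.Equiv.ofBijective _ hq).symm z), funext fun w => ?_⟩
      exact congrArg f ((_root_.Equiv.ofBijective _ hq).symm_apply_apply w)
  · intro Q _ _
    have : Subsingleton (FunMod (Σ i, Q i) A) := ⟨fun f f' => funext fun z => z.1.elim⟩
    rw [psi_subsingleton hadd, Finset.univ_eq_empty, Finset.sum_empty]
  · intro α _ ih Q _ _
    rw [show (∑ i, ψ (FunMod (Q i) A) (FunMod.nsmul_eq_zero hA)) =
      ψ (FunMod (Q none) A) (FunMod.nsmul_eq_zero hA) +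
        ∑ a, ψ (FunMod (Q (some a)) A) (FunMod.nsmul_eq_zero hA) by
      exact Fintype.sum_option (fun i => ψ (FunMod (Q i) A) (FunMod.nsmul_eq_zero hA)),
      ← ih fun a => Q (some a)]
    let ext0 : FunMod (Q none) A →+ FunMod (Σ i, Q i) A := AddMonoidHom.mk'
      (fun f z => match z with
        | ⟨none, x⟩ => f x
        | ⟨some _, _⟩ => 0)
      fun f f' => funext fun z => by
        rcases z with ⟨_ | a, x⟩
        · rfl
        · exact (add_zero (0 : A)).symm
    refine hadd _ _ _ _ _ _ ext0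
      (FunMod.comap fun z : Σ a, Q (some a) => (⟨some z.1, z.2⟩ : Σ i, Q i))
      (fun g f => funext fun z => ?_) (FunMod.comap_smul _ fun _ _ => rfl) ?_ ?_ ?_
    · rcases z with ⟨_ | a, x⟩
      · rfl
      · exact (smul_zero g).symm
    · exact fun f f' h => funext fun x => congrFun h ⟨none, x⟩
    · intro f
      refine ⟨fun h => ⟨fun x => f ⟨none, x⟩, funext fun z => ?_⟩, ?_⟩
      · rcases z with ⟨_ | a, x⟩
        · rfl
        · exact (congrFun h ⟨a, x⟩).symm
      · rintro ⟨f', rfl⟩
        rfl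
    · intro f
      refine ⟨fun z => match z with
        | ⟨none, _⟩ => 0
        | ⟨some a, x⟩ => f ⟨a, x⟩, rfl⟩

section Coefficients

/-- Artin's coefficients. -/
def artinCoeff : Subgroup G → ℤ :=
  haveI := Fintype.ofFinite (Subgroup G)
  (wellFounded_gt (α := Subgroup G)).fix fun C a =>
    open Classical in
    if IsCyclic C then 1 - ∑ D : {D : Subgroup G // C < D ∧ IsCyclic D}, a D.1 D.2.1 else 0

open Classical in
theorem artinCoeff_eq [Fintype (Subgroup G)] (C : Subgroup G) :
    artinCoeff C = if IsCyclic C then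
      1 - ∑ D : {D : Subgroup G // C < D ∧ IsCyclic D}, artinCoeff D.1 else 0 := by
  rw [artinCoeff, WellFounded.fix_eq]
  split_ifs
  · congr 1
    refine Finset.sum_congr ?_ fun _ _ => rfl
    ext; simp
  · rfl

open Classical in
theorem sum_artinCoeff [Fintype (Subgroup G)] (h : G) :
    ∑ C : Subgroup G, (if h ∈ C then artinCoeff C else 0) = 1 := by
  set Z := Subgroup.zpowers h
  have hZ := artinCoeff_eq Z
  rw [if_pos (inferInstance : IsCyclic Z), ← Finset.sum_subtype
    (Finset.univ.filter fun D : Subgroup G => Z < D ∧ IsCyclic D) (by simp) artinCoeff,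
    eq_sub_iff_add_eq] at hZ
  rw [← hZ, ← Finset.sum_filter, ← Finset.add_sum_erase _ _ (show Z ∈ _ from
    Finset.mem_filter.mpr ⟨Finset.mem_univ _, Subgroup.mem_zpowers h⟩)]
  refine congrArg _ (Finset.sum_subset (fun D hD => ?_) fun D hD hD' => ?_).symm
  · simp only [Finset.mem_filter, Finset.mem_univ, true_and, Finset.mem_erase] at hD ⊢
    exact ⟨hD.1.ne', hD.1.le (Subgroup.mem_zpowers h)⟩
  · simp only [Finset.mem_filter, Finset.mem_univ, true_and, Finset.mem_erase] at hD hD'
    have : ¬ IsCyclic D := fun hc =>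
      hD' ⟨lt_of_le_of_ne (Subgroup.zpowers_le.mpr hD.2) (Ne.symm hD.1), hc⟩
    rw [artinCoeff_eq, if_neg this]

theorem card_mul_fix (C : Subgroup G) (g : G) :
    Nat.card C * Nat.card {x : G ⧸ C // g • x = x} = Nat.card {y : G // y⁻¹ * g * y ∈ C} := by
  rw [← Nat.card_prod]
  refine (Nat.card_congr
    (QuotientGroup.preimageMkEquivSubgroupProdSet C {x : G ⧸ C | g • x = x})).symm.trans ?_
  refine Nat.card_congr (_root_.Equiv.subtypeEquivRight fun y => ?_)
  show g • (y : G ⧸ C) = (y : G ⧸ C) ↔ _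
  rw [eq_comm, show g • (y : G ⧸ C) = ((g * y : G) : G ⧸ C) from rfl, QuotientGroup.eq, mul_assoc]

end Coefficients

open Classical in
theorem eq_zero_of_vanishesOnCyclic {G : Type} [Group G] [Finite G] {p : ℕ} [Fact p.Prime]
    (ψ : ModInvariant G p) (hadd : IsAdditive ψ) (hC : VanishesOnCyclic ψ) :
    ∀ (A : Type) [AddCommGroup A] [DistribMulAction G A] [Finite A] (hA : ∀ a : A, p • a = 0),
      ψ A hA = 0 := by
  intro A _ _ _ hA
  have := Fintype.ofFinite G
  have := Fintype.ofFinite (Subgroup G)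
  have : Subsingleton (G ⧸ (⊤ : Subgroup G)) := QuotientGroup.subsingleton_quotient_top
  let v : Subgroup G → ℤ := fun C => ψ (FunMod (G ⧸ C) A) (FunMod.nsmul_eq_zero hA)
  let n : Subgroup G → ℤ := fun C => Nat.card C * artinCoeff C
  let b : Subgroup G → ℤ := fun C => n C - if C = ⊤ then (Nat.card G : ℤ) else 0
  let m₁ : Subgroup G → ℕ := fun C => (b C).toNat
  let m₂ : Subgroup G → ℕ := fun C => (-b C).toNat
  let Z : (Subgroup G → ℕ) → Type := fun m => Σ i : (Σ C : Subgroup G, Fin (m C)), G ⧸ i.1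
  let fx : Subgroup G → G → ℕ := fun C g => Nat.card {x : G ⧸ C // g • x = x}
  have hcount : ∀ (m : Subgroup G → ℕ) (g : G),
      (Finset.univ.filter fun z : Z m => g • z = z).card = ∑ C, m C * fx C g := by
    intro m g
    rw [show Finset.univ.filter (fun z : Z m => g • z = z) =
      (Finset.univ : Finset (Σ C : Subgroup G, Fin (m C))).sigma
        fun i => Finset.univ.filter fun x : G ⧸ i.1 => g • x = x by
      ext ⟨i, x⟩
      simp only [Finset.mem_univ, Finset.mem_filter, true_and]
      exact ⟨fun h => Finset.mem_sigma.mpr ⟨Finset.mem_univ _,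
          Finset.mem_filter.mpr ⟨Finset.mem_univ _, eq_of_heq (Sigma.mk.inj h).2⟩⟩,
        fun h => congrArg (Sigma.mk i) (Finset.mem_filter.mp (Finset.mem_sigma.mp h).2).2⟩,
      Finset.card_sigma, Fintype.sum_sigma]
    refine Finset.sum_congr rfl fun C _ => ?_
    trans ∑ _y : Fin (m C), fx C g
    · refine Finset.sum_congr rfl fun _ _ => ?_
      simp only [fx]
      rw [Nat.card_eq_fintype_card, Fintype.card_subtype]
    · simp
  have hb : ∀ g : G, ∑ C, b C * (fx C g : ℤ) = 0 := by
    intro g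
    have h1 : ∀ C, n C * (fx C g : ℤ) =
        ∑ y : G, if y⁻¹ * g * y ∈ C then artinCoeff C else 0 := fun C => by
      rw [← Finset.sum_filter, Finset.sum_const, nsmul_eq_mul,
        ← Fintype.card_subtype, ← Nat.card_eq_fintype_card, ← card_mul_fix]
      simp only [n, fx]
      push_cast; ring
    have htop : fx ⊤ g = 1 := by
      simp only [fx]
      rw [Nat.card_eq_one_iff_unique]
      exact ⟨⟨fun a b => Subtype.ext (Subsingleton.elim _ _)⟩,
        ⟨⟨((1 : G) : G ⧸ (⊤ : Subgroup G)), Subsingleton.elim _ _⟩⟩⟩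
    simp only [b, sub_mul, Finset.sum_sub_distrib, h1, ite_mul, zero_mul, Finset.sum_ite_eq',
      Finset.mem_univ, if_true]
    rw [Finset.sum_comm, Finset.sum_congr rfl fun y _ => sum_artinCoeff (y⁻¹ * g * y),
      Finset.sum_const, Finset.card_univ, htop, Nat.card_eq_fintype_card]
    simp
  have hfix : ∀ g : G, (Finset.univ.filter fun z : Z m₁ => g • z = z).card =
      (Finset.univ.filter fun z : Z m₂ => g • z = z).card := fun g => by
    rw [hcount, hcount]
    zify
    rw [← sub_eq_zero, ← Finset.sum_sub_distrib, ← hb g]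
    refine Finset.sum_congr rfl fun C _ => ?_
    rw [← sub_mul, Int.toNat_sub_toNat_neg]
  have hval : ∀ m : Subgroup G → ℕ,
      ψ (FunMod (Z m) A) (FunMod.nsmul_eq_zero hA) = ∑ C, (m C : ℤ) * v C := fun m => by
    rw [psi_funMod_sigma hadd hA (Σ C : Subgroup G, Fin (m C)) fun i => G ⧸ i.1, Fintype.sum_sigma]
    refine Finset.sum_congr rfl fun C _ => ?_
    refine (Finset.sum_const (s := (Finset.univ : Finset (Fin (m C)))) (v C)).trans ?_
    rw [Finset.card_univ, Fintype.card_fin, nsmul_eq_mul]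
  have h := psi_funMod_eq_of_fixed hadd hA hfix
  rw [hval, hval, ← sub_eq_zero, ← Finset.sum_sub_distrib] at h
  have hterm : ∀ C, (m₁ C : ℤ) * v C - (m₂ C : ℤ) * v C =
      -(if C = ⊤ then (Nat.card G : ℤ) * v C else 0) := fun C => by
    rw [← sub_mul, Int.toNat_sub_toNat_neg]
    have hn : n C * v C = 0 := by
      by_cases hc : IsCyclic C
      · simp only [v]
        rw [psi_funMod_cyclic hadd hC hA _ C rfl hc, mul_zero]
      · simp only [n]
        rw [artinCoeff_eq, if_neg hc, mul_zero, zero_mul]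
    simp only [b, sub_mul, hn, ite_mul, zero_mul, zero_sub]
  rw [Finset.sum_congr rfl fun C _ => hterm C, Finset.sum_neg_distrib, neg_eq_zero,
    Finset.sum_ite_eq' Finset.univ ⊤ fun C => (Nat.card G : ℤ) * v C, if_pos (Finset.mem_univ _),
    mul_eq_zero] at h
  have h' : v ⊤ = 0 := h.resolve_left (by exact_mod_cast Nat.card_pos.ne')
  rw [← h']
  refine psi_congr hadd _ _ (AddMonoidHom.mk' (fun a _ => a) fun _ _ => rfl)
    (fun a a' e => congrFun e ((1 : G) : G ⧸ (⊤ : Subgroup G)))
    (fun f => ⟨f ((1 : G) : G ⧸ (⊤ : Subgroup G)),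
      funext fun x => congrArg f (Subsingleton.elim _ _)⟩)
    fun _ _ => rfl

end Fermat.Agent.CFT.Euler
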