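import Fermat.Agent.CFT.Euler.ArtinLattice

/-!
Functions on cosets of a cyclic group: filtration by the powers of translation minus one.
-/

set_option autoImplicit false
set_option linter.unusedSectionVars false

noncomputable section

namespace Fermat.Agent.CFT.Euler

/-- Functions on a set with a group action, with values in a module, with the diagonal action. -/
def FunMod (X A : Type) : Type := X → A

namespace FunMod

variable {G : Type} [Group G] {X A : Type} [AddCommGroup A]

instance : AddCommGroup (FunMod X A) := inferInstanceAs (AddCommGroup (X → A))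

instance [Finite X] [Finite A] : Finite (FunMod X A) := inferInstanceAs (Finite (X → A))

theorem nsmul_eq_zero {p : ℕ} (hA : ∀ a : A, p • a = 0) (f : FunMod X A) : p • f = 0 :=
  funext fun x => hA (f x)

variable [MulAction G X] [DistribMulAction G A]

instance : DistribMulAction G (FunMod X A) where
  smul g f := fun x => g • f (g⁻¹ • x)
  one_smul f := funext fun x => show (1 : G) • f ((1 : G)⁻¹ • x) = f x by simp
  mul_smul a b f := funext fun x => by
    show (a * b) • f ((a * b)⁻¹ • x) = a • b • f (b⁻¹ • a⁻¹ • x)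
    simp [mul_smul]
  smul_zero g := funext fun x => smul_zero g
  smul_add g f f' := funext fun x => smul_add g _ _

theorem smul_apply (g : G) (f : FunMod X A) (x : X) : (g • f) x = g • f (g⁻¹ • x) := rfl

/-- Pullback of functions. -/
def comap {Y : Type} (q : Y → X) : FunMod X A →+ FunMod Y A :=
  AddMonoidHom.mk' (fun f y => f (q y)) fun _ _ => rfl

theorem comap_apply {Y : Type} (q : Y → X) (f : FunMod X A) (y : Y) : comap q f y = f (q y) := rfl

theorem comap_smul {Y : Type} [MulAction G Y] (q : Y → X)
    (hq : ∀ (g : G) (y : Y), q (g • y) = g • q y) (g : G) (f : FunMod X A) :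
    comap q (g • f) = g • comap q f := funext fun y => by
  rw [smul_apply, comap_apply, comap_apply, smul_apply, hq]

end FunMod

variable {G : Type} [Group G] {p : ℕ} {ψ : ModInvariant G p}
variable {A : Type} [AddCommGroup A] [DistribMulAction G A] [Finite A]

theorem psi_funMod_quot (hadd : IsAdditive ψ) [Finite G] (hA : ∀ a : A, p • a = 0) (C : Subgroup G) :
    ψ (CoindQ C A) (CoindQ.nsmul_eq_zero hA) = ψ (FunMod (G ⧸ C) A) (FunMod.nsmul_eq_zero hA) :=
  psi_congr hadd _ _ (AddMonoidHom.mk' (fun f => (f : G ⧸ C → A)) fun _ _ => rfl)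
    (fun _ _ h => h) (fun f => ⟨f, rfl⟩) fun _ _ => rfl

section Shift

variable {X Y : Type} [MulAction G X] [MulAction G Y] [Finite X] [Finite Y] [Fact p.Prime]

/-- A free permutation of order `p` commuting with the group, with its orbit map. -/
structure Shift (G : Type) [Group G] (p : ℕ) (X Y : Type) [MulAction G X] [MulAction G Y] where
  T : X → X
  q : X → Y
  sec : Y → X
  T_smul : ∀ (g : G) (x : X), T (g • x) = g • T x
  q_smul : ∀ (g : G) (x : X), q (g • x) = g • q x
  period : ∀ x, T^[p] x = x
  q_T : ∀ x, q (T x) = q x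
  q_sec : ∀ y, q (sec y) = y
  bij : Function.Bijective fun a : Fin p × Y => T^[a.1] (sec a.2)

variable (S : Shift G p X Y) (hA : ∀ a : A, p • a = 0)

/-- Translation minus one. -/
def Shift.D : AddMonoid.End (FunMod X A) := FunMod.comap S.T - AddMonoidHom.id _

/-- Translation. -/
def Shift.tr : AddMonoid.End (FunMod X A) := FunMod.comap S.T

theorem Shift.D_apply (f : FunMod X A) (x : X) : S.D f x = f (S.T x) - f x := rfl

theorem Shift.D_smul (g : G) (f : FunMod X A) : S.D (g • f) = g • S.D f := by
  show FunMod.comap S.T (g • f) - g • f = g • (FunMod.comap S.T f - f)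
  rw [FunMod.comap_smul _ S.T_smul, smul_sub]

theorem Shift.comap_pow_apply (n : ℕ) (f : FunMod X A) (x : X) :
    (S.tr ^ n) f x = f (S.T^[n] x) := by
  induction n generalizing x with
  | zero => rfl
  | succ n ih =>
    rw [pow_succ']
    show (S.tr ^ n) f (S.T x) = _
    rw [ih, Function.iterate_succ_apply]

include hA in
/-- The two identities among powers of translation minus one. -/
theorem Shift.D_identities (f : FunMod X A) :
    (S.D ^ p) f = 0 ∧
      ∀ x, (S.D ^ (p - 1)) f x = ∑ j ∈ Finset.range p, f (S.T^[j] x) := by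
  have hp : p.Prime := Fact.out
  have hchar : (p : AddMonoid.End (FunMod X A)) = 0 := by
    ext1 f
    show p • f = 0
    exact FunMod.nsmul_eq_zero hA f
  let τ : AddMonoid.End (FunMod X A) := S.tr
  have hD : S.D = τ - 1 := rfl
  have key : ∀ P Q : Polynomial ℤ,
      P.map (Int.castRingHom (ZMod p)) = Q.map (Int.castRingHom (ZMod p)) →
      Polynomial.aeval τ P = Polynomial.aeval τ Q := by
    intro P Q h
    rw [← sub_eq_zero, ← Polynomial.map_sub] at h
    have hdvd : Polynomial.C (p : ℤ) ∣ P - Q := (Polynomial.C_dvd_iff_dvd_coeff _ _).mpr fun i => by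
      have := congrArg (fun R : Polynomial (ZMod p) => R.coeff i) h
      simp only [Polynomial.coeff_map, Polynomial.coeff_zero] at this
      exact (ZMod.intCast_zmod_eq_zero_iff_dvd _ p).mp this
    obtain ⟨R, hR⟩ := hdvd
    rw [← sub_eq_zero, ← map_sub, hR, map_mul, Polynomial.aeval_C, map_natCast, hchar, zero_mul]
  have h1 : (τ - 1) ^ p = τ ^ p - 1 := by
    have := key ((Polynomial.X - 1) ^ p) (Polynomial.X ^ p - 1) (by simp [sub_pow_char])
    simpa using this
  have h2 : (τ - 1) ^ (p - 1) = ∑ j ∈ Finset.range p, τ ^ j := by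
    have := key ((Polynomial.X - 1) ^ (p - 1)) (∑ j ∈ Finset.range p, Polynomial.X ^ j) (by
      rw [Polynomial.map_pow, Polynomial.map_sub, Polynomial.map_sum]
      simp only [Polynomial.map_pow, Polynomial.map_X, Polynomial.map_one]
      refine mul_right_cancel₀ (b := (Polynomial.X - 1 : Polynomial (ZMod p)))
        (by simpa using Polynomial.X_sub_C_ne_zero (1 : ZMod p)) ?_
      rw [geom_sum_mul, ← pow_succ, Nat.sub_add_cancel hp.one_le, sub_pow_char, one_pow])
    simpa using this
  refine ⟨?_, fun x => ?_⟩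
  · rw [hD, h1]
    refine funext fun x => ?_
    show (τ ^ p) f x - f x = 0
    rw [S.comap_pow_apply, S.period, sub_self]
  · rw [hD, h2]
    let e : AddMonoid.End (FunMod X A) →+ A :=
      AddMonoidHom.mk' (fun φ => φ f x) fun _ _ => rfl
    show e (∑ j ∈ Finset.range p, τ ^ j) = _
    rw [map_sum]
    exact Finset.sum_congr rfl fun j _ => S.comap_pow_apply j f x

theorem Shift.pow_smul (n : ℕ) (g : G) (f : FunMod X A) : (S.D ^ n) (g • f) = g • (S.D ^ n) f := by
  induction n with
  | zero => rfl
  | succ n ih =>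
    rw [pow_succ']
    show S.D ((S.D ^ n) (g • f)) = g • S.D ((S.D ^ n) f)
    rw [ih, S.D_smul]

/-- The kernel of a power of translation minus one. -/
def Shift.K (A : Type) [AddCommGroup A] (n : ℕ) : AddSubgroup (FunMod X A) := (S.D ^ n).ker

theorem Shift.K_stable (n : ℕ) (g : G) : ∀ f ∈ S.K A n, g • f ∈ S.K A n :=
  ker_stable (S.pow_smul n) g

include hA in
theorem Shift.exists_lift {n : ℕ} (hn : n < p) {f : FunMod X A} (hf : f ∈ S.K A n) :
    ∃ f' ∈ S.K A (n + 1), S.D f' = f := by
  have hN : ∀ x, ∑ j ∈ Finset.range p, f (S.T^[j] x) = 0 := fun x => by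
    rw [← (S.D_identities hA f).2 x]
    have : (S.D ^ (p - 1)) f = 0 := by
      rw [show p - 1 = (p - 1 - n) + n by omega, pow_add]
      show (S.D ^ (p - 1 - n)) ((S.D ^ n) f) = 0
      rw [show (S.D ^ n) f = 0 from hf, map_zero]
    rw [this]; rfl
  let e := _root_.Equiv.ofBijective _ S.bij
  let f' : FunMod X A := fun x =>
    ∑ j ∈ Finset.range ((e.symm x).1 : ℕ), f (S.T^[j] (S.sec (e.symm x).2))
  have hf' : ∀ (k : Fin p) (y : Y),
      f' (S.T^[k] (S.sec y)) = ∑ j ∈ Finset.range (k : ℕ), f (S.T^[j] (S.sec y)) := fun k y => by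
    show ∑ j ∈ _, _ = _
    rw [show S.T^[k] (S.sec y) = e (k, y) from rfl, e.symm_apply_apply]
  have hD : S.D f' = f := by
    refine funext fun x => ?_
    obtain ⟨⟨k, y⟩, rfl⟩ := S.bij.surjective x
    rw [S.D_apply, ← Function.iterate_succ_apply' (f := S.T), hf']
    by_cases hk : (k : ℕ) + 1 < p
    · have := hf' ⟨(k : ℕ) + 1, hk⟩ y
      simp only at this
      rw [this, Finset.sum_range_succ, add_sub_cancel_left]
    · have hkp : (k : ℕ) + 1 = p := by have := k.2; omega
      rw [Nat.succ_eq_add_one, hkp, S.period]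
      have h0 := hf' ⟨0, (Fact.out : p.Prime).pos⟩ y
      simp only [Function.iterate_zero, id_eq, Finset.range_zero, Finset.sum_empty] at h0
      have hs := hN (S.sec y)
      rw [show Finset.range p = Finset.range ((k : ℕ) + 1) by rw [hkp], Finset.sum_range_succ] at hs
      rw [h0, zero_sub, neg_eq_of_add_eq_zero_right hs]
  refine ⟨f', ?_, hD⟩
  show (S.D ^ (n + 1)) f' = 0
  rw [pow_succ]
  show (S.D ^ n) (S.D f') = 0
  rw [hD]; exact hf

include S in
/-- The invariant of functions on the cover is `p` times the invariant below. -/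
theorem psi_funMod_shift (hadd : IsAdditive ψ) :
    ψ (FunMod X A) (FunMod.nsmul_eq_zero hA) = p * ψ (FunMod Y A) (FunMod.nsmul_eq_zero hA) := by
  have hp : p.Prime := Fact.out
  have hB : ∀ n, ∀ f : S.K A n, p • f = 0 := fun n =>
    nsmul_sub_eq_zero (FunMod.nsmul_eq_zero hA) _
  let act : ∀ n, DistribMulAction G (S.K A n) := fun n => subAction _ (S.K_stable n)
  have hle : ∀ n, S.K A n ≤ S.K A (n + 1) := fun n f hf => by
    show (S.D ^ (n + 1)) f = 0
    rw [pow_succ']
    show S.D ((S.D ^ n) f) = 0
    rw [show (S.D ^ n) f = 0 from hf, map_zero]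
  have hmem1 : ∀ n, S.K A 1 ≤ S.K A (n + 1) := fun n => by
    induction n with
    | zero => exact le_rfl
    | succ n ih => exact ih.trans (hle (n + 1))
  have step : ∀ n, n < p → ψ (S.K A (n + 1)) (hB _) = ψ (S.K A 1) (hB _) + ψ (S.K A n) (hB _) := by
    intro n hn
    let g : S.K A (n + 1) →+ S.K A n := AddMonoidHom.mk' (fun f => ⟨S.D f, by
      show (S.D ^ n) (S.D (f : FunMod X A)) = 0
      have h : (S.D ^ (n + 1)) (f : FunMod X A) = 0 := f.2
      rw [pow_succ] at h
      exact h⟩) fun a b => Subtype.ext (map_add S.D _ _)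
    refine hadd (S.K A 1) (S.K A (n + 1)) (S.K A n) _ _ _ (AddSubgroup.inclusion (hmem1 n)) g
      (fun _ _ => rfl) (fun s f => Subtype.ext (S.D_smul s (f : FunMod X A))) (AddSubgroup.inclusion_injective _)
      (fun f => ⟨fun h => ⟨⟨f, by
        show (S.D ^ 1) (f : FunMod X A) = 0
        rw [pow_one]; exact congrArg Subtype.val h⟩, rfl⟩, by
        rintro ⟨k, rfl⟩
        refine Subtype.ext ?_
        have hk : (S.D ^ 1) (k : FunMod X A) = 0 := k.2
        rw [pow_one] at hk
        exact hk⟩) fun f => ?_
    obtain ⟨f', h1, h2⟩ := S.exists_lift hA hn f.2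
    exact ⟨⟨f', h1⟩, Subtype.ext h2⟩
  have h0 : ψ (S.K A 0) (hB _) = 0 := by
    have : Subsingleton (S.K A 0) := ⟨fun a b => Subtype.ext
      ((show (a : FunMod X A) = 0 from a.2).trans (show (b : FunMod X A) = 0 from b.2).symm)⟩
    exact psi_subsingleton hadd _
  have hn : ∀ n, n ≤ p → ψ (S.K A n) (hB _) = n * ψ (S.K A 1) (hB _) := by
    intro n
    induction n with
    | zero => intro _; rw [h0]; simp
    | succ n ih => intro hn; rw [step n hn, ih (by omega)]; push_cast; ring
  have htop : ψ (S.K A p) (hB _) = ψ (FunMod X A) (FunMod.nsmul_eq_zero hA) :=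
    psi_congr hadd _ _ (S.K A p).subtype Subtype.val_injective
      (fun f => ⟨⟨f, (S.D_identities hA f).1⟩, rfl⟩) fun _ _ => rfl
  have hone : ψ (FunMod Y A) (FunMod.nsmul_eq_zero hA) = ψ (S.K A 1) (hB _) := by
    refine psi_congr hadd _ _ (AddMonoidHom.mk' (fun f => ⟨FunMod.comap S.q f, ?_⟩)
      fun _ _ => rfl) ?_ ?_ fun g f => Subtype.ext (FunMod.comap_smul _ S.q_smul g f)
    · show (S.D ^ 1) (FunMod.comap S.q f) = 0
      rw [pow_one]
      refine funext fun x => ?_
      rw [S.D_apply, FunMod.comap_apply, FunMod.comap_apply, S.q_T, sub_self]; rfl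
    · intro f f' h
      refine funext fun y => ?_
      have := congrFun (congrArg Subtype.val h) (S.sec y)
      simpa [FunMod.comap_apply, S.q_sec] using this
    · rintro ⟨f, hf⟩
      refine ⟨fun y => f (S.sec y), Subtype.ext (funext fun x => ?_)⟩
      show f (S.sec (S.q x)) = f x
      have hT : ∀ x, f (S.T x) = f x := fun x => by
        have h : (S.D ^ 1) f = 0 := hf
        rw [pow_one] at h
        exact sub_eq_zero.mp (congrFun h x)
      obtain ⟨⟨k, y⟩, rfl⟩ := S.bij.surjective x
      have hTk : ∀ (k : ℕ) (x : X), f (S.T^[k] x) = f x ∧ S.q (S.T^[k] x) = S.q x := fun k => by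
        induction k with
        | zero => exact fun x => ⟨rfl, rfl⟩
        | succ k ih =>
          intro x
          rw [Function.iterate_succ_apply]
          exact ⟨(ih _).1.trans (hT x), (ih _).2.trans (S.q_T x)⟩
      simp only [(hTk k (S.sec y)).2, S.q_sec, (hTk k (S.sec y)).1]
  rw [← htop, hn p le_rfl, hone]

end Shift

/-- Vanishing on all cyclic subgroups. -/
theorem psi_funMod_cyclic [Finite G] [Fact p.Prime] (hadd : IsAdditive ψ)
    (hC : VanishesOnCyclic ψ) (hA : ∀ a : A, p • a = 0) :
    ∀ (n : ℕ) (C : Subgroup G), Nat.card C = n → IsCyclic C →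
      ψ (FunMod (G ⧸ C) A) (FunMod.nsmul_eq_zero hA) = 0 := by
  have hp : p.Prime := Fact.out
  intro n
  induction n using Nat.strong_induction_on with
  | _ n ih =>
    intro C hn hcyc
    by_cases hdiv : Nat.Coprime p n
    · rw [← psi_funMod_quot hadd hA]
      exact hC C hcyc (hn ▸ hdiv) A hA
    rw [hp.coprime_iff_not_dvd, not_not] at hdiv
    obtain ⟨c, rfl⟩ : ∃ c, C = Subgroup.zpowers c := by
      obtain ⟨⟨c, hc⟩, hgen⟩ := hcyc.exists_generator
      refine ⟨c, le_antisymm (fun x hx => ?_) (Subgroup.zpowers_le.mpr hc)⟩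
      obtain ⟨k, hk⟩ := hgen ⟨x, hx⟩
      exact ⟨k, congrArg Subtype.val hk⟩
    rw [Nat.card_zpowers] at hn
    obtain ⟨m, hm⟩ := hdiv
    have hm' : orderOf (c ^ p) = m := by
      rw [orderOf_pow' c hp.ne_zero, hn, hm, Nat.gcd_mul_right_left, Nat.mul_div_cancel_left _ hp.pos]
    have hmpos : 0 < m := hm' ▸ orderOf_pos _
    have hmn : m < n := by
      rw [hm]; exact lt_mul_of_one_lt_left hmpos hp.one_lt
    set C' := Subgroup.zpowers (c ^ p)
    set C := Subgroup.zpowers c
    have hle : C' ≤ C := Subgroup.zpowers_le.mpr (pow_mem (Subgroup.mem_zpowers c) p)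
    let T : G ⧸ C' → G ⧸ C' := Quotient.map' (· * c) fun a b hab => by
      rw [QuotientGroup.leftRel_apply] at hab ⊢
      obtain ⟨k, hk⟩ := hab
      refine ⟨k, ?_⟩
      change (c ^ p) ^ k = a⁻¹ * b at hk
      change (c ^ p) ^ k = (a * c)⁻¹ * (b * c)
      rw [mul_inv_rev, mul_assoc, ← mul_assoc a⁻¹, ← hk]
      rw [← zpow_natCast, ← zpow_mul]
      rw [← mul_assoc, ← zpow_neg_one, ← zpow_add, ← zpow_add_one]
      congr 1; ring
    have hT : ∀ (j : ℕ) (a : G), T^[j] (a : G ⧸ C') = ((a * c ^ j : G) : G ⧸ C') := fun j => by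
      induction j with
      | zero => intro a; simp
      | succ j ih =>
        intro a
        rw [Function.iterate_succ_apply', ih, pow_succ, ← mul_assoc]
        rfl
    let q : G ⧸ C' → G ⧸ C := Subgroup.quotientMapOfLE hle
    have hqs : Function.Surjective q := fun y => by
      obtain ⟨a, rfl⟩ := QuotientGroup.mk_surjective y
      exact ⟨a, rfl⟩
    have := Fintype.ofFinite (G ⧸ C')
    have := Fintype.ofFinite (G ⧸ C)
    let S : Shift G p (G ⧸ C') (G ⧸ C) :=
      { T := T
        q := q
        sec := Function.surjInv hqs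
        T_smul := fun g x => by
          obtain ⟨a, rfl⟩ := QuotientGroup.mk_surjective x
          show ((g * a * c : G) : G ⧸ C') = ((g * (a * c) : G) : G ⧸ C')
          rw [mul_assoc]
        q_smul := fun g x => by
          obtain ⟨a, rfl⟩ := QuotientGroup.mk_surjective x
          rfl
        period := fun x => by
          obtain ⟨a, rfl⟩ := QuotientGroup.mk_surjective x
          rw [hT, QuotientGroup.eq]
          simp [C']
        q_T := fun x => by
          obtain ⟨a, rfl⟩ := QuotientGroup.mk_surjective x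
          show ((a * c : G) : G ⧸ C) = (a : G ⧸ C)
          rw [QuotientGroup.eq]
          simp [C]
        q_sec := fun y => Function.surjInv_eq hqs y
        bij := by
          refine (Fintype.bijective_iff_surjective_and_card _).mpr ⟨fun x => ?_, ?_⟩
          · obtain ⟨a, rfl⟩ := QuotientGroup.mk_surjective x
            obtain ⟨b, hb⟩ := QuotientGroup.mk_surjective (Function.surjInv hqs (a : G ⧸ C))
            have h1 : ((b : G) : G ⧸ C) = (a : G ⧸ C) := by
              have := Function.surjInv_eq hqs (a : G ⧸ C)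
              rwa [← hb] at this
            obtain ⟨k, hk⟩ := (QuotientGroup.eq (s := C)).mp h1
            refine ⟨(⟨(k % p).toNat, ?_⟩, (a : G ⧸ C)), ?_⟩
            · have := Int.emod_lt_of_pos k (by exact_mod_cast hp.pos : (0 : ℤ) < p)
              have := hp.pos
              omega
            show T^[(k % p).toNat] (Function.surjInv hqs (a : G ⧸ C)) = _
            rw [← hb, hT, QuotientGroup.eq]
            refine ⟨k / p, ?_⟩
            change c ^ k = b⁻¹ * a at hk
            change (c ^ p) ^ (k / p) = _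
            rw [mul_inv_rev, mul_assoc, ← hk, ← zpow_natCast c (k % p).toNat,
              Int.toNat_of_nonneg (Int.emod_nonneg k (by exact_mod_cast hp.ne_zero)),
              ← zpow_natCast c p, ← zpow_mul, ← zpow_neg, ← zpow_add]
            congr 1
            have := Int.mul_ediv_add_emod k p
            omega
          · rw [Fintype.card_prod, Fintype.card_fin, ← Nat.card_eq_fintype_card,
              ← Nat.card_eq_fintype_card]
            have e1 := Subgroup.card_eq_card_quotient_mul_card_subgroup C'
            have e2 := Subgroup.card_eq_card_quotient_mul_card_subgroup C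
            rw [Nat.card_zpowers, hm'] at e1
            rw [Nat.card_zpowers, hn, hm] at e2
            refine Nat.eq_of_mul_eq_mul_right hmpos ?_
            rw [← e1, e2]; ring }
    have h0 := ih m hmn C' (by rw [Nat.card_zpowers, hm']) inferInstance
    rw [psi_funMod_shift S hA hadd] at h0
    exact (mul_eq_zero.mp h0).resolve_left (by exact_mod_cast hp.ne_zero)

end Fermat.Agent.CFT.Euler
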