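import Fermat.Agent.CFT.Euler.Additive

/-!
Coinduced modules from a subgroup, realised as equivariant functions, with Shapiro for the Euler
index.
-/

set_option autoImplicit false
set_option linter.unusedSectionVars false
set_option linter.style.haveILetI false

noncomputable section

namespace Fermat.Agent.CFT.Euler

open Fermat.Agent.CFT

variable {G : Type} [Group G] (H : Subgroup G) (N : Type) [AddCommGroup N] [DistribMulAction H N]

/-- Equivariant functions, as a subgroup of all functions. -/
def coIndGroup : AddSubgroup (G → N) where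
  carrier := {F | ∀ (h : H) (x : G), F ((h : G) * x) = h • F x}
  add_mem' {F F'} hF hF' h x := by
    show F _ + F' _ = h • (F x + F' x)
    rw [hF, hF', smul_add]
  zero_mem' h _ := (smul_zero h).symm
  neg_mem' {F} hF h x := by
    show -F _ = h • -F x
    rw [hF, smul_neg]

/-- The coinduced module. -/
def CoInd : Type := coIndGroup H N

namespace CoInd

variable {H N}

instance : AddCommGroup (CoInd H N) := inferInstanceAs (AddCommGroup (coIndGroup H N))

/-- The underlying function. -/
def fn : CoInd H N →+ G → N := (coIndGroup H N).subtype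

/-- An equivariant function as an element of the coinduced module. -/
def mk (F : G → N) (hF : ∀ (h : H) (x : G), F ((h : G) * x) = h • F x) : CoInd H N := ⟨F, hF⟩

theorem fn_equi (F : CoInd H N) (h : H) (x : G) : fn F ((h : G) * x) = h • fn F x := F.2 h x

theorem ext {F F' : CoInd H N} (h : ∀ x, fn F x = fn F' x) : F = F' := Subtype.ext (funext h)

instance : DistribMulAction G (CoInd H N) where
  smul g F := mk (fun x => fn F (x * g)) fun h x => by
    show fn F (_ * g) = h • fn F (x * g)
    rw [mul_assoc, fn_equi]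
  one_smul F := ext fun x => by
    show fn F (x * 1) = fn F x
    rw [mul_one]
  mul_smul a b F := ext fun x => by
    show fn F (x * (a * b)) = fn F (x * a * b)
    rw [mul_assoc]
  smul_zero _ := rfl
  smul_add _ _ _ := rfl

theorem fn_smul (g : G) (F : CoInd H N) (x : G) : fn (g • F) x = fn F (x * g) := rfl

theorem fn_sum {ι : Type*} (s : Finset ι) (F : ι → CoInd H N) (x : G) :
    fn (∑ i ∈ s, F i) x = ∑ i ∈ s, fn (F i) x := by
  rw [map_sum, Finset.sum_apply]

/-- Evaluation at `1`. -/
def ev : CoInd H N →+ N := (Pi.evalAddMonoidHom (fun _ : G => N) 1).comp fn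

theorem ev_apply (F : CoInd H N) : ev F = fn F 1 := rfl

theorem ev_smul (g : G) (F : CoInd H N) : ev (g • F) = fn F g := by
  rw [ev_apply, fn_smul, one_mul]

theorem ev_smul_mem (h : H) (F : CoInd H N) : ev ((h : G) • F) = h • ev F := by
  rw [ev_smul, ev_apply, ← fn_equi, mul_one]

open scoped Classical in
/-- The function supported on `H`, unbundled. -/
def singleFn (n : N) (x : G) : N := if hx : x ∈ H then (⟨x, hx⟩ : H) • n else 0

theorem singleFn_mem (n : N) {x : G} (hx : x ∈ H) :
    singleFn (H := H) n x = (⟨x, hx⟩ : H) • n := dif_pos hx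

theorem singleFn_notMem (n : N) {x : G} (hx : x ∉ H) : singleFn (H := H) n x = 0 := dif_neg hx

/-- The function supported on `H`. -/
def single : N →+ CoInd H N :=
  AddMonoidHom.mk' (fun n => mk (singleFn n) fun h x => by
    by_cases hx : x ∈ H
    · rw [singleFn_mem _ hx, singleFn_mem _ (mul_mem h.2 hx), smul_smul]
      rfl
    · rw [singleFn_notMem _ hx,
        singleFn_notMem _ fun h' => hx ((H.mul_mem_cancel_left h.2).mp h'), smul_zero])
    fun a b => ext fun x => by
      show singleFn (a + b) x = singleFn a x + singleFn b x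
      by_cases hx : x ∈ H
      · simp only [singleFn_mem _ hx, smul_add]
      · simp only [singleFn_notMem _ hx, add_zero]

theorem fn_single_mem (n : N) {x : G} (hx : x ∈ H) :
    fn (single (H := H) n) x = (⟨x, hx⟩ : H) • n := singleFn_mem n hx

theorem fn_single_notMem (n : N) {x : G} (hx : x ∉ H) :
    fn (single (H := H) n) x = 0 := singleFn_notMem n hx

theorem ev_single (n : N) : ev (single (H := H) n) = n := by
  rw [ev_apply, fn_single_mem n H.one_mem]
  exact one_smul H n

variable [Fintype G]

theorem fn_sum_single [Fintype H] (a : G → N) (x : G) :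
    fn (∑ g : G, g • single (H := H) (a g)) x = ∑ h : H, h • a (x⁻¹ * h) := by
  classical
  rw [fn_sum, ← sum_subgroup_dite (H := H) fun h => h • a (x⁻¹ * h)]
  refine Fintype.sum_equiv (Equiv.mulLeft x) _ _ fun g => ?_
  rw [fn_smul, Equiv.coe_mulLeft]
  split_ifs with hx
  · rw [fn_single_mem _ hx, Subgroup.coe_mk, inv_mul_cancel_left]
  · exact fn_single_notMem _ hx

/-- Decomposition along the cosets. -/
theorem eq_sum [Fintype (G ⧸ H)] (F : CoInd H N) :
    F = ∑ q : G ⧸ H, q.out • single (fn F q.out⁻¹) := by
  refine ext fun x => ?_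
  rw [fn_sum, Finset.sum_eq_single ((x⁻¹ : G) : G ⧸ H)]
  · have hx : x * ((x⁻¹ : G) : G ⧸ H).out ∈ H := by
      have h := QuotientGroup.eq.mp (QuotientGroup.out_eq' ((x⁻¹ : G) : G ⧸ H))
      have h' := H.inv_mem h
      rwa [mul_inv_rev, inv_inv, inv_inv] at h'
    rw [fn_smul, fn_single_mem _ hx, ← fn_equi]
    exact congrArg (fn F) (mul_inv_cancel_right x _).symm
  · intro q _ hq
    rw [fn_smul]
    refine fn_single_notMem _ fun h => hq ?_
    rw [← QuotientGroup.out_eq' q, QuotientGroup.eq]
    have h' := H.inv_mem h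
    rwa [mul_inv_rev] at h'
  · exact fun h => absurd (Finset.mem_univ _) h

/-- Functoriality. -/
def map {N' : Type} [AddCommGroup N'] [DistribMulAction H N'] (i : N →+ N')
    (hi : ∀ (h : H) (n : N), i (h • n) = h • i n) : CoInd H N →+ CoInd H N' :=
  AddMonoidHom.mk' (fun F => mk (fun x => i (fn F x)) fun h x => by
    show i _ = h • i _
    rw [fn_equi, hi]) fun F F' => ext fun x => map_add i _ _

theorem fn_map {N' : Type} [AddCommGroup N'] [DistribMulAction H N'] (i : N →+ N')
    (hi : ∀ (h : H) (n : N), i (h • n) = h • i n) (F : CoInd H N) (x : G) :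
    fn (map i hi F) x = i (fn F x) := rfl

theorem map_smul {N' : Type} [AddCommGroup N'] [DistribMulAction H N'] (i : N →+ N')
    (hi : ∀ (h : H) (n : N), i (h • n) = h • i n) (g : G) (F : CoInd H N) :
    map i hi (g • F) = g • map i hi F := rfl

omit [Fintype G] in
theorem map_injective {N' : Type} [AddCommGroup N'] [DistribMulAction H N'] (i : N →+ N')
    (hi : ∀ (h : H) (n : N), i (h • n) = h • i n) (hinj : Function.Injective i) :
    Function.Injective (map (H := H) i hi) := fun _ _ h => ext fun x =>
  hinj (congrFun (congrArg fn h) x)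

omit [Fintype G] in
theorem map_exact {N' N'' : Type} [AddCommGroup N'] [DistribMulAction H N'] [AddCommGroup N'']
    [DistribMulAction H N''] (i : N' →+ N) (hi : ∀ (h : H) (n : N'), i (h • n) = h • i n)
    (q : N →+ N'') (hq : ∀ (h : H) (n : N), q (h • n) = h • q n) (hinj : Function.Injective i)
    (hex : ∀ y, q y = 0 → ∃ x, i x = y) (F : CoInd H N) (hF : map q hq F = 0) :
    ∃ F', map i hi F' = F := by
  choose a ha using fun x => hex (fn F x) (congrFun (congrArg fn hF) x)
  refine ⟨mk a fun h x => hinj ?_, ext fun x => ha x⟩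
  rw [hi, ha, ha, fn_equi]

theorem map_surjective {N' : Type} [AddCommGroup N'] [DistribMulAction H N'] (i : N →+ N')
    (hi : ∀ (h : H) (n : N), i (h • n) = h • i n) (hsur : Function.Surjective i) :
    Function.Surjective (map (H := H) i hi) := fun F => by
  letI : Fintype (G ⧸ H) := Fintype.ofFinite _
  choose n hn using hsur
  refine ⟨∑ q : G ⧸ H, q.out • single (n (fn F q.out⁻¹)), ?_⟩
  rw [map_sum]
  conv_rhs => rw [eq_sum F]
  refine Finset.sum_congr rfl fun q _ => ext fun x => ?_
  rw [fn_map, fn_smul, fn_smul]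
  by_cases hx : x * q.out ∈ H
  · rw [fn_single_mem _ hx, fn_single_mem _ hx, hi, hn]
  · rw [fn_single_notMem _ hx, fn_single_notMem _ hx, map_zero]

/-- Coordinates on coset representatives. -/
def coords : CoInd H N ≃+ (G ⧸ H → N) :=
  letI : Fintype (G ⧸ H) := Fintype.ofFinite _
  { toFun := fun F q => fn F q.out⁻¹
    invFun := fun a => ∑ q : G ⧸ H, q.out • single (a q)
    left_inv := fun F => (eq_sum F).symm
    right_inv := fun a => funext fun q => by
      classical
      show fn (∑ r : G ⧸ H, r.out • single (a r)) q.out⁻¹ = a q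
      rw [fn_sum, Finset.sum_eq_single q]
      · rw [fn_smul, inv_mul_cancel]
        exact ev_single (a q)
      · intro r _ hr
        rw [fn_smul]
        refine fn_single_notMem _ fun h => hr ?_
        rw [← QuotientGroup.out_eq' r, ← QuotientGroup.out_eq' q, QuotientGroup.eq]
        have h' := H.inv_mem h
        rwa [mul_inv_rev, inv_inv] at h'
      · exact fun h => absurd (Finset.mem_univ _) h
    map_add' := fun F F' => funext fun q => by
      show fn (F + F') q.out⁻¹ = fn F q.out⁻¹ + fn F' q.out⁻¹
      rw [map_add]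
      rfl }

variable {p : ℕ}

theorem modPFinite (hN : ModPFinite p N) : ModPFinite p (CoInd H N) := by
  letI : Fintype (G ⧸ H) := Fintype.ofFinite _
  exact (ModPFinite.pi fun _ : G ⧸ H => hN).congr coords.symm

/-- Coinduction preserves goodness. -/
theorem good [Fintype H] (hN : Good p H N) : Good p G (CoInd H N) := by
  intro P _ _ _ _ hP S hS hpS f hf
  obtain ⟨φ, hφ⟩ := hN P (hP.subgroup H) S (IsStable.restrict hS H) hpS (ev.comp f) fun h s => by
    show ev (f (smulS hS (h : G) s)) = h • ev (f s)
    rw [hf, ev_smul_mem]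
  refine ⟨single.comp φ, AddMonoidHom.ext fun s => ext fun x => ?_⟩
  rw [normOn_apply]
  show fn (∑ g : G, g • single (φ (smulS hS g⁻¹ s))) x = fn (f s) x
  rw [fn_sum_single, ← ev_smul, ← hf]
  refine Eq.trans ?_ (DFunLike.congr_fun hφ (smulS hS x s))
  rw [normOn_apply]
  refine Finset.sum_congr rfl fun h _ => ?_
  show h • φ _ = h • φ _
  congr 2
  refine Subtype.ext ?_
  show (x⁻¹ * (h : G))⁻¹ • (s : P) = ((h : G))⁻¹ • x • (s : P)
  rw [mul_inv_rev, inv_inv, mul_smul]

variable [hp : Fact p.Prime] {A : Type} [AddCommGroup A] [DistribMulAction G A]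

omit hp in
theorem postEv_bijective [Fintype H] {P : Type} [AddCommGroup P] [DistribMulAction G P]
    {R : AddSubgroup P} (hR : IsStable G R) :
    Function.Bijective (fun f : equivHom (C := CoInd H N) hR =>
      (⟨ev.comp f.1, fun h s => by
        show ev (f.1 (smulS hR (h : G) s)) = h • ev (f.1 s)
        rw [f.2, ev_smul_mem]⟩ : equivHom (C := N) (IsStable.restrict hR H))) := by
  refine ⟨fun f f' h => Subtype.ext (AddMonoidHom.ext fun s => ext fun x => ?_), fun f => ?_⟩
  · rw [← ev_smul, ← ev_smul, ← f.2, ← f'.2]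
    exact DFunLike.congr_fun (congrArg Subtype.val h) (smulS hR x s)
  · let F : R →+ CoInd H N := AddMonoidHom.mk'
      (fun s => mk (fun x => f.1 (smulS hR x s)) fun h x => by
        show f.1 _ = h • f.1 _
        rw [← smulS_smulS]
        exact f.2 h _) fun s t => ext fun x => by
        show f.1 _ = f.1 _ + f.1 _
        rw [smulS_add, map_add]
    refine ⟨⟨F, fun g s => ext fun x => ?_⟩, Subtype.ext (AddMonoidHom.ext fun s => ?_)⟩
    · show f.1 (smulS hR x (smulS hR g s)) = f.1 (smulS hR (x * g) s)
      rw [smulS_smulS]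
    · show f.1 (smulS hR 1 s) = f.1 s
      exact congrArg f.1 (Subtype.ext (one_smul G (s : P)))

/-- Shapiro in the coefficients. -/
theorem index_eq [Fintype H] (X : Pres p G A) :
    X.index (CoInd H N) = (X.restrict H).index N := by
  let e : ∀ {R : AddSubgroup X.P} (hR : IsStable G R),
      equivHom (C := CoInd H N) hR →+ equivHom (C := N) (IsStable.restrict hR H) := fun hR =>
    AddMonoidHom.mk' (fun f => ⟨ev.comp f.1, fun h s => by
      show ev (f.1 (smulS hR (h : G) s)) = h • ev (f.1 s)
      rw [f.2, ev_smul_mem]⟩) fun f f' => Subtype.ext (AddMonoidHom.ext fun s => map_add ev _ _)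
  exact (lpIndex_of_bijective p (e X.hK) (e X.hS) (postEv_bijective X.hK) (postEv_bijective X.hS)
    fun _ => rfl).1

end CoInd

end Fermat.Agent.CFT.Euler
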