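import Fermat.Agent.CFT.Euler.ModP

/-!
Finiteness modulo `p` for cokernels and for subgroups of finite index.
-/

set_option autoImplicit false
set_option linter.unusedSectionVars false
set_option linter.style.haveILetI false

noncomputable section

namespace Fermat.Agent.CFT.Euler

open Fermat.Agent.CFT

variable {p : ℕ} {A B C : Type*} [AddCommGroup A] [AddCommGroup B] [AddCommGroup C]

/-- Finiteness passes to cokernels. -/
theorem ModPFinite.of_cokernel (i : A →+ B) (q : B →+ C) (_hi : Function.Injective i)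
    (hex : ∀ y, q y = 0 → ∃ x, i x = y) (hq : Function.Surjective q) (hqi : ∀ x, q (i x) = 0)
    (hA : ModPFinite p A) (hB : ModPFinite p B) : ModPFinite p C := by
  refine ⟨?_, hB.of_surjective q hq⟩
  let μA := (nsmulAddMonoidHom p : A →+ A)
  haveI : μA.range.FiniteIndex := ⟨hA.quot⟩
  haveI : Finite (A ⧸ μA.range) := AddSubgroup.finite_quotient_of_finiteIndex
  haveI := hB.tors
  let μC := (nsmulAddMonoidHom p : C →+ C)
  have key : ∀ y : μC.ker, ∃ (r : A ⧸ μA.range) (x : B), p • x = i r.out ∧ q x = (y : C) := by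
    rintro ⟨y, hy⟩
    obtain ⟨x, rfl⟩ := hq y
    obtain ⟨u, hu⟩ := hex (p • x) (by rw [map_nsmul]; exact hy)
    obtain ⟨u', hu'⟩ : ∃ u', p • u' = -((u : A ⧸ μA.range).out) + u := by
      have h := QuotientAddGroup.eq.mp (QuotientAddGroup.out_eq' (u : A ⧸ μA.range))
      exact h
    refine ⟨(u : A ⧸ μA.range), x - i u', ?_, by rw [map_sub, hqi, sub_zero]⟩
    rw [smul_sub, ← hu, ← map_nsmul, hu', ← map_sub]
    congr 1
    abel
  choose r x hx hqx using key
  choose s hs using fun r : A ⧸ μA.range =>
    show ∃ s : B, True ∧ ((∃ x' : B, p • x' = i r.out) → p • s = i r.out) from by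
      by_cases h : ∃ x' : B, p • x' = i r.out
      · exact ⟨h.choose, trivial, fun _ => h.choose_spec⟩
      · exact ⟨0, trivial, fun h' => absurd h' h⟩
  refine Finite.of_injective (fun y => (r y, (⟨x y - s (r y), by
    show p • (x y - s (r y)) = 0
    rw [smul_sub, hx, (hs (r y)).2 ⟨x y, hx y⟩, sub_self]⟩ :
      (nsmulAddMonoidHom p : B →+ B).ker))) fun y y' h => Subtype.ext ?_
  obtain ⟨h1, h2⟩ := Prod.ext_iff.mp h
  have h3 : x y - s (r y) = x y' - s (r y') := congrArg Subtype.val h2
  simp only at h1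
  rw [← hqx y, ← hqx y', show x y = x y' from by rwa [h1, sub_left_inj] at h3]

/-- Finiteness passes to subgroups of finite index. -/
theorem ModPFinite.of_finiteIndex (f : A →+ B) (hf : Function.Injective f)
    (hidx : f.range.index ≠ 0) (hB : ModPFinite p B) : ModPFinite p A := by
  refine ⟨hB.of_injective f hf, ?_⟩
  let μA := (nsmulAddMonoidHom p : A →+ A)
  let μB := (nsmulAddMonoidHom p : B →+ B)
  have e : (μA.range.map f) = f.range.map μB := by
    rw [AddMonoidHom.map_range, AddMonoidHom.map_range]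
    congr 1
    exact AddMonoidHom.ext fun a => map_nsmul f p a
  have h1 : μA.range.index = (f.range.map μB).relIndex f.range := by
    rw [← e, AddMonoidHom.range_eq_map f, AddSubgroup.relIndex_map_map_of_injective _ _ hf,
      AddSubgroup.relIndex_top_right]
  have h2 : (f.range.map μB).index ≠ 0 := by
    rw [AddSubgroup.index_map]
    refine mul_ne_zero (fun h0 => hidx ?_) hB.quot
    exact Nat.eq_zero_of_zero_dvd (h0 ▸ AddSubgroup.index_dvd_of_le le_sup_left)
  intro h0
  have hle : f.range.map μB ≤ f.range := by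
    rintro _ ⟨_, ⟨a, rfl⟩, rfl⟩
    exact ⟨p • a, map_nsmul f p a⟩
  rw [← AddSubgroup.relIndex_mul_index hle, ← h1, h0, zero_mul] at h2
  exact h2 rfl

end Fermat.Agent.CFT.Euler
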