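import Fermat.Agent.CFT.Duality.Semilocal
import Fermat.Agent.CFT.Euler.CoInd
import Fermat.Agent.CFT.Euler.ModPExtra
import Fermat.Agent.CFT.Local.PowIndex

/-!
The exact sequence `0 → T-units → ∏_{q ∈ T} semilocal units → classes modulo unit families → 0`.
-/

set_option autoImplicit false
set_option synthInstance.maxHeartbeats 200000
set_option linter.unusedSectionVars false
set_option linter.style.haveILetI false

noncomputable section

namespace Fermat.Agent.CFT.Euler

open ExtCitation Fermat.Agent.Arith IntermediateField Fermat.Agent.CFT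
open Fermat.Agent.CFT.Local Fermat.Agent.CFT.Idele Fermat.Agent.CFT.Duality

-- use the shortcut group structures of the idele modules first
attribute [local instance 2000] cAddCommGroup jAddCommGroup Subgroup.toCommGroup
  AddSubgroup.normal_of_isAddCommutative AddCommMagma.to_isCommutative
  AddCommMonoid.toAddCommSemigroup AddCommSemigroup.toAddCommMagma AddCommGroup.toAddCommMonoid

local instance factPrimeEulerSemi (q : Nat.Primes) : Fact (q : ℕ).Prime := ⟨q.2⟩

variable (K : IntermediateField ℚ QBar) [FiniteDimensional ℚ K] [Normal ℚ K]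

/-- The local Galois group as the decomposition group. -/
def locEquiv (q : Nat.Primes) : (E K q ≃ₐ[ℚ_[(q : ℕ)]] E K q) ≃* decomp K q :=
  MonoidHom.ofInjective (toGlobal_injective (q : ℕ) K)

/-- The multiplicative group of the completion at the distinguished place over `q`. -/
def LocUnits (q : Nat.Primes) : Type := Additive (E K q)ˣ

instance (q : Nat.Primes) : AddCommGroup (LocUnits K q) :=
  inferInstanceAs (AddCommGroup (Additive (E K q)ˣ))

instance (q : Nat.Primes) : DistribMulAction (decomp K q) (LocUnits K q) :=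
  DistribMulAction.compHom (Additive (E K q)ˣ) (locEquiv K q).symm.toMonoidHom

/-- A unit as an element of the local module. -/
def toLoc (q : Nat.Primes) : Additive (E K q)ˣ ≃+ LocUnits K q := AddEquiv.refl _

omit [FiniteDimensional ℚ K] in
theorem smul_toLoc (q : Nat.Primes) (t : E K q ≃ₐ[ℚ_[(q : ℕ)]] E K q) (y : Additive (E K q)ˣ) :
    locEquiv K q t • toLoc K q y = toLoc K q (t • y) := by
  show (locEquiv K q).symm (locEquiv K q t) • y = t • y
  rw [MulEquiv.symm_apply_apply]

theorem locUnits_modPFinite {p : ℕ} [hp : Fact p.Prime] (hp2 : p ≠ 2) (q : Nat.Primes) :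
    ModPFinite p (LocUnits K q) := by
  let f := (powMonoidHom p : (E K q)ˣ →* (E K q)ˣ)
  haveI : NeZero p := ⟨hp.out.ne_zero⟩
  haveI hfin : Finite f.ker := by
    have e : f.ker = rootsOfUnity p (E K q) := by ext x; rfl
    rw [e]
    infer_instance
  refine ModPFinite.congr (toLoc K q) ⟨?_, ?_⟩
  · exact Finite.of_injective (fun x : (nsmulAddMonoidHom p : Additive (E K q)ˣ →+ _).ker =>
      (⟨x.1.toMul, x.2⟩ : f.ker)) fun x y h => Subtype.ext (congrArg Subtype.val h :)
  · have e : (nsmulAddMonoidHom p : Additive (E K q)ˣ →+ _).range.index = f.range.index := by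
      rw [← Subgroup.index_toAddSubgroup]
      congr 1
    rw [e, index_range_pow hp2]
    refine mul_ne_zero (mul_ne_zero hp.out.ne_zero Nat.card_pos.ne') ?_
    split_ifs
    · exact pow_ne_zero _ hp.out.ne_zero
    · exact one_ne_zero

variable (T : Finset Nat.Primes)

/-- The semilocal module at `q`. -/
abbrev SemiLoc (q : Nat.Primes) : Type := CoInd (decomp K q) (LocUnits K q)

/-- The values of an idele at the primes of `T`. -/
def semiVal : J K →+ ∀ q : T, SemiLoc K q :=
  AddMonoidHom.mk'
    (fun x q => CoInd.mk (fun σ => toLoc K q (Additive.ofMul (val x.toMul (q : Nat.Primes) σ)))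
      fun h σ => by
        obtain ⟨t, rfl⟩ := (locEquiv K q).surjective h
        rw [smul_toLoc]
        show toLoc K q (Additive.ofMul
          (val x.toMul (q : Nat.Primes) (toGlobal ((q : Nat.Primes) : ℕ) K t * σ))) = _
        rw [val_toGlobal_mul]
        rfl)
    fun x y => funext fun q => CoInd.ext fun σ => by
      exact (congrArg (fun u => toLoc K q (Additive.ofMul u))
        (val_mul x.toMul y.toMul (q : Nat.Primes) σ)).trans (map_add (toLoc K q) _ _)

theorem semiVal_smul (g : K ≃ₐ[ℚ] K) (x : J K) : semiVal K T (g • x) = g • semiVal K T x :=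
  funext fun q => CoInd.ext fun σ => by
    show toLoc K q (Additive.ofMul (val (g • x).toMul _ σ)) =
      toLoc K q (Additive.ofMul (val x.toMul _ (σ * g)))
    rw [val_smul_J]

open Classical in
/-- The idele with given values at `T` and trivial elsewhere. -/
def semiIdl : (∀ q : T, SemiLoc K q) →+ J K :=
  AddMonoidHom.mk'
    (fun F => Additive.ofMul (Family.toIdl (L := K)
      { toFun := fun q σ =>
          if h : q ∈ T then ((toLoc K q).symm (CoInd.fn (F ⟨q, h⟩) σ)).toMul else 1
        equi := fun q t σ => by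
          by_cases h : q ∈ T
          · simp only [dif_pos h]
            have e := CoInd.fn_equi (F ⟨q, h⟩) (locEquiv K q t) σ
            rw [show ((locEquiv K q t : decomp K q) : K ≃ₐ[ℚ] K) = toGlobal (q : ℕ) K t from rfl]
              at e
            obtain ⟨z, hz⟩ := (toLoc K q).surjective (CoInd.fn (F ⟨q, h⟩) σ)
            rw [e, ← hz, smul_toLoc, AddEquiv.symm_apply_apply, AddEquiv.symm_apply_apply]
            rfl
          · simp only [dif_neg h, smul_one]
        cofinite := ⟨T, fun q hq σ => by rw [dif_neg hq]; exact one_mem _⟩ }))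
    fun F F' => J_ext fun q σ => by
      refine Eq.trans ?_ (val_mul _ _ q σ).symm
      simp only [toMul_ofMul, Family.val_toIdl]
      by_cases h : q ∈ T
      · simp only [dif_pos h, Pi.add_apply, map_add]
        rfl
      · simp only [dif_neg h, mul_one]

theorem val_semiIdl_mem (F : ∀ q : T, SemiLoc K q) (q : Nat.Primes) (h : q ∈ T)
    (σ : K ≃ₐ[ℚ] K) : val (semiIdl K T F).toMul q σ =
      ((toLoc K q).symm (CoInd.fn (F ⟨q, h⟩) σ)).toMul := by
  refine Eq.trans (Family.val_toIdl _ q σ) ?_
  exact dif_pos h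

theorem val_semiIdl_notMem (F : ∀ q : T, SemiLoc K q) (q : Nat.Primes) (h : q ∉ T)
    (σ : K ≃ₐ[ℚ] K) : val (semiIdl K T F).toMul q σ = 1 := by
  refine Eq.trans (Family.val_toIdl _ q σ) ?_
  exact dif_neg h

theorem semiIdl_smul (g : K ≃ₐ[ℚ] K) (F : ∀ q : T, SemiLoc K q) :
    semiIdl K T (g • F) = g • semiIdl K T F := J_ext fun q σ => by
  rw [val_smul_J]
  by_cases h : q ∈ T
  · rw [val_semiIdl_mem K T _ q h, val_semiIdl_mem K T _ q h, Pi.smul_apply, CoInd.fn_smul]
  · rw [val_semiIdl_notMem K T _ q h, val_semiIdl_notMem K T _ q h]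

theorem semiVal_semiIdl (F : ∀ q : T, SemiLoc K q) : semiVal K T (semiIdl K T F) = F :=
  funext fun q => CoInd.ext fun σ => by
    show toLoc K q (Additive.ofMul (val (semiIdl K T F).toMul _ σ)) = _
    rw [val_semiIdl_mem K T F _ q.2, ofMul_toMul, AddEquiv.apply_symm_apply]

theorem semiVal_unitsOff {x : J K} (hx : x ∈ unitsOff K (T : Set Nat.Primes)) :
    semiVal K T x = 0 :=
  funext fun q => CoInd.ext fun σ => by
    show toLoc K q (Additive.ofMul (val x.toMul _ σ)) = CoInd.fn 0 σ
    rw [(hx _ σ).2 q.2, map_zero CoInd.fn, ofMul_one, map_zero]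
    rfl

/-- An idele which is a unit outside `T` differs from its part at `T` by a unit family. -/
theorem sub_semiIdl_mem {x : J K} (hx : ∀ q ∉ T, ∀ σ, val x.toMul q σ ∈ unitGroup (E K q)) :
    x - semiIdl K T (semiVal K T x) ∈ unitsOff K (T : Set Nat.Primes) := fun q σ => by
  have e : val (x - semiIdl K T (semiVal K T x)).toMul q σ =
      val x.toMul q σ * (val (semiIdl K T (semiVal K T x)).toMul q σ)⁻¹ := by
    rw [show (x - semiIdl K T (semiVal K T x)).toMul =
      x.toMul * ((semiIdl K T (semiVal K T x)).toMul)⁻¹ from div_eq_mul_inv _ _, val_mul,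
      show val ((semiIdl K T (semiVal K T x)).toMul)⁻¹ q σ = _ from map_inv (valHom q σ) _]
    rfl
  rw [e]
  by_cases h : q ∈ T
  · have e2 : val (semiIdl K T (semiVal K T x)).toMul q σ = val x.toMul q σ := by
      rw [val_semiIdl_mem K T _ q h]
      rfl
    rw [e2, mul_inv_cancel]
    exact ⟨one_mem _, fun _ => rfl⟩
  · rw [val_semiIdl_notMem K T _ q h, inv_one, mul_one]
    exact ⟨hx q h σ, fun h' => absurd h' h⟩

/-- The `T`-units. -/
def tUnits : AddSubgroup (Additive Kˣ) where
  carrier := {x | ∀ q ∉ T, ∀ σ, val (diag K x).toMul q σ ∈ unitGroup (E K q)}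
  add_mem' {x y} hx hy q hq σ := by
    rw [map_add]
    show val (_ * _) q σ ∈ _
    rw [val_mul]
    exact mul_mem (hx q hq σ) (hy q hq σ)
  zero_mem' q hq σ := by
    rw [map_zero]
    show val 1 q σ ∈ _
    rw [val_one]
    exact one_mem _
  neg_mem' {x} hx q hq σ := by
    rw [map_neg]
    show val (_)⁻¹ q σ ∈ _
    rw [show val ((diag K x).toMul)⁻¹ q σ = _ from map_inv (valHom q σ) _]
    exact inv_mem (hx q hq σ)

theorem tUnits_stable : IsStable (K ≃ₐ[ℚ] K) (tUnits K T) := fun g x hx q hq σ => by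
  rw [diag_smul, val_smul_J]
  exact hx q hq _

/-- The `T`-units as a module. -/
def TUnits : Type := tUnits K T

instance : AddCommGroup (TUnits K T) := inferInstanceAs (AddCommGroup (tUnits K T))

instance : DistribMulAction (K ≃ₐ[ℚ] K) (TUnits K T) := stableAction (tUnits_stable K T)

/-- The `T`-units in the field. -/
def TUnits.incl : TUnits K T →+ Additive Kˣ := (tUnits K T).subtype

theorem TUnits.incl_smul (g : K ≃ₐ[ℚ] K) (x : TUnits K T) :
    TUnits.incl K T (g • x) = g • TUnits.incl K T x := rfl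

/-- The diagonal map on `T`-units. -/
def tDiag : TUnits K T →+ ∀ q : T, SemiLoc K q :=
  (semiVal K T).comp ((diag K).comp (TUnits.incl K T))

theorem tDiag_smul (g : K ≃ₐ[ℚ] K) (x : TUnits K T) : tDiag K T (g • x) = g • tDiag K T x := by
  show semiVal K T (diag K (TUnits.incl K T (g • x))) = _
  rw [TUnits.incl_smul, diag_smul, semiVal_smul]
  rfl

theorem unitsOff_proj_stable :
    IsStable (K ≃ₐ[ℚ] K) ((unitsOff K (T : Set Nat.Primes)).map (proj K)) := by
  rintro g _ ⟨x, hx, rfl⟩
  exact ⟨g • x, smul_mem_unitsOff g hx, proj_smul K g x⟩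

/-- Idele classes modulo unit families outside `T`. -/
def ClassMod : Type := C K ⧸ (unitsOff K (T : Set Nat.Primes)).map (proj K)

instance : AddCommGroup (ClassMod K T) :=
  inferInstanceAs (AddCommGroup (C K ⧸ (unitsOff K (T : Set Nat.Primes)).map (proj K)))

instance : DistribMulAction (K ≃ₐ[ℚ] K) (ClassMod K T) := quotAction (unitsOff_proj_stable K T)

/-- The projection from idele classes. -/
def toClassMod : C K →+ ClassMod K T := QuotientAddGroup.mk' _

theorem toClassMod_smul (g : K ≃ₐ[ℚ] K) (c : C K) :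
    toClassMod K T (g • c) = g • toClassMod K T c := rfl

/-- The projection from semilocal units. -/
def semiProj : (∀ q : T, SemiLoc K q) →+ ClassMod K T :=
  (toClassMod K T).comp ((proj K).comp (semiIdl K T))

theorem semiProj_smul (g : K ≃ₐ[ℚ] K) (F : ∀ q : T, SemiLoc K q) :
    semiProj K T (g • F) = g • semiProj K T F := by
  show toClassMod K T (proj K (semiIdl K T (g • F))) = _
  rw [semiIdl_smul, proj_smul, toClassMod_smul]
  rfl

theorem toClassMod_eq_zero_iff (c : C K) :
    toClassMod K T c = 0 ↔ ∃ u ∈ unitsOff K (T : Set Nat.Primes), proj K u = c :=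
  (QuotientAddGroup.eq_zero_iff c).trans AddSubgroup.mem_map

attribute [local instance 2000] AddCommGroup.toAddGroup AddGroup.toSubNegMonoid
  AddGroup.toSubtractionMonoid SubtractionMonoid.toSubNegZeroMonoid

theorem proj_diag (a : Additive Kˣ) : proj K (diag K a) = 0 :=
  (proj_eq_zero_iff K).mpr ⟨a.toMul, rfl⟩

theorem exists_tDiag_eq (F : ∀ q : T, SemiLoc K q) (h : semiProj K T F = 0) :
    ∃ x, tDiag K T x = F := by
  obtain ⟨u, hu, hpu⟩ := (toClassMod_eq_zero_iff K T _).mp h
  obtain ⟨a, ha⟩ := (proj_eq_zero_iff K).mp (show proj K (semiIdl K T F - u) = 0 by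
    rw [map_sub, hpu]; exact sub_self _)
  have ha' : diag K (Additive.ofMul a) = semiIdl K T F - u := congrArg Additive.ofMul ha
  have hmem : Additive.ofMul a ∈ tUnits K T := fun q hq σ => by
    rw [ha', show (semiIdl K T F - u).toMul = (semiIdl K T F).toMul * u.toMul⁻¹ from
      div_eq_mul_inv _ _, val_mul, val_semiIdl_notMem K T F q hq,
      show val u.toMul⁻¹ q σ = _ from map_inv (valHom q σ) _, one_mul]
    exact inv_mem (hu q σ).1
  refine ⟨⟨Additive.ofMul a, hmem⟩, ?_⟩
  show semiVal K T (diag K (Additive.ofMul a)) = F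
  rw [ha', map_sub, semiVal_semiIdl, semiVal_unitsOff K T hu, sub_zero]

theorem semiProj_tDiag (x : TUnits K T) : semiProj K T (tDiag K T x) = 0 := by
  refine (toClassMod_eq_zero_iff K T _).mpr ⟨_, neg_mem (sub_semiIdl_mem K T (x := diag K
    (TUnits.incl K T x)) x.2), ?_⟩
  rw [neg_sub, map_sub, proj_diag, sub_zero]
  rfl

theorem semiProj_surjective
    (hgen : ∀ f : J K, ∃ a : Additive Kˣ, ∀ q ∉ T, ∀ σ,
      val (f + diag K a).toMul q σ ∈ unitGroup (E K q)) :
    Function.Surjective (semiProj K T) := fun y => by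
  obtain ⟨c, rfl⟩ := QuotientAddGroup.mk'_surjective _ y
  obtain ⟨x, rfl⟩ := proj_surjective K c
  obtain ⟨a, ha⟩ := hgen x
  refine ⟨semiVal K T (x + diag K a), ?_⟩
  show toClassMod K T (proj K _) = toClassMod K T (proj K x)
  refine (sub_eq_zero.mp ?_).symm
  rw [← map_sub (toClassMod K T)]
  refine (toClassMod_eq_zero_iff K T _).mpr ⟨_, sub_semiIdl_mem K T ha, ?_⟩
  rw [map_sub, map_add, proj_diag, add_zero]

theorem tDiag_injective (hT : T.Nonempty) : Function.Injective (tDiag K T) := by
  obtain ⟨q, hq⟩ := hT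
  refine (injective_iff_map_eq_zero _).mpr fun x hx => ?_
  have h1 : CoInd.fn (tDiag K T x ⟨q, hq⟩) 1 = 0 := by
    rw [hx]
    exact congrFun (map_zero CoInd.fn) 1
  have h2 : val (diag K (TUnits.incl K T x)).toMul q 1 = 1 :=
    congrArg Additive.toMul ((toLoc K q).map_eq_zero_iff.mp h1)
  have h3 : localEmb (q : ℕ) K ((TUnits.incl K T x).toMul : Kˣ) = 1 := by
    have e := val_prinL (L := K) (TUnits.incl K T x).toMul q 1
    rw [show val (prinL K (TUnits.incl K T x).toMul) q 1 = 1 from h2] at e
    exact e.symm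
  refine Subtype.ext (Additive.toMul.injective (Units.ext ?_))
  exact (localEmb (q : ℕ) K).injective (h3.trans (map_one _).symm)

theorem semiLoc_modPFinite {p : ℕ} [Fact p.Prime] (hp2 : p ≠ 2) (q : Nat.Primes) :
    ModPFinite p (SemiLoc K q) := CoInd.modPFinite (locUnits_modPFinite K hp2 q)

theorem classMod_modPFinite {p : ℕ} [Fact p.Prime] (hp2 : p ≠ 2) (hT : T.Nonempty)
    (hgen : ∀ f : J K, ∃ a : Additive Kˣ, ∀ q ∉ T, ∀ σ,
      val (f + diag K a).toMul q σ ∈ unitGroup (E K q))
    (hU : ModPFinite p (TUnits K T)) : ModPFinite p (ClassMod K T) :=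
  ModPFinite.of_cokernel (tDiag K T) (semiProj K T) (tDiag_injective K T hT) (exists_tDiag_eq K T)
    (semiProj_surjective K T hgen) (semiProj_tDiag K T) hU
    (ModPFinite.pi fun q => semiLoc_modPFinite K hp2 q)

end Fermat.Agent.CFT.Euler
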