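import Fermat.Agent.CFT.Euler.QuotientFormation
import Fermat.Agent.CFT.Euler.Semilocal
import Fermat.Agent.CFT.Duality.Units

/-!
The class formation on idele classes modulo unit families outside `T`.
-/

set_option autoImplicit false
set_option synthInstance.maxHeartbeats 200000
set_option linter.unusedSectionVars false
set_option linter.style.haveILetI false

noncomputable section

namespace Fermat.Agent.CFT.Euler

open ExtCitation Fermat.Agent.Arith IntermediateField Fermat.Agent.CFT
open Fermat.Agent.CFT.Local Fermat.Agent.CFT.Idele Fermat.Agent.CFT.Duality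

local instance factPrimeEulerCMF (q : Nat.Primes) : Fact (q : ℕ).Prime := ⟨q.2⟩

variable (K : IntermediateField ℚ QBar) [FiniteDimensional ℚ K] [Normal ℚ K]
  (T : Finset Nat.Primes)

theorem localEmb_eq_one_of_val {a : Additive Kˣ} {q : Nat.Primes}
    (h : val (diag K a).toMul q 1 = 1) : a = 0 := by
  have e := val_prinL (L := K) a.toMul q 1
  rw [show val (prinL K a.toMul) q 1 = 1 from h] at e
  exact Additive.toMul.injective (Units.ext
    ((localEmb (q : ℕ) K).injective (e.symm.trans (map_one _).symm)))

/-- Unit families meet the principal ideles trivially. -/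
theorem proj_unitsOff_injective (hT : T.Nonempty) :
    Function.Injective ((proj K).comp (unitsOff K (T : Set Nat.Primes)).subtype) := by
  obtain ⟨q, hq⟩ := hT
  refine (injective_iff_map_eq_zero _).mpr fun x hx => Subtype.ext ?_
  obtain ⟨a, ha⟩ := (proj_eq_zero_iff K).mp hx
  have ha' : diag K (Additive.ofMul a) = (x : J K) := congrArg Additive.ofMul ha
  have h0 := localEmb_eq_one_of_val K (a := Additive.ofMul a) (q := q)
    (by rw [ha']; exact (x.2 q 1).2 hq)
  rw [← ha', h0, map_zero]
  rfl

/-- The class formation at level `K` modulo unit families outside `T`. -/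
theorem classMod_formation {p : ℕ} [Fact p.Prime] [Fintype (K ≃ₐ[ℚ] K)] (hT : T.Nonempty)
    (hunr : ∀ q ∉ T, inertia (E K q) = ⊥) (hC : StepAxioms p (K ≃ₐ[ℚ] K) (C K))
    {u : NormCocycle (K ≃ₐ[ℚ] K) (C K)} (hu : IsClassFormation p u) :
    IsClassFormation p (mapCocycle (toClassMod K T) (toClassMod_smul K T) u) := by
  refine isClassFormation_quotient (D := ClassMod K T) (U := unitsOff K (T : Set Nat.Primes))
    (fun H _ => h1Zero_unitsOff (fun q hq => hunr q hq) H)
    (fun H _ _ => normSurj_unitsOff (fun q hq => hunr q hq) H)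
    ((proj K).comp (unitsOff K (T : Set Nat.Primes)).subtype)
    (fun g x => proj_smul K g (x : J K)) (proj_unitsOff_injective K T hT) _ _ (fun y hy => ?_)
    (QuotientAddGroup.mk'_surjective _) (fun x => ?_) hC hu
  · obtain ⟨w, hw, e⟩ := (toClassMod_eq_zero_iff K T y).mp hy
    exact ⟨⟨w, hw⟩, e⟩
  · exact (toClassMod_eq_zero_iff K T _).mpr ⟨x, x.2, rfl⟩

end Fermat.Agent.CFT.Euler
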