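import Fermat.Agent.CFT.Euler.ExtCount
import Fermat.Agent.CFT.Euler.SplitCompare

/-!
Extensions by a good module with cyclic quotient modulo `p`, for a cyclic group.
-/

set_option autoImplicit false
set_option linter.unusedSectionVars false
set_option linter.style.haveILetI false

noncomputable section

namespace Fermat.Agent.CFT.Euler

open Fermat.Agent.CFT

variable {p : ℕ} [hp : Fact p.Prime] {G : Type} [Group G] [Fintype G]
  {A : Type} [AddCommGroup A] [DistribMulAction G A]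
  {M : Type} [AddCommGroup M] [DistribMulAction G M]

omit hp in
theorem normOn_conjOn {P : Type} [AddCommGroup P] [DistribMulAction G P] {S : AddSubgroup P}
    (hS : IsStable G S) (h : G) (ψ : S →+ M) : normOn hS (conjOn hS h ψ) = normOn hS ψ := by
  ext s
  rw [normOn_apply, normOn_apply]
  refine Fintype.sum_equiv (Equiv.mulRight h) _ _ fun g => ?_
  rw [conjOn_apply, smul_smul, smulS_smulS, ← mul_inv_rev]
  rfl

/-- Homomorphisms from a finite module killed by `p` to a group of order dividing `p`. -/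
theorem card_hom_dvd {A' Q : Type} [AddCommGroup A'] [Finite A'] [AddCommGroup Q]
    (hA : ∀ a : A', p • a = 0) (hQ : Nat.card Q ∣ p) :
    Nat.card (A' →+ Q) ∣ Nat.card A' := by
  rcases (Nat.dvd_prime hp.out).mp hQ with h | h
  · haveI := (Nat.card_eq_one_iff_unique.mp h).1
    haveI : Subsingleton (A' →+ Q) := ⟨fun f g => AddMonoidHom.ext fun _ => Subsingleton.elim _ _⟩
    rw [Nat.card_of_subsingleton (0 : A' →+ Q)]
    exact one_dvd _
  · haveI : IsAddCyclic Q := isAddCyclic_of_prime_card h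
    let e : Q ≃+ ZMod p := (zmodAddCyclicAddEquiv (inferInstance : IsAddCyclic Q)).symm.trans
      (ZMod.ringEquivCongr h).toAddEquiv
    rw [Nat.card_congr (⟨fun f => e.toAddMonoidHom.comp f, fun f => e.symm.toAddMonoidHom.comp f,
      fun f => AddMonoidHom.ext fun a => e.symm_apply_apply _,
      fun f => AddMonoidHom.ext fun a => e.apply_symm_apply _⟩ : (A' →+ Q) ≃ (A' →+ ZMod p)),
      card_dual hA]

/-- For a cyclic group, extensions by a good module with cyclic trivial quotient modulo `p` are at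
most as many as the invariant elements. -/
theorem Pres.xLp_le_fixPts [Finite A] (X : Pres p G A) (hfull : ∀ x : X.P, x ∈ X.K)
    (hA : ∀ a : A, p • a = 0) {φ : G} (hgen : ∀ g : G, g ∈ Subgroup.zpowers φ)
    (hgood : Good p G M) (hquot : (nsmulAddMonoidHom p : M →+ M).range.index ∣ p)
    (htriv : ∀ (g : G) (m : M), ∃ n : M, g • m - m = p • n) :
    X.xLp M ≤ lpN p (Nat.card (fixPts G A)) := by
  classical
  let pM := (nsmulAddMonoidHom p : M →+ M).range
  let π := QuotientAddGroup.mk' pM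
  haveI := free_subgroup (P := X.P) X.S
  let μ : X.K →+ X.S := (mulP X.level).comp X.K.subtype
  have hker : ∀ ψ : X.S →+ M, X.π.ker ≤ (π.comp (ψ.comp μ)).ker := fun ψ x hx => by
    show π (ψ ⟨p • (x : X.P), _⟩) = 0
    rw [show (⟨p • (x : X.P), _⟩ : X.S) = p • ⟨x, (X.ker x).mp hx⟩ from rfl, map_nsmul]
    exact (QuotientAddGroup.eq_zero_iff _).mpr ⟨_, rfl⟩
  let ρ₀ : (X.S →+ M) → A →+ M ⧸ pM := fun ψ =>
    AddMonoidHom.liftOfSurjective X.π X.surj ⟨π.comp (ψ.comp μ), hker ψ⟩
  have hρ₀ : ∀ ψ x, ρ₀ ψ (X.π x) = π (ψ (μ x)) := fun ψ x =>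
    AddMonoidHom.liftOfRightInverse_comp_apply X.π _ _ ⟨π.comp (ψ.comp μ), hker ψ⟩ x
  let ρ : (X.S →+ M) →+ (A →+ M ⧸ pM) := AddMonoidHom.mk' ρ₀ fun ψ ψ' => AddMonoidHom.ext fun a => by
    obtain ⟨x, rfl⟩ := X.surj a
    rw [AddMonoidHom.add_apply, hρ₀, hρ₀, hρ₀, AddMonoidHom.add_apply, map_add]
  let N : (X.S →+ M) →+ equivHom (C := M) X.hS :=
    (normHom X.hS).codRestrict _ fun ψ => by
      rw [normHom_apply]; exact isEquivariantOn_normOn _ _
  have hN : Function.Surjective N := fun f => by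
    obtain ⟨ψ, hψ⟩ := hgood X.P X.induced X.S X.hS X.level f.1 f.2
    exact ⟨ψ, Subtype.ext ((normHom_apply X.hS ψ).trans hψ)⟩
  set T := (X.res M).range.comap N with hT
  have hidx : (X.res M).range.index = T.index :=
    (AddSubgroup.index_comap_of_surjective _ hN).symm
  have hρT : ρ.ker ≤ T := by
    intro ψ hψ
    have h0 : ∀ x : X.K, ∃ m : M, p • m = ψ (μ x) := fun x => by
      have h := DFunLike.congr_fun hψ (X.π x)
      change ρ₀ ψ (X.π x) = 0 at h
      rw [hρ₀] at h
      exact (QuotientAddGroup.eq_zero_iff _).mp h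
    let b := Module.Free.chooseBasis ℤ X.P
    choose m hm using fun i => h0 ⟨b i, hfull _⟩
    let y : X.P →+ M := (b.constr ℤ m).toAddMonoidHom
    have hy : ∀ x : X.P, p • y x = ψ (mulP X.level x) := by
      have e : (p • y).toIntLinearMap = (ψ.comp (mulP X.level)).toIntLinearMap := b.ext fun i => by
        show p • b.constr ℤ m (b i) = ψ (mulP X.level (b i))
        rw [Module.Basis.constr_basis, hm]
        rfl
      exact fun x => LinearMap.congr_fun e x
    let M₀ := (nsmulAddMonoidHom p : M →+ M).ker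
    let ε : X.S →+ M₀ := (y.comp X.S.subtype - ψ).codRestrict M₀ fun s => by
      show p • (y (s : X.P) - ψ s) = 0
      rw [smul_sub, hy, mulP_coe, map_nsmul, sub_self]
    obtain ⟨g, hg⟩ := exists_extend_killed (p := p) (M := M₀) (fun z => Subtype.ext z.2) X.le
      (fun s _ => X.level s) ε fun x hx => Subtype.ext (by
        show y (p • x) - ψ ⟨p • x, _⟩ = 0
        rw [map_nsmul, hy, sub_eq_zero]
        rfl)
    let Y : X.K →+ M := y.comp X.K.subtype - M₀.subtype.comp g
    have hY : ∀ s : X.S, Y (AddSubgroup.inclusion X.le s) = ψ s := fun s => by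
      show y (s : X.P) - (g _ : M₀).1 = ψ s
      rw [hg]
      exact sub_sub_cancel _ _
    refine ⟨⟨normOn X.hK Y, isEquivariantOn_normOn _ _⟩,
      Subtype.ext (AddMonoidHom.ext fun s => ?_)⟩
    show normOn X.hK Y (AddSubgroup.inclusion X.le s) = (normHom X.hS ψ) s
    rw [normHom_apply, normOn_apply, normOn_apply]
    exact Finset.sum_congr rfl fun g _ => by rw [← hY]; rfl
  have htrivQ : ∀ (g : G) (m : M), π (g • m) = π m := fun g m => by
    obtain ⟨n, hn⟩ := htriv g m
    rw [← sub_eq_zero, ← map_sub]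
    exact (QuotientAddGroup.eq_zero_iff _).mpr ⟨n, hn.symm⟩
  let τ : (A →+ M ⧸ pM) →+ (A →+ M ⧸ pM) := AddMonoidHom.mk'
    (fun ν => ν.comp (DistribSMul.toAddMonoidHom A φ⁻¹) - ν) fun ν ν' => AddMonoidHom.ext fun a => by
      show (ν (φ⁻¹ • a) + ν' (φ⁻¹ • a)) - (ν a + ν' a) = (ν (φ⁻¹ • a) - ν a) + (ν' (φ⁻¹ • a) - ν' a)
      abel
  have hτ : ∀ ψ, τ (ρ ψ) = ρ (conjOn X.hS φ ψ - ψ) := fun ψ => AddMonoidHom.ext fun a => by
    obtain ⟨x, rfl⟩ := X.surj a
    show ρ₀ ψ (φ⁻¹ • X.π x) - ρ₀ ψ (X.π x) = ρ (conjOn X.hS φ ψ - ψ) (X.π x)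
    rw [map_sub, AddMonoidHom.sub_apply]
    show _ = ρ₀ _ (X.π x) - ρ₀ ψ (X.π x)
    rw [← X.equi, hρ₀, hρ₀, hρ₀, conjOn_apply, htrivQ]
    congr 3
    exact (smulS_mulP X.hS X.level φ⁻¹ (x : X.P)).symm
  have hstab : ∀ v ∈ ρ.range, τ v ∈ ρ.range := by
    rintro _ ⟨ψ, rfl⟩
    exact ⟨_, (hτ ψ).symm⟩
  let σ : ρ.range →+ ρ.range :=
    (τ.comp ρ.range.subtype).codRestrict ρ.range fun v => hstab _ v.2
  haveI : pM.FiniteIndex := ⟨fun h0 => hp.out.ne_zero (zero_dvd_iff.mp (h0 ▸ hquot))⟩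
  haveI : Finite (M ⧸ pM) := AddSubgroup.finite_quotient_of_finiteIndex
  haveI : Finite (A →+ M ⧸ pM) := Finite.of_injective (fun f a => f a) fun _ _ h =>
    AddMonoidHom.ext (congrFun h)
  -- the index of `T` divides the cokernel of `σ`
  have h1 : T.index ∣ σ.range.index := by
    rw [← AddSubgroup.index_comap_of_surjective σ.range ρ.rangeRestrict_surjective]
    refine AddSubgroup.index_dvd_of_le ?_
    rintro ψ ⟨⟨_, ψ₁, rfl⟩, hv⟩
    have h := congrArg Subtype.val hv
    change τ (ρ ψ₁) = ρ ψ at h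
    rw [hτ] at h
    have h2 : conjOn X.hS φ ψ₁ - ψ₁ ∈ T := by
      show N _ ∈ (X.res M).range
      rw [map_sub, show N (conjOn X.hS φ ψ₁) = N ψ₁ from Subtype.ext (by
        show normHom X.hS _ = normHom X.hS _
        rw [normHom_apply, normHom_apply, normOn_conjOn]), sub_self]
      exact zero_mem _
    have h3 : ψ - (conjOn X.hS φ ψ₁ - ψ₁) ∈ T := hρT (by
      rw [AddMonoidHom.mem_ker, map_sub, ← h, sub_self])
    simpa using add_mem h3 h2
  have h2 : σ.range.index = Nat.card σ.ker := by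
    have e1 := σ.range.card_mul_index
    have e2 := σ.ker.card_mul_index
    rw [AddSubgroup.index_ker, mul_comm] at e2
    exact Nat.eq_of_mul_eq_mul_left Nat.card_pos (e1.trans e2.symm)
  -- functionals fixed by `φ`
  let I := (DistribSMul.toAddMonoidHom A φ⁻¹ - AddMonoidHom.id A).range
  have h3 : Nat.card σ.ker ∣ Nat.card (A ⧸ I →+ M ⧸ pM) := by
    have e : ∀ v : σ.ker, I ≤ (v.1.1 : A →+ M ⧸ pM).ker := fun v => by
      rintro _ ⟨a, rfl⟩
      have h := DFunLike.congr_fun (congrArg Subtype.val (AddMonoidHom.mem_ker.mp v.2)) a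
      change v.1.1 (φ⁻¹ • a) - v.1.1 a = 0 at h
      rw [← map_sub] at h
      exact h
    let emb : σ.ker →+ (A ⧸ I →+ M ⧸ pM) := AddMonoidHom.mk'
      (fun v => QuotientAddGroup.lift I v.1.1 (e v)) fun v w => AddMonoidHom.ext fun a => by
        obtain ⟨a, rfl⟩ := QuotientAddGroup.mk'_surjective I a
        rfl
    exact AddSubgroup.card_dvd_of_injective emb fun v w h => Subtype.ext (Subtype.ext
      (AddMonoidHom.ext fun a => DFunLike.congr_fun h (a : A ⧸ I)))
  have hcQ : Nat.card (M ⧸ pM) ∣ p := hquot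
  have h4 : Nat.card (A ⧸ I →+ M ⧸ pM) ∣ Nat.card (fixPts G A) := by
    refine (card_hom_dvd (p := p) (fun a => ?_) hcQ).trans (dvd_of_eq ?_)
    · obtain ⟨a, rfl⟩ := QuotientAddGroup.mk'_surjective I a
      rw [← map_nsmul, hA, map_zero]
    · have e1 := I.card_mul_index
      have e2 := (DistribSMul.toAddMonoidHom A φ⁻¹ - AddMonoidHom.id A).ker.card_mul_index
      rw [AddSubgroup.index_ker, mul_comm] at e2
      refine (Nat.eq_of_mul_eq_mul_left Nat.card_pos (e1.trans e2.symm)).trans (Nat.card_congr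
        (Equiv.subtypeEquivRight fun a => ?_))
      rw [AddMonoidHom.mem_ker, AddMonoidHom.sub_apply, sub_eq_zero]
      show φ⁻¹ • a = a ↔ _
      constructor
      · intro h g
        obtain ⟨n, rfl⟩ := hgen g
        have hφ : φ ∈ MulAction.stabilizer G a := by
          show φ • a = a
          conv_lhs => rw [← h]
          exact smul_inv_smul φ a
        exact Subgroup.zpow_mem _ hφ n
      · exact fun h => h φ⁻¹
  refine lpN_mono p ?_ Nat.card_pos.ne'
  rw [hidx]
  exact h1.trans ((h2 ▸ h3).trans h4)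

end Fermat.Agent.CFT.Euler
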