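import Fermat.Agent.CFT.Euler.Pair
import Fermat.Agent.CFT.Euler.Defs

/-!
The Euler index of a finite module and its additivity in short exact sequences.
-/

set_option autoImplicit false
set_option linter.unusedSectionVars false
set_option linter.style.haveILetI false

noncomputable section

namespace Fermat.Agent.CFT.Euler

open Fermat.Agent.CFT

/-- The free module on `G × A`, as functions. -/
def PresP (G A : Type) : Type := G → A → ℤ

namespace PresP

variable {G A : Type} [Group G] [Fintype G]

instance : AddCommGroup (PresP G A) := inferInstanceAs (AddCommGroup (G → A → ℤ))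
instance [Finite A] : Module.Free ℤ (PresP G A) :=
  inferInstanceAs (Module.Free ℤ (G → A → ℤ))
instance [Finite A] : Module.Finite ℤ (PresP G A) :=
  inferInstanceAs (Module.Finite ℤ (G → A → ℤ))

instance : DistribMulAction G (PresP G A) where
  smul g f := fun h => f (g⁻¹ * h)
  one_smul f := funext fun h => show f ((1 : G)⁻¹ * h) = f h by simp
  mul_smul a b f := funext fun h => by
    show f ((a * b)⁻¹ * h) = f (b⁻¹ * (a⁻¹ * h))
    rw [mul_inv_rev, mul_assoc]
  smul_zero _ := rfl
  smul_add _ _ _ := rfl

theorem isInduced : IsInduced G (PresP G A) := by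
  classical
  refine ⟨AddMonoidHom.mk' (fun f h => if h = 1 then f h else 0) (fun f f' => funext fun h => ?_),
    fun f => funext fun h => ?_⟩
  · show (if h = 1 then f h + f' h else 0) =
      (if h = 1 then f h else 0) + (if h = 1 then f' h else 0)
    split_ifs <;> simp
  · show (∑ g : G, _ : G → A → ℤ) h = f h
    rw [Finset.sum_apply, Finset.sum_eq_single h]
    · show (if h⁻¹ * h = 1 then f ((h⁻¹)⁻¹ * (h⁻¹ * h)) else 0) = f h
      rw [if_pos (inv_mul_cancel h)]; simp
    · intro g _ hne
      show (if g⁻¹ * h = 1 then f ((g⁻¹)⁻¹ * (g⁻¹ * h)) else 0) = 0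
      exact if_neg fun e => hne (inv_mul_eq_one.mp e)
    · exact fun hh => absurd (Finset.mem_univ h) hh

variable [AddCommGroup A] [DistribMulAction G A] [Fintype A]

/-- The evaluation map. -/
def proj : PresP G A →+ A :=
  AddMonoidHom.mk' (fun f => ∑ h : G, ∑ a : A, f h a • (h • a)) fun f f' => by
    simp only [← Finset.sum_add_distrib]
    exact Finset.sum_congr rfl fun h _ => Finset.sum_congr rfl fun a _ => add_smul _ _ _

theorem proj_surjective : Function.Surjective (proj (G := G) (A := A)) := fun a => by
  classical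
  refine ⟨fun h a' => if h = 1 ∧ a' = a then 1 else 0, ?_⟩
  show ∑ h : G, ∑ a' : A, (if h = 1 ∧ a' = a then (1 : ℤ) else 0) • (h • a') = a
  rw [Finset.sum_eq_single (1 : G), Finset.sum_eq_single a] <;> simp +contextual

theorem proj_smul (g : G) (f : PresP G A) : proj (g • f) = g • proj f := by
  show ∑ h : G, ∑ a : A, f (g⁻¹ * h) a • (h • a) = g • ∑ h : G, ∑ a : A, f h a • (h • a)
  simp only [Finset.smul_sum, smul_comm g (f _ _)]
  refine Fintype.sum_equiv (Equiv.mulLeft g⁻¹) _ _ fun h => Finset.sum_congr rfl fun a _ => ?_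
  show f (g⁻¹ * h) a • (h • a) = f (g⁻¹ * h) a • g • (g⁻¹ * h) • a
  rw [smul_smul g, mul_inv_cancel_left]

end PresP

variable (p : ℕ) [hp : Fact p.Prime] {G : Type} [Group G] [Fintype G]
variable {A : Type} [AddCommGroup A] [DistribMulAction G A] [Finite A]

/-- The canonical presentation of a finite module killed by `p`. -/
def canonPres (hA : ∀ a : A, p • a = 0) : Pres p G A :=
  letI := Fintype.ofFinite A
  { P := PresP G A
    induced := PresP.isInduced
    K := ⊤
    S := (PresP.proj (G := G) (A := A)).ker
    hK := fun _ _ _ => trivial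
    hS := fun g x hx => by
      rw [AddMonoidHom.mem_ker] at hx ⊢
      rw [PresP.proj_smul, hx, smul_zero]
    le := le_top
    level := fun x => by rw [AddMonoidHom.mem_ker, map_nsmul]; exact hA _
    π := PresP.proj.comp (⊤ : AddSubgroup (PresP G A)).subtype
    surj := fun a => by
      obtain ⟨x, hx⟩ := PresP.proj_surjective (G := G) a
      exact ⟨⟨x, trivial⟩, hx⟩
    ker := fun _ => Iff.rfl
    equi := fun g x => PresP.proj_smul g x.1 }

/-- The Euler index of a finite module killed by `p` with coefficients in `M`. -/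
def eMod (M : Type) [AddCommGroup M] [DistribMulAction G M] (hA : ∀ a : A, p • a = 0) : ℤ :=
  (canonPres p (G := G) hA).index M

variable {M : Type} [AddCommGroup M] [DistribMulAction G M]

theorem eMod_eq_index (hGood : Good p G M) (hA : ∀ a : A, p • a = 0) (X : Pres p G A) :
    eMod p (G := G) M hA = X.index M := Pres.index_eq _ X hGood

/-- Coefficients in `M` give an additive invariant. -/
theorem isAdditive_eMod (hGood : Good p G M) (hM : ModPFinite p M) :
    IsAdditive (fun _ _ _ _ hA => eMod p (G := G) M hA : ModInvariant G p) := by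
  intro A B C _ _ _ _ _ _ _ _ _ hA hB hC f g hf hg hfi hfg hgs
  show eMod p (G := G) M hB = eMod p (G := G) M hA + eMod p (G := G) M hC
  set X := canonPres p (G := G) hB with hX
  let K' : AddSubgroup X.P := (g.comp X.π).ker.map X.K.subtype
  have hmem : ∀ x : X.K, (x : X.P) ∈ K' ↔ g (X.π x) = 0 := fun x => by
    refine ⟨?_, fun h => ⟨x, h, rfl⟩⟩
    rintro ⟨y, hy, e⟩
    rwa [← show y = x from Subtype.ext e]
  have hK' : IsStable G K' := by
    rintro s _ ⟨y, hy, rfl⟩
    exact (hmem (smulS X.hK s y)).mpr (by rw [X.equi, hg, show g (X.π y) = 0 from hy, smul_zero])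
  have hK'le : K' ≤ X.K := by rintro _ ⟨y, -, rfl⟩; exact y.2
  have hSK' : X.S ≤ K' := fun x hx => (hmem ⟨x, X.le hx⟩).mpr (by
    rw [(X.ker _).mpr hx, map_zero])
  have hlift : ∀ x : K', ∃ a : A, f a = X.π ⟨x, hK'le x.2⟩ := fun x =>
    (hfg _).mp ((hmem _).mp x.2)
  choose φ hφ using hlift
  let π₁ : K' →+ A := AddMonoidHom.mk' φ fun x y => hfi (by
    rw [map_add, hφ, hφ, hφ, ← map_add]; rfl)
  let Y₁ : Pres p G A :=
    { P := X.P
      induced := X.induced
      K := K'
      S := X.S
      hK := hK'
      hS := X.hS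
      le := hSK'
      level := X.level
      π := π₁
      surj := fun a => by
        obtain ⟨x, hx⟩ := X.surj (f a)
        have hxK : (x : X.P) ∈ K' := (hmem x).mpr (by rw [hx]; exact hfg.apply_apply_eq_zero a)
        exact ⟨⟨x, hxK⟩, hfi ((hφ _).trans hx)⟩
      ker := fun x => by
        rw [← X.ker ⟨x, hK'le x.2⟩, ← hφ x]
        exact ⟨fun h => by rw [show φ x = 0 from h, map_zero],
          fun h => hfi (by rw [map_zero]; exact h)⟩
      equi := fun s x => hfi (by
        rw [hf]
        show f (φ _) = s • f (φ x)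
        rw [hφ, hφ]
        exact X.equi s ⟨x, hK'le x.2⟩) }
  let Y₂ : Pres p G C :=
    { P := X.P
      induced := X.induced
      K := X.K
      S := K'
      hK := X.hK
      hS := hK'
      le := hK'le
      level := fun x => hSK' (X.level x)
      π := g.comp X.π
      surj := hgs.comp X.surj
      ker := fun x => (hmem x).symm
      equi := fun s x => by
        show g (X.π _) = s • g (X.π x)
        rw [X.equi, hg] }
  rw [eMod_eq_index p hGood hA Y₁, eMod_eq_index p hGood hC Y₂]
  show lpIndex p (resHom (M := M) X.hK X.hS X.le) = _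
  rw [← resHom_comp hK' X.hS hSK' X.hK hK'le]
  show lpIndex p ((Y₁.res M).comp (Y₂.res M)) = _
  rw [lpIndex_comp p (Y₂.finiteIndexHom hM) (Y₁.finiteIndexHom hM), add_comm]
  rfl

end Fermat.Agent.CFT.Euler
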