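import Fermat.Agent.CFT.Euler.CoInd
import Fermat.Agent.CFT.Euler.Extension

/-!
The two parts of the Euler index: extensions and homomorphisms, and their first properties.
-/

set_option autoImplicit false
set_option linter.unusedSectionVars false
set_option linter.style.haveILetI false

noncomputable section

namespace Fermat.Agent.CFT.Euler

open Fermat.Agent.CFT

variable {p : ℕ} [hp : Fact p.Prime] {G : Type} [Group G] [Fintype G]
  {A : Type} [AddCommGroup A] [DistribMulAction G A]
  {M M' M'' : Type} [AddCommGroup M] [DistribMulAction G M] [AddCommGroup M']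
  [DistribMulAction G M'] [AddCommGroup M''] [DistribMulAction G M'']

namespace Pres

/-- The exponent of the number of extensions. -/
def xLp (X : Pres p G A) (M : Type) [AddCommGroup M] [DistribMulAction G M] : ℤ :=
  lpN p (X.res M).range.index

/-- The exponent of the number of homomorphisms. -/
def hLp (X : Pres p G A) (M : Type) [AddCommGroup M] [DistribMulAction G M] : ℤ :=
  lpN p (Nat.card (X.res M).ker)

variable (X : Pres p G A)

theorem index_eq_xLp_sub : X.index M = X.xLp M - X.hLp M := rfl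

omit hp in
/-- Equivariant maps from a full presentation lift along surjections. -/
theorem exists_lift (hfull : ∀ x : X.P, x ∈ X.K) (q : M →+ M'')
    (hq : ∀ (g : G) (m : M), q (g • m) = g • q m) (hqs : Function.Surjective q)
    (Y : equivHom (C := M'') X.hK) : ∃ Y₀, postHom X.hK q hq Y₀ = Y := by
  obtain ⟨T, hT⟩ := X.induced
  haveI := free_subgroup (P := X.P) X.K
  let b := Module.Free.chooseBasis ℤ X.K
  choose m hm using fun i => hqs (Y.1 (b i))
  let φ : X.K →+ M := (b.constr ℤ m).toAddMonoidHom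
  have hφ : ∀ s, q (φ s) = Y.1 s := by
    have e : (q.comp φ).toIntLinearMap = Y.1.toIntLinearMap := b.ext fun i => by
      show q (b.constr ℤ m (b i)) = Y.1 (b i)
      rw [Module.Basis.constr_basis, hm]
    exact fun s => LinearMap.congr_fun e s
  let T' : X.K →+ X.K := (T.comp X.K.subtype).codRestrict X.K fun _ => hfull _
  refine ⟨⟨normOn X.hK (φ.comp T'), isEquivariantOn_normOn _ _⟩,
    Subtype.ext (AddMonoidHom.ext fun x => ?_)⟩
  show q (normOn X.hK (φ.comp T') x) = Y.1 x
  rw [normOn_apply, map_sum]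
  have hterm : ∀ g : G, q (g • φ.comp T' (smulS X.hK g⁻¹ x)) =
      Y.1 (smulS X.hK g (T' (smulS X.hK g⁻¹ x))) := fun g => by
    rw [hq, AddMonoidHom.comp_apply, hφ, Y.2]
  rw [Finset.sum_congr rfl fun g _ => hterm g, ← map_sum]
  congr 1
  refine Subtype.ext ?_
  rw [AddSubgroup.val_finsetSum]
  exact hT (x : X.P)

/-- Extensions are subadditive in short exact sequences. -/
theorem xLp_le_add (hfull : ∀ x : X.P, x ∈ X.K) (i : M' →+ M) (q : M →+ M'')
    (hi : ∀ (g : G) (m : M'), i (g • m) = g • i m) (hq : ∀ (g : G) (m : M), q (g • m) = g • q m)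
    (hinj : Function.Injective i) (hex : ∀ y, q y = 0 → ∃ x, i x = y)
    (hqs : Function.Surjective q) (hA : ModPFinite p M') (hB : ModPFinite p M)
    (hC : ModPFinite p M'') : X.xLp M ≤ X.xLp M' + X.xLp M'' := by
  set iS := postHom X.hS i hi
  set qS := postHom X.hS q hq
  set RA := (X.res M').range
  set RB := (X.res M).range
  set RC := (X.res M'').range
  have hA0 : RA.index ≠ 0 := (X.finiteIndexHom hA).index
  have hB0 : RB.index ≠ 0 := (X.finiteIndexHom hB).index
  have hC0 : RC.index ≠ 0 := (X.finiteIndexHom hC).index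
  have h1 : RC.comap qS ≤ RB ⊔ iS.range := by
    rintro f ⟨Y, hY⟩
    obtain ⟨Y₀, rfl⟩ := X.exists_lift hfull q hq hqs Y
    have h0 : ∀ s, q ((f - X.res M Y₀).1 s) = 0 := fun s => by
      show q (f.1 s - _) = 0
      rw [map_sub, sub_eq_zero]
      exact (DFunLike.congr_fun (congrArg Subtype.val hY) s).symm
    obtain ⟨f₀, hf₀⟩ := exists_postHom_eq X.hS i hi hinj (f - X.res M Y₀) fun s => hex _ (h0 s)
    exact AddSubgroup.mem_sup.mpr ⟨X.res M Y₀, ⟨Y₀, rfl⟩, _, ⟨f₀, rfl⟩, by
      rw [show iS f₀ = _ from hf₀]; abel⟩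
  have h2 : (RB ⊔ iS.range).index ∣ RC.index := by
    refine (AddSubgroup.index_dvd_of_le h1).trans ?_
    rw [AddSubgroup.index_comap]
    exact AddSubgroup.relIndex_dvd_index_of_normal _ _
  have h3 : RB.relIndex iS.range ∣ RA.index := by
    rw [← AddSubgroup.index_comap]
    refine AddSubgroup.index_dvd_of_le ?_
    rintro _ ⟨Y, rfl⟩
    exact ⟨postHom X.hK i hi Y, rfl⟩
  have h4 : RB.index = RB.relIndex iS.range * (RB ⊔ iS.range).index := by
    rw [← AddSubgroup.relIndex_mul_index (le_sup_left : RB ≤ RB ⊔ iS.range),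
      AddSubgroup.relIndex_sup_left]
  have h5 : RB.index ∣ RA.index * RC.index := h4 ▸ mul_dvd_mul h3 h2
  show lpN p RB.index ≤ lpN p RA.index + lpN p RC.index
  rw [← lpN_mul p hA0 hC0]
  exact lpN_mono p h5 (mul_ne_zero hA0 hC0)

omit hp in
theorem coInd_xLp_hLp {H : Subgroup G} [Fintype H] {N : Type} [AddCommGroup N]
    [DistribMulAction H N] :
    X.xLp (CoInd H N) = (X.restrict H).xLp N ∧ X.hLp (CoInd H N) = (X.restrict H).hLp N := by
  let e : ∀ {R : AddSubgroup X.P} (hR : IsStable G R),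
      equivHom (C := CoInd H N) hR →+ equivHom (C := N) (IsStable.restrict hR H) := fun hR =>
    AddMonoidHom.mk' (fun f => ⟨CoInd.ev.comp f.1, fun h s => by
      show CoInd.ev (f.1 (smulS hR (h : G) s)) = h • CoInd.ev (f.1 s)
      rw [f.2, CoInd.ev_smul_mem]⟩)
      fun f f' => Subtype.ext (AddMonoidHom.ext fun s => map_add CoInd.ev _ _)
  have ha : Function.Bijective (e X.hK) := CoInd.postEv_bijective X.hK
  have hb : Function.Bijective (e X.hS) := CoInd.postEv_bijective X.hS
  obtain ⟨⟨ek⟩, hr⟩ := arrow_congr (f := X.res (CoInd H N)) (f' := (X.restrict H).res N)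
    (e X.hK) (e X.hS) (fun _ => rfl) (fun x _ h => ha.1 (h.trans (map_zero (e X.hK)).symm))
    (fun y hy => by
      obtain ⟨x, rfl⟩ := ha.2 y
      exact ⟨x, hb.1 (hy.trans (map_zero _).symm), rfl⟩)
    (fun z ⟨y, hy⟩ => by
      obtain ⟨x, rfl⟩ := ha.2 y
      exact ⟨x, hb.1 hy⟩)
    (fun z' => by
      obtain ⟨z, rfl⟩ := hb.2 z'
      exact ⟨z, (congrArg (· ∈ ((X.restrict H).res N).range) (sub_self _)).mpr (zero_mem _)⟩)
  exact ⟨congrArg (lpN p) hr, congrArg (lpN p) (Nat.card_congr ek)⟩

omit hp in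
theorem xLp_coInd {H : Subgroup G} [Fintype H] {N : Type} [AddCommGroup N]
    [DistribMulAction H N] : X.xLp (CoInd H N) = (X.restrict H).xLp N := X.coInd_xLp_hLp.1

omit hp in
theorem hLp_coInd {H : Subgroup G} [Fintype H] {N : Type} [AddCommGroup N]
    [DistribMulAction H N] : X.hLp (CoInd H N) = (X.restrict H).hLp N := X.coInd_xLp_hLp.2

/-- Homomorphisms into a product. -/
theorem hLp_pi {ι : Type} [Fintype ι] {F : ι → Type} [∀ i, AddCommGroup (F i)]
    [∀ i, DistribMulAction G (F i)] (hF : ∀ i, ModPFinite p (F i)) :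
    X.hLp (∀ i, F i) = ∑ i, X.hLp (F i) := by
  classical
  haveI : ∀ i, Finite (X.res (F i)).ker := fun i => (X.finiteIndexHom (hF i)).ker
  have e : Nat.card (X.res (∀ i, F i)).ker = ∏ i, Nat.card (X.res (F i)).ker := by
    rw [← Nat.card_pi]
    refine Nat.card_congr
      ⟨fun f i => ⟨postHom X.hK (Pi.evalAddMonoidHom F i) (fun _ _ => rfl) f.1, ?_⟩,
        fun f => ⟨⟨AddMonoidHom.pi fun i => (f i).1.1, fun g s => funext fun i => (f i).1.2 g s⟩,
          ?_⟩, fun _ => rfl, fun _ => rfl⟩
    · exact Subtype.ext (AddMonoidHom.ext fun s =>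
        congrFun (DFunLike.congr_fun (congrArg Subtype.val f.2) s) i)
    · exact Subtype.ext (AddMonoidHom.ext fun s => funext fun i =>
        DFunLike.congr_fun (congrArg Subtype.val (f i).2) s)
  rw [hLp, e]
  induction (Finset.univ : Finset ι) using Finset.induction_on with
  | empty => simp
  | insert i s hi ih =>
    rw [Finset.prod_insert hi, Finset.sum_insert hi,
      lpN_mul p Nat.card_pos.ne' (Finset.prod_ne_zero_iff.mpr fun j _ => Nat.card_pos.ne'), ih]
    rfl

/-- Extensions by a product. -/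
theorem xLp_pi {ι : Type} [Fintype ι] {F : ι → Type} [∀ i, AddCommGroup (F i)]
    [∀ i, DistribMulAction G (F i)] (hF : ∀ i, ModPFinite p (F i)) :
    X.xLp (∀ i, F i) = ∑ i, X.xLp (F i) := by
  have h := X.index_pi hF
  rw [index_eq_xLp_sub, X.hLp_pi hF] at h
  simp only [index_eq_xLp_sub, Finset.sum_sub_distrib] at h
  linarith

end Pres

end Fermat.Agent.CFT.Euler
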