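import Fermat.Agent.CFT.Euler.LocalUnitMod
import Fermat.Agent.CFT.Euler.ClassModFormation

/-!
Enlarging `T` by primes `Q`: the kernel of `C K / U^(T ∪ Q) → C K / U^T` consists of semilocal
units at `Q`.
-/

set_option autoImplicit false
set_option synthInstance.maxHeartbeats 200000
set_option linter.unusedSectionVars false
set_option linter.style.haveILetI false

noncomputable section

namespace Fermat.Agent.CFT.Euler

open ExtCitation Fermat.Agent.Arith IntermediateField Fermat.Agent.CFT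
open Fermat.Agent.CFT.Local Fermat.Agent.CFT.Idele Fermat.Agent.CFT.Duality

local instance factPrimeEulerLevel (q : Nat.Primes) : Fact (q : ℕ).Prime := ⟨q.2⟩

variable (K : IntermediateField ℚ QBar) [FiniteDimensional ℚ K] [Normal ℚ K]
  (T T₁ : Finset Nat.Primes) (Q : Finset Nat.Primes)

/-- The semilocal units at `Q` among the semilocal modules. -/
def unitIncl : (∀ q : Q, CoInd (decomp K (q : Nat.Primes)) (LocUnit K q)) →+
    ∀ q : Q, SemiLoc K q :=
  AddMonoidHom.pi fun q : Q => (CoInd.map (LocUnit.incl K q) (LocUnit.incl_smul K q)).comp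
    (Pi.evalAddMonoidHom (fun q : Q => CoInd (decomp K (q : Nat.Primes)) (LocUnit K q)) q)

theorem unitIncl_smul (g : K ≃ₐ[ℚ] K)
    (F : ∀ q : Q, CoInd (decomp K (q : Nat.Primes)) (LocUnit K q)) :
    unitIncl K Q (g • F) = g • unitIncl K Q F := rfl

theorem unitIncl_injective : Function.Injective (unitIncl K Q) := fun _ _ h => funext fun q =>
  CoInd.map_injective _ (LocUnit.incl_smul K q) (LocUnit.incl_injective K q) (congrFun h q)

theorem semiIdl_unit_mem (F : ∀ q : Q, CoInd (decomp K (q : Nat.Primes)) (LocUnit K q))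
    (q : Nat.Primes) (σ : K ≃ₐ[ℚ] K) :
    val (semiIdl K Q (unitIncl K Q F)).toMul q σ ∈ unitGroup (E K q) := by
  by_cases hq : q ∈ Q
  · rw [val_semiIdl_mem K Q _ q hq]
    exact ((toUnit K q).symm (CoInd.fn (F ⟨q, hq⟩) σ)).toMul.2
  · rw [val_semiIdl_notMem K Q _ q hq]
    exact one_mem _

theorem unitsOff_anti {T T₁ : Finset Nat.Primes} (h : T ⊆ T₁) :
    unitsOff K (T₁ : Set Nat.Primes) ≤ unitsOff K (T : Set Nat.Primes) := fun _ hx q σ =>
  ⟨(hx q σ).1, fun hq => (hx q σ).2 (h hq)⟩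

/-- The projection from the larger set to the smaller. -/
def classProj (h : T ⊆ T₁) : ClassMod K T₁ →+ ClassMod K T :=
  QuotientAddGroup.map _ _ (AddMonoidHom.id (C K)) fun _ hx =>
    AddSubgroup.map_mono (unitsOff_anti K h) hx

theorem classProj_smul (h : T ⊆ T₁) (g : K ≃ₐ[ℚ] K) (x : ClassMod K T₁) :
    classProj K T T₁ h (g • x) = g • classProj K T T₁ h x := by
  obtain ⟨c, rfl⟩ := QuotientAddGroup.mk'_surjective _ x
  rfl

theorem classProj_surjective (h : T ⊆ T₁) : Function.Surjective (classProj K T T₁ h) := fun x => by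
  obtain ⟨c, rfl⟩ := QuotientAddGroup.mk'_surjective _ x
  exact ⟨toClassMod K T₁ c, rfl⟩

/-- The classes of semilocal units at `Q`. -/
def unitClass : (∀ q : Q, CoInd (decomp K (q : Nat.Primes)) (LocUnit K q)) →+ ClassMod K T₁ :=
  (toClassMod K T₁).comp ((proj K).comp ((semiIdl K Q).comp (unitIncl K Q)))

theorem unitClass_smul (g : K ≃ₐ[ℚ] K)
    (F : ∀ q : Q, CoInd (decomp K (q : Nat.Primes)) (LocUnit K q)) :
    unitClass K T₁ Q (g • F) = g • unitClass K T₁ Q F := by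
  show toClassMod K T₁ (proj K (semiIdl K Q (unitIncl K Q (g • F)))) = _
  rw [unitIncl_smul, semiIdl_smul, proj_smul, toClassMod_smul]
  rfl

variable {T T₁ Q} (hQ : ∀ q, q ∈ T₁ ↔ q ∈ T ∨ q ∈ Q) (hd : ∀ q ∈ Q, q ∉ T)

include hQ hd in
theorem unitClass_injective (hT : T.Nonempty) : Function.Injective (unitClass K T₁ Q) := by
  refine (injective_iff_map_eq_zero _).mpr fun F hF => ?_
  obtain ⟨w, hw, hpw⟩ := (toClassMod_eq_zero_iff K T₁ _).mp hF
  obtain ⟨a, ha⟩ := (proj_eq_zero_iff K).mp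
    (show proj K (semiIdl K Q (unitIncl K Q F) - w) = 0 by rw [map_sub, hpw]; exact sub_self _)
  have ha' : diag K (Additive.ofMul a) = semiIdl K Q (unitIncl K Q F) - w :=
    congrArg Additive.ofMul ha
  obtain ⟨q₀, hq₀⟩ := hT
  have h0 := localEmb_eq_one_of_val K (a := Additive.ofMul a) (q := q₀) (by
    rw [ha', val_toMul_sub, val_semiIdl_notMem K Q _ q₀ fun h => hd q₀ h hq₀,
      (hw q₀ 1).2 ((hQ q₀).mpr (Or.inl hq₀)), div_one])
  rw [h0, map_zero] at ha'
  have heq := sub_eq_zero.mp ha'.symm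
  refine unitIncl_injective K Q ?_
  rw [map_zero]
  refine funext fun q => CoInd.ext fun σ => ?_
  have h1 := val_semiIdl_mem K Q (unitIncl K Q F) q q.2 σ
  rw [heq, (hw q σ).2 ((hQ q).mpr (Or.inr q.2))] at h1
  rw [Pi.zero_apply, map_zero CoInd.fn]
  exact (toLoc K q).symm.injective (Additive.toMul.injective (h1.symm.trans (toMul_zero).symm))

include hQ hd in
theorem exists_unitClass_eq (h : T ⊆ T₁) (y : ClassMod K T₁) (hy : classProj K T T₁ h y = 0) :
    ∃ F, unitClass K T₁ Q F = y := by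
  obtain ⟨c, rfl⟩ := QuotientAddGroup.mk'_surjective _ y
  obtain ⟨w, hw, rfl⟩ := (toClassMod_eq_zero_iff K T c).mp hy
  let F : ∀ q : Q, CoInd (decomp K (q : Nat.Primes)) (LocUnit K q) := fun q =>
    CoInd.mk (fun σ => toUnit K q (Additive.ofMul ⟨val w.toMul q σ, (hw q σ).1⟩)) fun d σ => by
      refine LocUnit.incl_injective K q ?_
      rw [LocUnit.incl_smul]
      exact CoInd.fn_equi (semiVal K Q w q) d σ
  refine ⟨F, ?_⟩
  show toClassMod K T₁ (proj K (semiIdl K Q (semiVal K Q w))) = toClassMod K T₁ (proj K w)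
  refine sub_eq_zero.mp ?_
  rw [← map_sub, ← map_sub]
  refine (toClassMod_eq_zero_iff K T₁ _).mpr ⟨_, fun q σ => ⟨?_, fun hq => ?_⟩, rfl⟩
  · rw [val_toMul_sub]
    exact div_mem (semiIdl_unit_mem K Q F q σ) (hw q σ).1
  · rw [val_toMul_sub]
    rcases (hQ q).mp hq with h1 | h1
    · rw [val_semiIdl_notMem K Q _ q fun h2 => hd q h2 h1, (hw q σ).2 h1, div_one]
    · rw [val_semiIdl_mem K Q _ q h1]
      exact div_self' _

include hQ hd in
/-- Extensions by classes modulo unit families outside the enlarged set. -/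
theorem xLp_classMod_le {p : ℕ} [hp : Fact p.Prime] {A : Type} [AddCommGroup A]
    [DistribMulAction (K ≃ₐ[ℚ] K) A] [Finite A] [Fintype (K ≃ₐ[ℚ] K)]
    [∀ q : Q, Fintype (decomp K (q : Nat.Primes))] (X : Pres p (K ≃ₐ[ℚ] K) A)
    (hfull : ∀ x : X.P, x ∈ X.K) (hA : ∀ a : A, p • a = 0) (hp2 : p ≠ 2) (hT : T.Nonempty)
    (hgen : ∀ f : J K, ∃ a : Additive Kˣ, ∀ q ∉ T, ∀ σ,
      val (f + diag K a).toMul q σ ∈ unitGroup (E K q))
    (hU : ModPFinite p (TUnits K T)) (hU₁ : ModPFinite p (TUnits K T₁))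
    (hQur : ∀ q ∈ Q, inertia (E K q) = ⊥) (hQp : ∀ q ∈ Q, (q : ℕ) ≠ p)
    (hQ1 : ∀ q ∈ Q, p ∣ (q : ℕ) - 1) :
    X.xLp (ClassMod K T₁) ≤ X.xLp (ClassMod K T) +
      ∑ q : Q, lpN p (Nat.card (fixPts (decomp K (q : Nat.Primes)) A)) := by
  have hsub : T ⊆ T₁ := fun q hq => (hQ q).mpr (Or.inl hq)
  have hgen₁ : ∀ f : J K, ∃ a : Additive Kˣ, ∀ q ∉ T₁, ∀ σ,
      val (f + diag K a).toMul q σ ∈ unitGroup (E K q) := fun f =>
    (hgen f).imp fun a ha q hq σ => ha q (fun h => hq (hsub h)) σ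
  have hu : ∀ q : Q, ModPFinite p (CoInd (decomp K (q : Nat.Primes)) (LocUnit K q)) := fun q =>
    CoInd.modPFinite (locUnit_modPFinite K hp2 (hQp q q.2))
  have h1 := X.xLp_le_add hfull (unitClass K T₁ Q) (classProj K T T₁ hsub)
    (unitClass_smul K T₁ Q) (classProj_smul K T T₁ hsub) (unitClass_injective K hQ hd hT)
    (exists_unitClass_eq K hQ hd hsub) (classProj_surjective K T T₁ hsub) (ModPFinite.pi hu)
    (classMod_modPFinite K T₁ hp2 (hT.mono hsub) hgen₁ hU₁)
    (classMod_modPFinite K T hp2 hT hgen hU)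
  rw [X.xLp_pi hu] at h1
  have h2 := Finset.sum_le_sum (s := (Finset.univ : Finset Q)) fun q _ => (le_of_eq
    (X.xLp_coInd (H := decomp K (q : Nat.Primes)) (N := LocUnit K q))).trans
    (xLp_locUnit_le K (X.restrict (decomp K (q : Nat.Primes))) hfull hA hp2 (hQur q q.2)
      (hQp q q.2) (hQ1 q q.2))
  linarith

end Fermat.Agent.CFT.Euler
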