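import Fermat.Agent.CFT.Euler.Lattices
import Fermat.Agent.CFT.Euler.UnitChar
import Mathlib.NumberTheory.NumberField.Units.DirichletTheorem

/-!
Units of a Galois number field: a family of units indexed by the infinite places whose only
relations are the constant ones, and which generates a subgroup of finite index.
-/

set_option autoImplicit false
set_option synthInstance.maxHeartbeats 200000
set_option linter.unusedSectionVars false
set_option linter.style.haveILetI false

noncomputable section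

namespace Fermat.Agent.CFT.Euler

open NumberField
open scoped NumberField

variable {K : Type} [Field K] [NumberField K]

/-- The stabiliser of a chosen infinite place. -/
def infStab (K : Type) [Field K] [NumberField K] : Subgroup (K ≃ₐ[ℚ] K) :=
  MulAction.stabilizer (K ≃ₐ[ℚ] K) (Classical.arbitrary (InfinitePlace K))

theorem infStab_coprime {p : ℕ} [hp : Fact p.Prime] (hp2 : p ≠ 2) :
    Nat.Coprime p (Nat.card (infStab K)) := by
  rcases InfinitePlace.nat_card_stabilizer_eq_one_or_two ℚ (Classical.arbitrary (InfinitePlace K))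
    with h | h
  · rw [show Nat.card (infStab K) = 1 from h]
    exact Nat.coprime_one_right p
  · rw [show Nat.card (infStab K) = 2 from h]
    exact (Nat.coprime_primes hp.out Nat.prime_two).mpr hp2

/-- An element of `K` as a unit of `K`, for units of the integers. -/
def unitToK (u : (𝓞 K)ˣ) : Kˣ := Units.map (algebraMap (𝓞 K) K).toMonoidHom u

theorem unitToK_val (u : (𝓞 K)ˣ) : (unitToK u : K) = ((u : 𝓞 K) : K) := rfl

/-- The logarithm of the chosen absolute value. -/
def logW : Additive Kˣ →+ ℝ :=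
  AddMonoidHom.mk' (fun x => Real.log (Classical.arbitrary (InfinitePlace K) (x.toMul : K)))
    fun x y => by
      have e : ∀ z : Additive Kˣ, Classical.arbitrary (InfinitePlace K) (z.toMul : K) ≠ 0 :=
        fun z => (map_ne_zero _).mpr (Units.ne_zero _)
      rw [← Real.log_mul (e x) (e y), ← map_mul, ← Units.val_mul]
      rfl

theorem logW_apply (x : Additive Kˣ) :
    logW x = Real.log (Classical.arbitrary (InfinitePlace K) (x.toMul : K)) := rfl

/-- A unit below `1` at all infinite places but the chosen one, squared. -/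
theorem exists_good_unit : ∃ u : (𝓞 K)ˣ, (∀ w : InfinitePlace K,
    w ≠ Classical.arbitrary (InfinitePlace K) → Real.log (w u) < 0) ∧
      Algebra.norm ℚ ((unitToK u : Kˣ) : K) = 1 := by
  obtain ⟨u, hu⟩ := Units.dirichletUnitTheorem.exists_unit K (Classical.arbitrary (InfinitePlace K))
  refine ⟨u ^ 2, fun w hw => ?_, ?_⟩
  · have h := hu w hw
    rw [Units.val_pow_eq_pow_val, map_pow, map_pow, Real.log_pow]
    exact mul_neg_of_pos_of_neg (by norm_num) h
  · rw [unitToK_val, Units.val_pow_eq_pow_val,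
      show (((u : 𝓞 K) ^ 2 : 𝓞 K) : K) = ((u : 𝓞 K) : K) ^ 2 from map_pow (algebraMap (𝓞 K) K) _ 2,
      map_pow, ← sq_abs, Units.norm, one_pow]

variable [IsGalois ℚ K]

/-- The unit attached to the chosen place. -/
def baseUnit : (𝓞 K)ˣ := (exists_good_unit (K := K)).choose

/-- The unit as an element of the multiplicative group of `K`. -/
def baseElt : Additive Kˣ := Additive.ofMul (unitToK baseUnit)

theorem logW_smul_baseElt_neg (g : K ≃ₐ[ℚ] K) (hg : g ∉ infStab K) :
    Real.log (Classical.arbitrary (InfinitePlace K) (g ((unitToK baseUnit : Kˣ) : K))) < 0 := by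
  have h := (exists_good_unit (K := K)).choose_spec.1 (g⁻¹ • Classical.arbitrary (InfinitePlace K))
    fun e => hg (by
      show g • Classical.arbitrary (InfinitePlace K) = _
      exact (eq_inv_smul_iff.mp e.symm))
  exact h

theorem sum_log_baseElt :
    ∑ g : K ≃ₐ[ℚ] K,
      Real.log (Classical.arbitrary (InfinitePlace K) (g ((unitToK baseUnit : Kˣ) : K))) = 0 := by
  rw [← Real.log_prod fun g _ => (map_ne_zero _).mpr
      ((map_ne_zero g.toRingEquiv.toRingHom).mpr (Units.ne_zero _)),
    ← map_prod, ← Algebra.norm_eq_prod_automorphisms,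
    show Algebra.norm ℚ ((unitToK baseUnit : Kˣ) : K) = 1 from
      (exists_good_unit (K := K)).choose_spec.2, map_one, map_one, Real.log_one]

/-- The conjugates of the unit, indexed by the infinite places. -/
def infMap : CoInd (infStab K) (TrivZ (infStab K)) →+ Additive Kˣ :=
  AddMonoidHom.mk' (fun F => ∑ g : K ≃ₐ[ℚ] K, TrivZ.of.symm (CoInd.fn F g⁻¹) •
      Additive.ofMul (g • (baseElt (K := K)).toMul)) fun F F' => by
    rw [← Finset.sum_add_distrib]
    refine Finset.sum_congr rfl fun g _ => ?_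
    rw [← add_zsmul, map_add CoInd.fn, Pi.add_apply, map_add]

theorem infMap_apply (F : CoInd (infStab K) (TrivZ (infStab K))) :
    infMap F = ∑ g : K ≃ₐ[ℚ] K, TrivZ.of.symm (CoInd.fn F g⁻¹) •
      Additive.ofMul (g • (baseElt (K := K)).toMul) := rfl

theorem infMap_smul (s : K ≃ₐ[ℚ] K) (F : CoInd (infStab K) (TrivZ (infStab K))) :
    (infMap (s • F)).toMul = s • (infMap F).toMul := by
  let σ : Additive Kˣ →+ Additive Kˣ :=
    MonoidHom.toAdditive (MulDistribMulAction.toMonoidHom Kˣ s)
  show (infMap (s • F)).toMul = (σ (infMap F)).toMul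
  congr 1
  rw [infMap_apply, infMap_apply, map_sum]
  refine Fintype.sum_equiv (Equiv.mulLeft s⁻¹) _ _ fun g => ?_
  rw [map_zsmul, CoInd.fn_smul, Equiv.coe_mulLeft, mul_inv_rev, inv_inv]
  refine congrArg (TrivZ.of.symm (CoInd.fn F (g⁻¹ * s)) • ·) ?_
  show Additive.ofMul (g • _) = Additive.ofMul (s • ((s⁻¹ * g) • (baseElt (K := K)).toMul))
  rw [← mul_smul, mul_inv_cancel_left]

/-- If all conjugates of `infMap F` have absolute value one, `F` is constant. -/
theorem fn_eq_of_log (F : CoInd (infStab K) (TrivZ (infStab K)))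
    (hF : ∀ h : K ≃ₐ[ℚ] K, logW (Additive.ofMul (h • (infMap F).toMul)) = 0)
    (x : K ≃ₐ[ℚ] K) : CoInd.fn F x = CoInd.fn F 1 := by
  classical
  let f : (K ≃ₐ[ℚ] K) → ℤ := fun g => TrivZ.of.symm (CoInd.fn F g⁻¹)
  let l : (K ≃ₐ[ℚ] K) → ℝ := fun g =>
    Real.log (Classical.arbitrary (InfinitePlace K) (g ((unitToK baseUnit : Kˣ) : K)))
  have hrel : ∀ h : K ≃ₐ[ℚ] K, ∑ g, (f g : ℝ) * l (h * g) = 0 := by
    intro h
    let σ : Additive Kˣ →+ Additive Kˣ :=
      MonoidHom.toAdditive (MulDistribMulAction.toMonoidHom Kˣ h)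
    rw [← hF h]
    show _ = logW (σ (infMap F))
    rw [infMap_apply, map_sum, map_sum]
    refine Finset.sum_congr rfl fun g _ => ?_
    rw [map_zsmul, map_zsmul, zsmul_eq_mul]
    rfl
  have hinv : ∀ g s, s ∈ infStab K → f (g * s) = f g := fun g s hs => by
    show TrivZ.of.symm _ = TrivZ.of.symm _
    rw [mul_inv_rev]
    exact congrArg _ ((CoInd.fn_equi F ⟨s⁻¹, inv_mem hs⟩ g⁻¹).trans (TrivZ.smul_eq _ _))
  obtain ⟨g₁, -, hmax⟩ := Finset.exists_max_image Finset.univ f Finset.univ_nonempty
  have hl : ∑ g, l (g₁⁻¹ * g) = 0 :=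
    (Fintype.sum_equiv (Equiv.mulLeft g₁⁻¹) _ l fun g => rfl).trans sum_log_baseElt
  have hzero : ∑ g, ((f g : ℝ) - f g₁) * l (g₁⁻¹ * g) = 0 := by
    simp only [sub_mul, Finset.sum_sub_distrib, hrel, ← Finset.mul_sum, hl, mul_zero, sub_zero]
  have hterm : ∀ g, g₁⁻¹ * g ∈ infStab K → f g = f g₁ := fun g hg => by
    rw [← hinv g₁ _ hg, mul_inv_cancel_left]
  have hnonneg : ∀ g ∈ (Finset.univ : Finset (K ≃ₐ[ℚ] K)),
      0 ≤ ((f g : ℝ) - f g₁) * l (g₁⁻¹ * g) := fun g _ => by
    by_cases hg : g₁⁻¹ * g ∈ infStab K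
    · rw [hterm g hg, sub_self, zero_mul]
    · exact mul_nonneg_of_nonpos_of_nonpos
        (sub_nonpos.mpr (Int.cast_le.mpr (hmax g (Finset.mem_univ g))))
        (logW_smul_baseElt_neg _ hg).le
  have hall : ∀ g, f g = f g₁ := fun g => by
    by_cases hg : g₁⁻¹ * g ∈ infStab K
    · exact hterm g hg
    · have h := (Finset.sum_eq_zero_iff_of_nonneg hnonneg).mp hzero g (Finset.mem_univ g)
      rcases mul_eq_zero.mp h with h | h
      · exact_mod_cast sub_eq_zero.mp h
      · exact absurd h (logW_smul_baseElt_neg _ hg).ne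
  refine TrivZ.of.symm.injective ?_
  have e1 := hall x⁻¹
  have e2 := hall 1
  simp only [f, inv_inv, inv_one] at e1 e2
  rw [e1, e2]

theorem sum_zsmul_aux {ι A : Type*} [AddCommGroup A] (s : Finset ι) (f : ι → A) (n : ℤ) :
    n • ∑ i ∈ s, f i = ∑ i ∈ s, n • f i := map_sum (zsmulAddGroupHom n : A →+ A) f s

theorem infMap_const (n : TrivZ (K ≃ₐ[ℚ] K)) : infMap (constCoInd (infStab K) n) = 0 := by
  rw [infMap_apply]
  simp only [fn_constCoInd, AddEquiv.symm_apply_apply]
  rw [← sum_zsmul_aux]
  have h : (∑ g : K ≃ₐ[ℚ] K, Additive.ofMul (g • (baseElt (K := K)).toMul)) = 0 := by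
    refine Additive.toMul.injective (Units.ext ?_)
    rw [toMul_sum, Units.coe_prod, toMul_zero, Units.val_one]
    show ∏ g : K ≃ₐ[ℚ] K, g ((unitToK baseUnit : Kˣ) : K) = 1
    rw [← Algebra.norm_eq_prod_automorphisms,
      show Algebra.norm ℚ ((unitToK baseUnit : Kˣ) : K) = 1 from
        (exists_good_unit (K := K)).choose_spec.2, map_one]
  rw [h, zsmul_zero]

theorem infMap_eq_zero_iff (F : CoInd (infStab K) (TrivZ (infStab K))) :
    infMap F = 0 ↔ F ∈ (constCoInd (infStab K)).range := by
  refine ⟨fun h => ⟨TrivZ.of (TrivZ.of.symm (CoInd.fn F 1)), CoInd.ext fun x => ?_⟩, ?_⟩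
  · rw [fn_constCoInd, AddEquiv.symm_apply_apply, AddEquiv.apply_symm_apply,
      fn_eq_of_log F (fun g => by rw [h, toMul_zero, smul_one, ofMul_one, map_zero]) x]
  · rintro ⟨n, rfl⟩
    exact infMap_const n

theorem card_quotient_infStab :
    Nat.card ((K ≃ₐ[ℚ] K) ⧸ infStab K) = Fintype.card (InfinitePlace K) := by
  rw [← Nat.card_eq_fintype_card]
  refine (Nat.card_congr (MulAction.orbitEquivQuotientStabilizer
    (K ≃ₐ[ℚ] K) (Classical.arbitrary (InfinitePlace K)))).symm.trans ?_
  refine Nat.card_congr (Equiv.subtypeUnivEquiv fun w => ?_)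
  exact InfinitePlace.mem_orbit_iff.mpr (Subsingleton.elim _ _)

/-- `infMap`, with values in the units of the integers. -/
def infMapUnits : CoInd (infStab K) (TrivZ (infStab K)) →+ Additive (𝓞 K)ˣ :=
  AddMonoidHom.mk' (fun F => ∑ g : K ≃ₐ[ℚ] K, TrivZ.of.symm (CoInd.fn F g⁻¹) •
      Additive.ofMul (Units.map (galRestrict ℤ ℚ K (𝓞 K) g).toRingEquiv.toRingHom.toMonoidHom
        (baseUnit (K := K)))) fun F F' => by
    rw [← Finset.sum_add_distrib]
    refine Finset.sum_congr rfl fun g _ => ?_
    rw [← add_zsmul, map_add CoInd.fn, Pi.add_apply, map_add]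

theorem toK_infMapUnits (F : CoInd (infStab K) (TrivZ (infStab K))) :
    Additive.ofMul (unitToK (infMapUnits F).toMul) = infMap F := by
  show MonoidHom.toAdditive (Units.map (algebraMap (𝓞 K) K).toMonoidHom) (infMapUnits F) = _
  simp only [infMapUnits, AddMonoidHom.mk'_apply, infMap_apply, map_sum, map_zsmul]
  refine Finset.sum_congr rfl fun g _ => congrArg _ ?_
  refine Additive.toMul.injective (Units.ext ?_)
  show algebraMap (𝓞 K) K (galRestrict ℤ ℚ K (𝓞 K) g (baseUnit (K := K) : 𝓞 K)) =
    g ((unitToK baseUnit : Kˣ) : K)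
  exact algebraMap_galRestrict_apply ℤ g _

/-- The conjugates of the unit generate a subgroup of finite index. -/
theorem index_range_infMapUnits_ne_zero : (infMapUnits (K := K)).range.index ≠ 0 := by
  classical
  let tors : AddSubgroup (Additive (𝓞 K)ˣ) := Subgroup.toAddSubgroup (Units.torsion K)
  let π : Additive (𝓞 K)ˣ →+ Units.unitLattice K :=
    (Units.logEmbedding K).codRestrict (Units.unitLattice K).toAddSubgroup fun u =>
      ⟨u, trivial, rfl⟩
  have hπker : ∀ u : Additive (𝓞 K)ˣ, π u = 0 ↔ u.toMul ∈ Units.torsion K := fun u =>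
    ⟨fun h => Units.dirichletUnitTheorem.logEmbedding_eq_zero_iff.mp (congrArg Subtype.val h),
      fun h => Subtype.ext (Units.dirichletUnitTheorem.logEmbedding_eq_zero_iff.mpr h)⟩
  have hπsurj : Function.Surjective π := fun y => by
    obtain ⟨u, -, hu⟩ := y.2
    exact ⟨u, Subtype.ext hu⟩
  let Ψ : CoInd (infStab K) (TrivZ (infStab K)) →ₗ[ℤ] Units.unitLattice K :=
    (π.comp infMapUnits).toIntLinearMap
  let cst : TrivZ (K ≃ₐ[ℚ] K) →ₗ[ℤ] CoInd (infStab K) (TrivZ (infStab K)) :=
    (constCoInd (infStab K)).toIntLinearMap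
  have hker : LinearMap.ker Ψ = LinearMap.range cst := by
    ext F
    rw [LinearMap.mem_ker, LinearMap.mem_range]
    constructor
    · intro h
      have ht : (infMapUnits F).toMul ∈ Units.torsion K := (hπker _).mp h
      refine ⟨TrivZ.of (TrivZ.of.symm (CoInd.fn F 1)), CoInd.ext fun x => ?_⟩
      show CoInd.fn (constCoInd _ _) x = _
      have hlog : ∀ g : K ≃ₐ[ℚ] K, logW (Additive.ofMul (g • (infMap F).toMul)) = 0 := fun g => by
        rw [logW_apply, ← toK_infMapUnits]
        show Real.log ((g⁻¹ • Classical.arbitrary (InfinitePlace K))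
          (((infMapUnits F).toMul : 𝓞 K) : K)) = 0
        rw [(Units.mem_torsion K).mp ht, Real.log_one]
      rw [fn_constCoInd, AddEquiv.symm_apply_apply, AddEquiv.apply_symm_apply]
      exact (fn_eq_of_log F hlog x).symm
    · rintro ⟨n, rfl⟩
      have h0 : infMapUnits (constCoInd (infStab K) n) = 0 := by
        refine Additive.toMul.injective (Units.ext (RingOfIntegers.ext ?_))
        exact congrArg (fun z : Additive Kˣ => (z.toMul : K))
          ((toK_infMapUnits _).trans (infMap_const n))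
      show π (infMapUnits (constCoInd (infStab K) n)) = 0
      rw [h0, map_zero]
  let e : CoInd (infStab K) (TrivZ (infStab K)) ≃ₗ[ℤ] ((K ≃ₐ[ℚ] K) ⧸ infStab K → ℤ) :=
    ((CoInd.coords (H := infStab K) (N := TrivZ (infStab K))).trans
      (AddEquiv.piCongrRight fun _ => TrivZ.of.symm)).toIntLinearEquiv
  haveI : Module.Finite ℤ (CoInd (infStab K) (TrivZ (infStab K))) := Module.Finite.equiv e.symm
  haveI : Module.Free ℤ (CoInd (infStab K) (TrivZ (infStab K))) := Module.Free.of_equiv e.symm
  letI : Fintype ((K ≃ₐ[ℚ] K) ⧸ infStab K) := Fintype.ofFinite _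
  have hdom : Module.finrank ℤ (CoInd (infStab K) (TrivZ (infStab K))) =
      Fintype.card (InfinitePlace K) := by
    rw [e.finrank_eq, Module.finrank_pi, ← card_quotient_infStab, Nat.card_eq_fintype_card]
  have hkerrank : Module.finrank ℤ (LinearMap.ker Ψ) = 1 := by
    rw [hker, LinearMap.finrank_range_of_inj (constCoInd_injective _),
      (TrivZ.of (G := K ≃ₐ[ℚ] K)).symm.toIntLinearEquiv.finrank_eq, Module.finrank_self]
  have hrange : Module.finrank ℤ (LinearMap.range Ψ) = Units.rank K := by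
    have h := Submodule.finrank_quotient_add_finrank (LinearMap.ker Ψ)
    rw [Ψ.quotKerEquivRange.finrank_eq, hkerrank, hdom] at h
    rw [Units.rank]
    omega
  haveI : Finite (Units.unitLattice K ⧸ LinearMap.range Ψ) :=
    Submodule.finiteQuotientOfFreeOfRankEq _ (hrange.trans (Units.unitLattice_rank K).symm)
  have h1 : (infMapUnits (K := K)).range ⊔ tors =
      (LinearMap.range Ψ).toAddSubgroup.comap π := by
    ext u
    rw [AddSubgroup.mem_sup, AddSubgroup.mem_comap]
    constructor
    · rintro ⟨_, ⟨F, rfl⟩, t, ht, rfl⟩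
      refine ⟨F, ?_⟩
      rw [map_add, (hπker t).mpr ht, add_zero]
      rfl
    · rintro ⟨F, hF⟩
      refine ⟨_, ⟨F, rfl⟩, u - infMapUnits F, ?_, by abel⟩
      have h0 : π (u - infMapUnits F) = 0 := by rw [map_sub, ← hF]; exact sub_self _
      exact (hπker _).mp h0
  have h2 : ((infMapUnits (K := K)).range ⊔ tors).index ≠ 0 := by
    rw [h1, AddSubgroup.index_comap_of_surjective _ hπsurj]
    exact (Nat.card_pos (α := Units.unitLattice K ⧸ LinearMap.range Ψ)).ne'
  rw [← AddSubgroup.relIndex_mul_index (le_sup_left :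
    (infMapUnits (K := K)).range ≤ (infMapUnits (K := K)).range ⊔ tors),
    AddSubgroup.relIndex_sup_left]
  refine mul_ne_zero ?_ h2
  haveI : Finite tors := inferInstanceAs (Finite (Units.torsion K))
  exact AddSubgroup.index_ne_zero_of_finite

end Fermat.Agent.CFT.Euler
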