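import Fermat.Agent.CFT.Euler.TUnitOrd
import Fermat.Agent.CFT.Euler.InfUnits
import Fermat.Agent.CFT.Idele.SUnits

/-!
The `T`-units of a finite Galois extension of `ℚ`: finiteness modulo `p` and their character.
-/

set_option autoImplicit false
set_option synthInstance.maxHeartbeats 200000
set_option linter.unusedSectionVars false
set_option linter.style.haveILetI false

noncomputable section

namespace Fermat.Agent.CFT.Euler

open ExtCitation Fermat.Agent.Arith IntermediateField Fermat.Agent.CFT
open Fermat.Agent.CFT.Local Fermat.Agent.CFT.Idele Fermat.Agent.CFT.Duality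
open scoped NumberField

local instance factPrimeEulerTChar (q : Nat.Primes) : Fact (q : ℕ).Prime := ⟨q.2⟩

variable (K : IntermediateField ℚ QBar) [FiniteDimensional ℚ K] [Normal ℚ K]
  (T : Finset Nat.Primes)

theorem val_unitToK_mem (u : (𝓞 K)ˣ) (q : Nat.Primes) (σ : K ≃ₐ[ℚ] K) :
    val (prinL K (unitToK u)) q σ ∈ unitGroup (E K q) := by
  rw [Local.mem_unitGroup, norm_val (prinL K (unitToK u)) q (res_lift K σ)]
  exact (mem_sUnits.mp (intUnits_mem u)).2 q (by simp) (lift K σ)

theorem exists_unitToK_eq (x : Kˣ)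
    (h : ∀ (q : Nat.Primes) (σ : K ≃ₐ[ℚ] K), val (prinL K x) q σ ∈ unitGroup (E K q)) :
    ∃ u : (𝓞 K)ˣ, unitToK u = x := by
  have hx : Units.map K.val.toRingHom.toMonoidHom x ∈ sUnits ∅ K :=
    mem_sUnits.mpr ⟨(x : K).2, fun q _ g => by
      have h1 := h q (res K g)
      rw [Local.mem_unitGroup, norm_val (prinL K x) q rfl] at h1
      exact h1⟩
  obtain ⟨u, hu⟩ := exists_intUnits_eq hx
  exact ⟨u, Units.ext (Subtype.ext (congrArg (fun z : QBarˣ => (z : QBar)) hu))⟩

/-- The units of the integers among the `T`-units. -/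
def intToT : Additive (𝓞 K)ˣ →+ TUnits K T :=
  (MonoidHom.toAdditive (Units.map (algebraMap (𝓞 K) K).toMonoidHom)).codRestrict (tUnits K T)
    fun u q _ σ => val_unitToK_mem K u.toMul q σ

theorem intToT_injective : Function.Injective (intToT K T) := fun _ _ h =>
  Additive.toMul.injective (Units.ext (NumberField.RingOfIntegers.ext
    (congrArg (fun z : TUnits K T => (((TUnits.incl K T z).toMul : Kˣ) : K)) h)))

theorem range_intToT : (intToT K T).range = (tOrd K T).ker := by
  ext x
  rw [AddMonoidHom.mem_ker, tOrd_eq_zero_iff]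
  constructor
  · rintro ⟨u, rfl⟩ q σ
    exact val_unitToK_mem K u.toMul q σ
  · intro h
    obtain ⟨u, hu⟩ := exists_unitToK_eq K (TUnits.incl K T x).toMul h
    exact ⟨Additive.ofMul u, Subtype.ext (congrArg Additive.ofMul hu)⟩

theorem intUnits_modPFinite {p : ℕ} [hp : Fact p.Prime] (F : Type) [Field F] [NumberField F] :
    ModPFinite p (Additive (𝓞 F)ˣ) := by
  obtain ⟨f, hsurj, hker⟩ := exists_hom_units F
  let q : Additive (𝓞 F)ˣ →+ (Fin (NumberField.Units.rank F) → TrivZ (Multiplicative ℤ)) :=
    AddMonoidHom.mk' (fun u i => TrivZ.of (Multiplicative.toAdd (f u.toMul i))) fun u v =>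
      funext fun i => by
        show TrivZ.of (Multiplicative.toAdd (f (u.toMul * v.toMul) i)) = _
        rw [map_mul, Pi.mul_apply, toAdd_mul, map_add]
        rfl
  haveI : Finite (Subgroup.toAddSubgroup (NumberField.Units.torsion F)) :=
    inferInstanceAs (Finite (NumberField.Units.torsion F))
  refine ModPFinite.ses (Subgroup.toAddSubgroup (NumberField.Units.torsion F)).subtype q
    Subtype.val_injective (fun y hy => ⟨⟨y, ?_⟩, rfl⟩) (fun t => ?_) (fun x => ?_)
    ModPFinite.of_finite (ModPFinite.pi fun _ => TrivZ.modPFinite)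
  · show y.toMul ∈ NumberField.Units.torsion F
    rw [← hker, MonoidHom.mem_ker]
    funext i
    exact Multiplicative.toAdd.injective (TrivZ.of.map_eq_zero_iff.mp (congrFun hy i))
  · obtain ⟨u, hu⟩ := hsurj fun i => Multiplicative.ofAdd (TrivZ.of.symm (t i))
    refine ⟨Additive.ofMul u, funext fun i => ?_⟩
    show TrivZ.of (Multiplicative.toAdd (f u i)) = t i
    rw [hu]
    exact TrivZ.of.apply_symm_apply _
  · have hx : f x.1.toMul = 1 := by rw [← MonoidHom.mem_ker, hker]; exact x.2
    funext i
    show TrivZ.of (Multiplicative.toAdd (f x.1.toMul i)) = 0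
    rw [hx]
    rfl

variable {p : ℕ} [hp : Fact p.Prime]

theorem tUnits_modPFinite : ModPFinite p (TUnits K T) := by
  haveI : NumberField K := ⟨⟩
  refine ModPFinite.ses (intToT K T) (tOrd K T).rangeRestrict (intToT_injective K T)
    (fun y hy => ?_) (tOrd K T).rangeRestrict_surjective (fun x => Subtype.ext ?_)
    (intUnits_modPFinite K) ?_
  · have h : y ∈ (tOrd K T).ker := congrArg Subtype.val hy
    rw [← range_intToT] at h
    exact h
  · have h : intToT K T x ∈ (tOrd K T).ker := by rw [← range_intToT]; exact ⟨x, rfl⟩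
    exact h
  · refine ModPFinite.of_finiteIndex (tOrd K T).range.subtype Subtype.val_injective
      (by rw [AddSubgroup.range_subtype]; exact tOrd_index_ne_zero K T) ?_
    exact ModPFinite.pi fun q => CoInd.modPFinite TrivZ.modPFinite

/-- The character of the `T`-units. -/
theorem tUnits_unitChar [∀ q : T, Fintype (decomp K (q : Nat.Primes))] [Fintype (infStab K)] :
    UnitChar p (fun q : T => decomp K (q : Nat.Primes)) (infStab K) (TUnits K T) := by
  haveI : NumberField K := ⟨⟩
  haveI : IsGalois ℚ K := ⟨⟩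
  let Φ : CoInd (infStab K) (TrivZ (infStab K)) →+ TUnits K T := (intToT K T).comp infMapUnits
  have hinc : ∀ F, TUnits.incl K T (Φ F) = infMap F := fun F => toK_infMapUnits F
  refine unitChar_of_maps _ _ (tUnits_modPFinite K T) (tOrd K T) (tOrd_smul K T)
    (tOrd_index_ne_zero K T) Φ (fun g F => Subtype.ext ?_) ?_ (fun F => ?_) ?_
  · show TUnits.incl K T (Φ (g • F)) = g • TUnits.incl K T (Φ F)
    rw [hinc, hinc]
    exact Additive.toMul.injective (infMap_smul g F)
  · ext F
    rw [AddMonoidHom.mem_ker, ← infMap_eq_zero_iff, ← hinc]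
    exact ⟨fun h => by rw [h, map_zero], fun h => Subtype.ext h⟩
  · have h : Φ F ∈ (tOrd K T).ker := by rw [← range_intToT]; exact ⟨_, rfl⟩
    exact h
  · rw [← range_intToT, AddMonoidHom.range_comp, AddMonoidHom.range_eq_map (intToT K T),
      AddSubgroup.relIndex_map_map_of_injective _ _ (intToT_injective K T),
      AddSubgroup.relIndex_top_right]
    exact index_range_infMapUnits_ne_zero

end Fermat.Agent.CFT.Euler
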