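import Fermat.Agent.CFT.Euler.HomLift
import Fermat.Agent.CFT.Euler.LevelChange
import Fermat.Agent.CFT.Euler.TUnitChar
import Fermat.Agent.CFT.Euler.Count
import Fermat.Agent.CFT.Idele.UnitsPow

/-!
The count of extensions by the classes modulo unit families outside `T`.
-/

set_option autoImplicit false
set_option synthInstance.maxHeartbeats 200000
set_option linter.unusedSectionVars false
set_option linter.style.haveILetI false

noncomputable section

namespace Fermat.Agent.CFT.Euler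

open ExtCitation Fermat.Agent.Arith IntermediateField Fermat.Agent.CFT
open Fermat.Agent.CFT.Local Fermat.Agent.CFT.Idele Fermat.Agent.CFT.Duality

local instance factPrimeEulerGlobal (q : Nat.Primes) : Fact (q : ℕ).Prime := ⟨q.2⟩

variable (K : IntermediateField ℚ QBar) [FiniteDimensional ℚ K] [Normal ℚ K]
  (T : Finset Nat.Primes) {p : ℕ} [hp : Fact p.Prime] {A : Type} [AddCommGroup A]
  [DistribMulAction (K ≃ₐ[ℚ] K) A] [Finite A] [Fintype (K ≃ₐ[ℚ] K)]

/-- Twisted homomorphisms into the `T`-units have trivial first cohomology. -/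
def TUnitsH1Zero (A : Type) [AddCommGroup A] [DistribMulAction (K ≃ₐ[ℚ] K) A] : Prop :=
  ∀ c : (K ≃ₐ[ℚ] K) → (A →+ TUnits K T),
    (∀ g h a, c (g * h) a = g • c h (g⁻¹ • a) + c g a) →
      ∃ e : A →+ TUnits K T, ∀ g a, c g a = g • e (g⁻¹ • a) - e a

variable {K T}

theorem exists_tUnit_pow (hp2 : p ≠ 2) {ζ : QBar} (hζ : IsPrimitiveRoot ζ p) (hζK : ζ ∈ K)
    (hpT : (⟨p, hp.out⟩ : Nat.Primes) ∈ T)
    (hgen : ∀ f : J K, ∃ a : Additive Kˣ, ∀ q ∉ T, ∀ σ,
      val (f + diag K a).toMul q σ ∈ unitGroup (E K q))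
    (u : TUnits K T) (m : ∀ q : T, SemiLoc K q) (h : p • m = tDiag K T u) :
    ∃ v : TUnits K T, p • v = u := by
  obtain ⟨z, hz⟩ := exists_pow_eq_of_tUnit hp2 hζ hζK hpT hgen
    (x := (TUnits.incl K T u).toMul) u.2 fun q hq σ => by
      refine ⟨((toLoc K q).symm (CoInd.fn (m ⟨q, hq⟩) σ)).toMul, ?_⟩
      have h1 := congrArg (fun F : ∀ q : T, SemiLoc K q =>
        ((toLoc K q).symm (CoInd.fn (F ⟨q, hq⟩) σ)).toMul) h
      dsimp only at h1
      rw [Pi.smul_apply, map_nsmul (CoInd.fn (H := decomp K q) (N := LocUnits K q)), Pi.smul_apply,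
        map_nsmul, toMul_nsmul] at h1
      exact h1
  refine ⟨⟨Additive.ofMul z, fun q hq σ => ?_⟩, Subtype.ext ?_⟩
  · have h1 : val (diag K (TUnits.incl K T u)).toMul q σ ∈ unitGroup (E K q) := u.2 q hq σ
    have e : val (diag K (TUnits.incl K T u)).toMul q σ = val (prinL K z) q σ ^ p := by
      show val (prinL K (TUnits.incl K T u).toMul) q σ = valHom q σ (prinL K z) ^ p
      rw [← map_pow, ← map_pow, hz]
      rfl
    rw [show val (diag K (TUnits.incl K T u)).toMul q σ = _ from e, Local.mem_unitGroup,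
      Units.val_pow_eq_pow_val, norm_pow, pow_eq_one_iff_of_nonneg (norm_nonneg _)
        hp.out.ne_zero] at h1
    rw [Local.mem_unitGroup]
    exact h1
  · exact congrArg Additive.ofMul hz

variable [Fintype (infStab K)] [∀ q : T, Fintype (decomp K (q : Nat.Primes))]

/-- Extensions by the classes against the local ones. -/
theorem xLp_classMod_add_le (hA : ∀ a : A, p • a = 0) (X : Pres p (K ≃ₐ[ℚ] K) A)
    (hfull : ∀ x : X.P, x ∈ X.K) (hfix : fixPts (K ≃ₐ[ℚ] K) A = ⊥) (hp2 : p ≠ 2)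
    {ζ : QBar} (hζ : IsPrimitiveRoot ζ p) (hζK : ζ ∈ K) (hpT : (⟨p, hp.out⟩ : Nat.Primes) ∈ T)
    (hgen : ∀ f : J K, ∃ a : Additive Kˣ, ∀ q ∉ T, ∀ σ,
      val (f + diag K a).toMul q σ ∈ unitGroup (E K q))
    (hunr : ∀ q ∉ T, inertia (E K q) = ⊥) (hvan : TUnitsH1Zero K T A)
    (hC : StepAxioms p (K ≃ₐ[ℚ] K) (C K)) {u : NormCocycle (K ≃ₐ[ℚ] K) (C K)}
    (hu : IsClassFormation p u) (uE : ∀ q : T, NormCocycle (decomp K (q : Nat.Primes))
      (LocUnits K q)) (hE : ∀ q, IsClassFormation p (uE q)) :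
    X.xLp (ClassMod K T) + lpN p (Nat.card (fixDual p (infStab K) A)) +
        ∑ q : T, lpN p (Nat.card (fixPts (decomp K (q : Nat.Primes)) A)) ≤
      ∑ q : T, (X.restrict (decomp K (q : Nat.Primes))).xLp (LocUnits K q) := by
  have hT : T.Nonempty := ⟨_, hpT⟩
  have hU : ModPFinite p (TUnits K T) := tUnits_modPFinite K T
  have hD : ModPFinite p (ClassMod K T) := classMod_modPFinite K T hp2 hT hgen hU
  haveI : NumberField K := ⟨⟩
  haveI : IsGalois ℚ K := ⟨⟩
  have he := euler_count (ι := T) (H := fun q : T => decomp K (q : Nat.Primes))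
    (E := fun q : T => LocUnits K q) (uE := uE) (U := TUnits K T) (c := infStab K) hA X hfull hfix
    hE (fun q => locUnits_modPFinite K hp2 q) (classMod_formation K T hT hunr hC hu) hD hU
    (infStab_coprime hp2) (tDiag K T) (tDiag_smul K T) (semiProj K T) (semiProj_smul K T)
    (tDiag_injective K T hT) (exists_tDiag_eq K T) (semiProj_tDiag K T)
    (semiProj_surjective K T hgen) (tUnits_unitChar K T)
  have hh := X.hLp_le_of_exact hA (tDiag K T) (semiProj K T) (tDiag_smul K T) (semiProj_smul K T)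
    (tDiag_injective K T hT) (exists_tDiag_eq K T) (semiProj_tDiag K T)
    (semiProj_surjective K T hgen) (fun u m h => exists_tUnit_pow hp2 hζ hζK hpT hgen u m h)
    (ModPFinite.pi fun q => semiLoc_modPFinite K hp2 q) hvan
  rw [X.hLp_pi (ι := T) (F := fun q : T => SemiLoc K q)
    fun q => semiLoc_modPFinite K hp2 (q : Nat.Primes)] at hh
  simp only [Pres.hLp_coInd] at hh
  simp only [Pres.index_eq_xLp_sub, Finset.sum_sub_distrib] at he
  linarith

end Fermat.Agent.CFT.Euler
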