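import Fermat.Agent.CFT.Euler.Hom

/-!
Independence of the Euler index from the lattice presentation.
-/

set_option autoImplicit false
set_option linter.unusedSectionVars false
set_option linter.style.haveILetI false

noncomputable section

namespace Fermat.Agent.CFT.Euler

open Fermat.Agent.CFT

variable {p : ℕ} {G : Type} [Group G] [Fintype G] {M : Type} [AddCommGroup M]
  [DistribMulAction G M]

variable (p G M) in
/-- Every equivariant homomorphism from a stable lattice of level `p` is a norm. -/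
def Good : Prop :=
  ∀ (P : Type) [AddCommGroup P] [DistribMulAction G P] [Module.Free ℤ P] [Module.Finite ℤ P],
    IsInduced G P → ∀ (S : AddSubgroup P) (hS : IsStable G S), (∀ x : P, p • x ∈ S) →
      ∀ f : S →+ M, IsEquivariantOn hS f → ∃ φ : S →+ M, normOn hS φ = f

theorem isInduced_prod {P P' : Type} [AddCommGroup P] [DistribMulAction G P] [AddCommGroup P']
    [DistribMulAction G P'] (h : IsInduced G P) (h' : IsInduced G P') : IsInduced G (P × P') := by
  obtain ⟨T, hT⟩ := h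
  obtain ⟨T', hT'⟩ := h'
  refine ⟨T.prodMap T', fun a => Prod.ext ?_ ?_⟩
  · rw [Prod.fst_sum]; exact hT a.1
  · rw [Prod.snd_sum]; exact hT' a.2

variable [hp : Fact p.Prime]

/-- A presentation `K / S` inside an induced lattice. -/
structure Pres (p : ℕ) (G : Type) [Group G] [Fintype G] (A : Type) [AddCommGroup A]
    [DistribMulAction G A] where
  /-- The ambient lattice. -/
  P : Type
  [addCommGroup : AddCommGroup P]
  [action : DistribMulAction G P]
  [free : Module.Free ℤ P]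
  [finite : Module.Finite ℤ P]
  induced : IsInduced G P
  /-- The sub-lattice mapping onto `A`. -/
  K : AddSubgroup P
  /-- The kernel. -/
  S : AddSubgroup P
  hK : IsStable G K
  hS : IsStable G S
  le : S ≤ K
  level : ∀ x : P, p • x ∈ S
  /-- The projection. -/
  π : K →+ A
  surj : Function.Surjective π
  ker : ∀ x : K, π x = 0 ↔ (x : P) ∈ S
  equi : ∀ (g : G) (x : K), π (smulS hK g x) = g • π x

attribute [instance] Pres.addCommGroup Pres.action Pres.free Pres.finite

variable {A : Type} [AddCommGroup A] [DistribMulAction G A]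

/-- The restriction map of a presentation. -/
def Pres.res (X : Pres p G A) (M : Type) [AddCommGroup M] [DistribMulAction G M] :
    equivHom (C := M) X.hK →+ equivHom (C := M) X.hS :=
  resHom X.hK X.hS X.le

/-- The Euler index of a presentation. -/
def Pres.index (X : Pres p G A) (M : Type) [AddCommGroup M] [DistribMulAction G M] : ℤ :=
  lpIndex p (X.res M)

theorem Pres.finiteIndexHom (X : Pres p G A) (hM : ModPFinite p M) : FiniteIndexHom (X.res M) :=
  finiteIndexHom_resHom X.hK X.hS X.le hM fun x _ => X.level x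

namespace Pres

variable (X Y : Pres p G A)

/-- The fibre product of two presentations. -/
def fibK : AddSubgroup (X.P × Y.P) where
  carrier := {z | ∃ (hx : z.1 ∈ X.K) (hy : z.2 ∈ Y.K), X.π ⟨z.1, hx⟩ = Y.π ⟨z.2, hy⟩}
  add_mem' := by
    rintro a b ⟨hx, hy, h⟩ ⟨hx', hy', h'⟩
    refine ⟨add_mem hx hx', add_mem hy hy', ?_⟩
    have e1 : (⟨(a + b).1, add_mem hx hx'⟩ : X.K) = ⟨a.1, hx⟩ + ⟨b.1, hx'⟩ := rfl
    have e2 : (⟨(a + b).2, add_mem hy hy'⟩ : Y.K) = ⟨a.2, hy⟩ + ⟨b.2, hy'⟩ := rfl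
    rw [e1, e2, map_add, map_add, h, h']
  zero_mem' := ⟨zero_mem _, zero_mem _,
    ((X.ker ⟨0, zero_mem _⟩).mpr X.S.zero_mem).trans ((Y.ker ⟨0, zero_mem _⟩).mpr Y.S.zero_mem).symm⟩
  neg_mem' := by
    rintro a ⟨hx, hy, h⟩
    refine ⟨neg_mem hx, neg_mem hy, ?_⟩
    have e1 : (⟨(-a).1, neg_mem hx⟩ : X.K) = -⟨a.1, hx⟩ := rfl
    have e2 : (⟨(-a).2, neg_mem hy⟩ : Y.K) = -⟨a.2, hy⟩ := rfl
    rw [e1, e2, map_neg, map_neg, h]

theorem fibK_stable : IsStable G (fibK X Y) := by
  rintro g z ⟨hx, hy, h⟩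
  refine ⟨X.hK g _ hx, Y.hK g _ hy, ?_⟩
  have h1 := X.equi g ⟨z.1, hx⟩
  have h2 := Y.equi g ⟨z.2, hy⟩
  exact h1.trans ((congrArg (g • ·) h).trans h2.symm)

/-- The projection of the fibre product to the first lattice. -/
def fst' : fibK X Y →+ X.K :=
  AddMonoidHom.mk' (fun z => ⟨z.1.1, z.2.1⟩) fun _ _ => rfl

/-- The projection of the fibre product to the second lattice. -/
def snd' : fibK X Y →+ Y.K :=
  AddMonoidHom.mk' (fun z => ⟨z.1.2, z.2.2.1⟩) fun _ _ => rfl

theorem pi_fst' (z : fibK X Y) : X.π (fst' X Y z) = Y.π (snd' X Y z) := z.2.2.2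

theorem fst'_surjective : Function.Surjective (fst' X Y) := fun x => by
  obtain ⟨y, hy⟩ := Y.surj (X.π x)
  exact ⟨⟨(x.1, y.1), x.2, y.2, hy.symm⟩, rfl⟩

/-- The fibre product presentation. -/
def fib : Pres p G A where
  P := X.P × Y.P
  induced := isInduced_prod X.induced Y.induced
  K := fibK X Y
  S := X.S.prod Y.S
  hK := fibK_stable X Y
  hS g z hz := ⟨X.hS g _ hz.1, Y.hS g _ hz.2⟩
  le z hz := ⟨X.le hz.1, Y.le hz.2, ((X.ker _).mpr hz.1).trans ((Y.ker _).mpr hz.2).symm⟩
  level z := ⟨X.level z.1, Y.level z.2⟩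
  π := X.π.comp (fst' X Y)
  surj := X.surj.comp (fst'_surjective X Y)
  ker z := by
    refine ⟨fun h => ⟨(X.ker _).mp h, (Y.ker _).mp ((pi_fst' X Y z).symm.trans h)⟩,
      fun h => (X.ker _).mpr h.1⟩
  equi g z := (X.equi g (fst' X Y z))

/-- Pullback to the fibre product, from the first presentation. -/
theorem index_fib_left (hGood : Good p G M) : (fib X Y).index M = X.index M := by
  haveI := free_subgroup (P := X.P) X.K
  let b := Module.Free.chooseBasis ℤ X.K
  choose lift hlift using fun i => Y.surj (X.π (b i))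
  let σ : X.K →+ Y.K := (b.constr ℤ lift).toAddMonoidHom
  have hσ : ∀ x, Y.π (σ x) = X.π x := by
    have e : (Y.π.comp σ).toIntLinearMap = X.π.toIntLinearMap := b.ext fun i => by
      show Y.π (b.constr ℤ lift (b i)) = X.π (b i)
      rw [Module.Basis.constr_basis, hlift]
    exact fun x => LinearMap.congr_fun e x
  let a : equivHom (C := M) X.hK →+ equivHom (C := M) (fib X Y).hK :=
    AddMonoidHom.mk' (fun f => ⟨f.1.comp (fst' X Y), fun g z => f.2 g (fst' X Y z)⟩) fun _ _ => rfl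
  let pS : (fib X Y).S →+ X.S := AddMonoidHom.mk' (fun z => ⟨z.1.1, z.2.1⟩) fun _ _ => rfl
  let c : equivHom (C := M) X.hS →+ equivHom (C := M) (fib X Y).hS :=
    AddMonoidHom.mk' (fun f => ⟨f.1.comp pS, fun g z => f.2 g (pS z)⟩) fun _ _ => rfl
  have hkill : ∀ (f : equivHom (C := M) (fib X Y).hK),
      (∀ y (hy : y ∈ Y.S), f.1 ⟨(0, y), (fib X Y).le ⟨X.S.zero_mem, hy⟩⟩ = 0) →
      ∃ f₀ : equivHom (C := M) X.hK, a f₀ = f := by
    intro f hf
    have hcompat : ∀ z z' : fibK X Y, fst' X Y z = fst' X Y z' → f.1 z = f.1 z' := by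
      intro z z' h
      have hfz : f.1 (z - z' : fibK X Y) = f.1 z - f.1 z' := map_sub f.1 (z : (fib X Y).K) z'
      have h1 : (z - z').1.1 = 0 := sub_eq_zero.mpr (congrArg Subtype.val h)
      have h2 : (z - z').1.2 ∈ Y.S := by
        refine (Y.ker (snd' X Y (z - z'))).mp ?_
        rw [← pi_fst', map_sub, h, sub_self, map_zero]
      have h3 := hf _ h2
      rw [show (⟨((0 : X.P), (z - z').1.2), (fib X Y).le ⟨X.S.zero_mem, h2⟩⟩ : (fib X Y).K) =
        z - z' from Subtype.ext (Prod.ext h1.symm rfl), hfz, sub_eq_zero] at h3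
      exact h3
    let f₀ : X.K →+ M := AddMonoidHom.mk'
      (fun x => f.1 (fst'_surjective X Y x).choose) fun x x' => by
        refine (hcompat _ ((fst'_surjective X Y x).choose + (fst'_surjective X Y x').choose)
          ?_).trans (map_add f.1 _ _)
        rw [map_add, (fst'_surjective X Y _).choose_spec, (fst'_surjective X Y _).choose_spec,
          (fst'_surjective X Y _).choose_spec]
    refine ⟨⟨f₀, fun g x => ?_⟩, Subtype.ext (AddMonoidHom.ext fun z => ?_)⟩
    · refine Eq.trans ?_ (f.2 g (fst'_surjective X Y x).choose)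
      refine hcompat _ _ ?_
      rw [(fst'_surjective X Y _).choose_spec]
      exact congrArg (smulS X.hK g) (fst'_surjective X Y x).choose_spec.symm
    · exact hcompat _ _ (fst'_surjective X Y _).choose_spec
  refine (lpIndex_congr (p := p) a c (fun f => rfl) ?_ ?_ ?_ ?_).symm
  · intro f _ hf
    refine Subtype.ext (AddMonoidHom.ext fun x => ?_)
    obtain ⟨z, rfl⟩ := fst'_surjective X Y x
    exact DFunLike.congr_fun (congrArg Subtype.val hf) z
  · intro f hf
    obtain ⟨f₀, rfl⟩ := hkill f fun y hy =>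
      DFunLike.congr_fun (congrArg Subtype.val hf) ⟨((0 : X.P), y), X.S.zero_mem, hy⟩
    refine ⟨f₀, Subtype.ext (AddMonoidHom.ext fun s => ?_), rfl⟩
    exact DFunLike.congr_fun (congrArg Subtype.val hf) ⟨(s.1, 0), s.2, Y.S.zero_mem⟩
  · rintro f ⟨g, hg⟩
    obtain ⟨g₀, rfl⟩ := hkill g fun y hy => by
      have h := DFunLike.congr_fun (congrArg Subtype.val hg) ⟨((0 : X.P), y), X.S.zero_mem, hy⟩
      exact h.trans (map_zero f.1)
    refine ⟨g₀, Subtype.ext (AddMonoidHom.ext fun s => ?_)⟩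
    exact DFunLike.congr_fun (congrArg Subtype.val hg) ⟨(s.1, 0), s.2, Y.S.zero_mem⟩
  · intro F
    -- extend the part on the second kernel
    let i2 : Y.S →+ (fib X Y).S :=
      AddMonoidHom.mk' (fun y => ⟨((0 : X.P), y.1), X.S.zero_mem, y.2⟩)
        fun y y' => Subtype.ext (Prod.ext (add_zero 0).symm rfl)
    have hi2 : ∀ (g : G) (y : Y.S),
        i2 (smulS Y.hS g y) = smulS (fib X Y).hS g (i2 y) := fun g y =>
      Subtype.ext (Prod.ext (smul_zero g).symm rfl)
    obtain ⟨η, hη⟩ := hGood Y.P Y.induced Y.S Y.hS Y.level (F.1.comp i2) fun g y => by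
      show F.1 (i2 (smulS Y.hS g y)) = g • F.1 (i2 y)
      rw [hi2, F.2]
    let ρ : fibK X Y →+ Y.S :=
      (((Y.K).subtype.comp (snd' X Y - σ.comp (fst' X Y)))).codRestrict Y.S fun z => (Y.ker _).mp (by
        rw [AddMonoidHom.sub_apply, map_sub, AddMonoidHom.comp_apply, hσ, pi_fst', sub_self])
    let g : equivHom (C := M) (fib X Y).hK :=
      ⟨normOn (fib X Y).hK (η.comp ρ), isEquivariantOn_normOn _ _⟩
    have hg2 : ∀ (y : Y.S), g.1 ⟨((0 : X.P), y.1), (fib X Y).le (i2 y).2⟩ = F.1 (i2 y) := by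
      intro y
      refine Eq.trans ?_ (DFunLike.congr_fun hη y)
      show normOn (fib X Y).hK (η.comp ρ) _ = normOn Y.hS η y
      rw [normOn_apply, normOn_apply]
      refine Finset.sum_congr rfl fun h _ => ?_
      congr 1
      show η (ρ _) = η _
      congr 1
      refine Subtype.ext ?_
      show h⁻¹ • (y : Y.P) - (σ _ : Y.K) = h⁻¹ • (y : Y.P)
      have e0 : ∀ w : X.K, (w : X.P) = 0 → (σ w : Y.P) = 0 := fun w hw => by
        rw [show w = 0 from Subtype.ext hw, map_zero]; rfl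
      refine (congrArg (fun t => h⁻¹ • (y : Y.P) - t) (e0 _ ?_)).trans (sub_zero _)
      exact smul_zero h⁻¹
    let i1 : X.S →+ (fib X Y).S :=
      AddMonoidHom.mk' (fun x => ⟨(x.1, (0 : Y.P)), x.2, Y.S.zero_mem⟩)
        fun x x' => Subtype.ext (Prod.ext rfl (add_zero 0).symm)
    have hi1 : ∀ (h : G) (x : X.S), i1 (smulS X.hS h x) = smulS (fib X Y).hS h (i1 x) := fun h x =>
      Subtype.ext (Prod.ext rfl (smul_zero h).symm)
    let d : equivHom (C := M) (fib X Y).hS := F - (fib X Y).res M g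
    refine ⟨⟨d.1.comp i1, fun h x => ?_⟩, g, Subtype.ext (AddMonoidHom.ext fun s => ?_)⟩
    · show d.1 (i1 (smulS X.hS h x)) = h • d.1 (i1 x)
      rw [hi1, d.2]
    · have hsplit : s = i1 (pS s) + i2 ⟨s.1.2, s.2.2⟩ :=
        Subtype.ext (Prod.ext (add_zero _).symm (zero_add _).symm)
      have hd2 : d.1 (i2 ⟨s.1.2, s.2.2⟩) = 0 := by
        show F.1 _ - g.1 _ = 0
        exact sub_eq_zero.mpr (hg2 ⟨s.1.2, s.2.2⟩).symm
      have hds : d.1 s = d.1 (i1 (pS s)) := by
        conv_lhs => rw [hsplit]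
        rw [map_add, hd2, add_zero]
      show g.1 (AddSubgroup.inclusion (fib X Y).le s) = F.1 s - d.1 (i1 (pS s))
      rw [← hds]
      show _ = F.1 s - (F.1 s - g.1 _)
      rw [sub_sub_cancel]

/-- Swapping the factors. -/
theorem index_fib_comm : (fib X Y).index M = (fib Y X).index M := by
  have hmem : ∀ z : X.P × Y.P, z ∈ fibK X Y → (z.2, z.1) ∈ fibK Y X :=
    fun z ⟨hx, hy, h⟩ => ⟨hy, hx, h.symm⟩
  let eK' : fibK X Y →+ fibK Y X := AddMonoidHom.mk'
    (fun z => ⟨(z.1.2, z.1.1), z.2.2.1, z.2.1, z.2.2.2.symm⟩) fun _ _ => rfl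
  let eS' : (fib X Y).S →+ (fib Y X).S := AddMonoidHom.mk'
    (fun z => ⟨(z.1.2, z.1.1), z.2.2, z.2.1⟩) fun _ _ => rfl
  let eK : fibK Y X →+ fibK X Y := AddMonoidHom.mk'
    (fun z => ⟨(z.1.2, z.1.1), z.2.2.1, z.2.1, z.2.2.2.symm⟩) fun _ _ => rfl
  let eS : (fib Y X).S →+ (fib X Y).S := AddMonoidHom.mk'
    (fun z => ⟨(z.1.2, z.1.1), z.2.2, z.2.1⟩) fun _ _ => rfl
  refine lpIndex_congr (p := p)
    (AddMonoidHom.mk' (fun f => ⟨f.1.comp eK, fun g z => f.2 g (eK z)⟩) fun _ _ => rfl)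
    (AddMonoidHom.mk' (fun f => ⟨f.1.comp eS, fun g z => f.2 g (eS z)⟩) fun _ _ => rfl)
    (fun f => rfl) ?_ ?_ ?_ ?_
  · intro f _ hf
    refine Subtype.ext (AddMonoidHom.ext fun z => ?_)
    exact DFunLike.congr_fun (congrArg Subtype.val hf) ⟨(z.1.2, z.1.1), hmem _ z.2⟩
  · intro f hf
    refine ⟨⟨f.1.comp eK', fun g z => f.2 g (eK' z)⟩, ?_, rfl⟩
    refine Subtype.ext (AddMonoidHom.ext fun z => ?_)
    exact DFunLike.congr_fun (congrArg Subtype.val hf) (eS' z)
  · rintro f ⟨g, hg⟩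
    refine ⟨⟨g.1.comp eK', fun h z => g.2 h (eK' z)⟩, ?_⟩
    refine Subtype.ext (AddMonoidHom.ext fun z => ?_)
    exact DFunLike.congr_fun (congrArg Subtype.val hg) (eS' z)
  · intro f
    refine ⟨⟨f.1.comp eS', fun g z => f.2 g (eS' z)⟩, 0, ?_⟩
    rw [map_zero]
    exact (sub_eq_zero.mpr (Subtype.ext (AddMonoidHom.ext fun z => rfl))).symm

/-- The index does not depend on the presentation. -/
theorem index_eq (hGood : Good p G M) : X.index M = Y.index M := by
  rw [← index_fib_left X Y hGood, index_fib_comm, index_fib_left Y X hGood]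

end Pres

end Fermat.Agent.CFT.Euler
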