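import Fermat.Agent.CFT.Coh.Transfer
import Fermat.Agent.CFT.Euler.Pair

/-!
Criteria for equivariant homomorphisms on level `p` lattices to be norms: subgroups of index prime
to `p`, and splitting modules of class formations.
-/

set_option autoImplicit false
set_option linter.unusedSectionVars false
set_option linter.style.haveILetI false

noncomputable section

namespace Fermat.Agent.CFT.Euler

open Fermat.Agent.CFT

variable {p : ℕ} [hp : Fact p.Prime] {G : Type} [Group G] [Fintype G] {M : Type} [AddCommGroup M]
  [DistribMulAction G M]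

omit hp in
/-- `p` times an equivariant homomorphism on a lattice of level `p` is a norm. -/
theorem exists_normOn_eq_nsmul {P : Type} [AddCommGroup P] [DistribMulAction G P]
    (hP : IsInduced G P) {S : AddSubgroup P} (hS : IsStable G S) (hpS : ∀ x : P, p • x ∈ S)
    (f : S →+ M) (hf : IsEquivariantOn hS f) : ∃ φ : S →+ M, normOn hS φ = p • f := by
  obtain ⟨T, hT⟩ := hP
  refine ⟨((f.comp (mulP hpS)).comp T).comp S.subtype, ?_⟩
  rw [normOn_comp_of_equivariant hS hT _ fun g x => by
    show f (mulP hpS (g • x)) = g • f (mulP hpS x)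
    rw [← smulS_mulP hS hpS g x]
    exact hf g _]
  ext s
  show f (mulP hpS (s : P)) = p • f s
  rw [mulP_coe, map_nsmul]

/-- It is enough to check on a subgroup of index prime to `p`. -/
theorem good_of_subgroup (H : Subgroup G) [Fintype H] (hind : Nat.Coprime p H.index)
    (hH : Good p H M) : Good p G M := by
  intro P _ _ _ _ hP S hS hpS f hf
  letI : Fintype (G ⧸ H) := Fintype.ofFinite _
  obtain ⟨φ, hφ⟩ := hH P (hP.subgroup H) S (IsStable.restrict hS H) hpS f fun h s => hf (h : G) s
  have h1 : normOn hS φ = H.index • f := by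
    rw [normOn_eq_sum_left hS H φ, hφ]
    simp only [hf.conjOn_eq hS]
    rw [Finset.sum_const, Finset.card_univ, Subgroup.index, Nat.card_eq_fintype_card]
  obtain ⟨ψ, hψ⟩ := exists_normOn_eq_nsmul hP hS hpS f hf
  obtain ⟨a, b, hab⟩ : IsCoprime (p : ℤ) (H.index : ℤ) := Nat.isCoprime_iff_coprime.mpr hind
  refine ⟨a • ψ + b • φ, ?_⟩
  rw [← normHom_apply, map_add, map_zsmul, map_zsmul, normHom_apply, normHom_apply, h1, hψ,
    ← natCast_zsmul, ← natCast_zsmul, smul_smul, smul_smul, ← add_smul, hab, one_smul]

variable (p G M) in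
/-- Every module is good for a group of order prime to `p`. -/
theorem good_of_coprime (hG : Nat.Coprime p (Nat.card G)) : Good p G M := by
  classical
  refine good_of_subgroup ⊥ (by rwa [Subgroup.index_bot]) fun P _ _ _ _ _ S hS _ f _ => ⟨f, ?_⟩
  ext s
  rw [normOn_apply, Fintype.sum_subsingleton _ (1 : (⊥ : Subgroup G)), one_smul]
  congr 1
  refine Subtype.ext ?_
  show (1 : (⊥ : Subgroup G))⁻¹ • (s : P) = s
  rw [inv_one, one_smul]

/-- The splitting module of a class formation is good. -/
theorem good_split {C : Type} [AddCommGroup C] [DistribMulAction G C] {u : NormCocycle G C}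
    (hu : IsClassFormation p u) : Good p G (Split u) := by
  classical
  obtain ⟨P⟩ := Sylow.nonempty (p := p) (G := G)
  haveI : Fintype (P : Subgroup G) := Fintype.ofFinite _
  refine good_of_subgroup (P : Subgroup G)
    ((hp.out.coprime_iff_not_dvd).mpr P.not_dvd_index) fun L _ _ _ _ hL S hS hpS f hf => ?_
  exact exists_eq_normOn hS P.isPGroup' (Split.h1Zero hu _ P.isPGroup')
    (Split.norm_props hu _ P.isPGroup').1 hL hpS f hf

omit hp in
/-- Goodness transports along equivariant isomorphisms. -/
theorem Good.congr {M' : Type} [AddCommGroup M'] [DistribMulAction G M'] (e : M ≃+ M')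
    (he : ∀ (g : G) (m : M), e (g • m) = g • e m) (h : Good p G M) : Good p G M' := by
  intro P _ _ _ _ hP S hS hpS f hf
  have he' : ∀ (g : G) (m : M'), e.symm (g • m) = g • e.symm m := fun g m => e.injective (by
    rw [e.apply_symm_apply, he, e.apply_symm_apply])
  obtain ⟨φ, hφ⟩ := h P hP S hS hpS (e.symm.toAddMonoidHom.comp f) fun g s => by
    show e.symm (f _) = g • e.symm (f s)
    rw [hf g s, he']
  refine ⟨e.toAddMonoidHom.comp φ, AddMonoidHom.ext fun s => e.symm.injective ?_⟩
  refine Eq.trans ?_ (DFunLike.congr_fun hφ s)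
  show e.symm (normOn hS (e.toAddMonoidHom.comp φ) s) = normOn hS φ s
  rw [normOn_apply, normOn_apply, map_sum]
  exact Finset.sum_congr rfl fun g _ => by rw [he']; exact congrArg _ (e.symm_apply_apply _)

end Fermat.Agent.CFT.Euler
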