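import Fermat.Agent.CFT.Coh.Pairing
import Fermat.Agent.CFT.Euler.Index

/-!
Restriction of equivariant homomorphisms between stable lattices `S ≤ K` of a lattice.
-/

set_option autoImplicit false
set_option linter.unusedSectionVars false

noncomputable section

namespace Fermat.Agent.CFT.Euler

open Fermat.Agent.CFT

variable (p : ℕ) {G P M : Type*} [Group G] [AddCommGroup P] [DistribMulAction G P]
  [AddCommGroup M] [DistribMulAction G M]

/-- `M[p]` and `M / p M` are finite. -/
structure ModPFinite (M : Type*) [AddCommGroup M] : Prop where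
  tors : Finite (nsmulAddMonoidHom p : M →+ M).ker
  quot : (nsmulAddMonoidHom p : M →+ M).range.index ≠ 0

variable {K S : AddSubgroup P} (hK : IsStable G K) (hS : IsStable G S) (hle : S ≤ K)

/-- Restriction of equivariant homomorphisms. -/
def resHom : equivHom (C := M) hK →+ equivHom (C := M) hS :=
  AddMonoidHom.mk' (fun f => ⟨f.1.comp (AddSubgroup.inclusion hle), fun h s =>
    f.2 h (AddSubgroup.inclusion hle s)⟩) fun _ _ => rfl

theorem resHom_eq_zero_iff (f : equivHom (C := M) hK) :
    resHom hK hS hle f = 0 ↔ ∀ x : K, (x : P) ∈ S → f.1 x = 0 := by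
  refine ⟨fun h x hx => ?_, fun h => Subtype.ext (AddMonoidHom.ext fun s => h _ s.2)⟩
  exact DFunLike.congr_fun (congrArg Subtype.val h) ⟨x, hx⟩

theorem resHom_comp {L : AddSubgroup P} (hL : IsStable G L) (hKL : K ≤ L) :
    (resHom (M := M) hK hS hle).comp (resHom hL hK hKL) = resHom hL hS (hle.trans hKL) :=
  AddMonoidHom.ext fun _ => rfl

theorem finite_hom_of_finite {X Y : Type*} [AddCommGroup X] [Module.Finite ℤ X] [AddCommGroup Y]
    [Finite Y] : Finite (X →+ Y) := by
  obtain ⟨n, π, hπ⟩ := Module.Finite.exists_fin' ℤ X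
  refine Finite.of_injective (fun f : X →+ Y => fun i => f (π (Pi.single i 1))) fun f f' h => ?_
  have h' : ∀ i, f (π (Pi.single i 1)) = f' (π (Pi.single i 1)) := fun i => congrFun h i
  refine AddMonoidHom.ext fun x => ?_
  obtain ⟨v, rfl⟩ := hπ x
  rw [pi_eq_sum_univ' v, map_sum, map_sum, map_sum]
  refine Finset.sum_congr rfl fun i _ => ?_
  rw [map_smul, map_zsmul, map_zsmul, h' i]

variable {p}

theorem finiteIndex_hom_pow [Fact p.Prime] (hM : ModPFinite p M) {X : Type*} [AddCommGroup X]
    [Module.Free ℤ X] [Module.Finite ℤ X] :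
    (nsmulAddMonoidHom p : (X →+ M) →+ (X →+ M)).range.index ≠ 0 := by
  have : (nsmulAddMonoidHom p : M →+ M).range.FiniteIndex := ⟨hM.quot⟩
  have : Finite (M ⧸ (nsmulAddMonoidHom p : M →+ M).range) :=
    AddSubgroup.finite_quotient_of_finiteIndex
  have := finite_hom_of_finite (X := X) (Y := M ⧸ (nsmulAddMonoidHom p : M →+ M).range)
  let b := Module.Free.chooseBasis ℤ X
  let φ : (X →+ M) →+ (X →+ M ⧸ (nsmulAddMonoidHom p : M →+ M).range) :=
    AddMonoidHom.mk' (fun f => (QuotientAddGroup.mk' _).comp f) fun f g => AddMonoidHom.ext fun x => rfl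
  have hker : φ.ker ≤ (nsmulAddMonoidHom p : (X →+ M) →+ (X →+ M)).range := by
    intro f hf
    have h1 : ∀ i, ∃ m : M, p • m = f (b i) := fun i => by
      have h := DFunLike.congr_fun hf (b i)
      exact (QuotientAddGroup.eq_zero_iff _).mp h
    choose m hm using h1
    refine ⟨(b.constr ℤ m).toAddMonoidHom, ?_⟩
    have e : (p • (b.constr ℤ m).toAddMonoidHom).toIntLinearMap = f.toIntLinearMap := b.ext fun i => by
      show p • (b.constr ℤ m (b i)) = f (b i)
      rw [Module.Basis.constr_basis, hm]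
    exact AddMonoidHom.ext fun x => LinearMap.congr_fun e x
  refine fun h0 => ?_
  have h1 := AddSubgroup.index_dvd_of_le hker
  rw [h0, AddSubgroup.index_ker, zero_dvd_iff] at h1
  exact Nat.card_pos.ne' h1

/-- Equivariant homomorphisms on a lattice modulo `p` are finite. -/
theorem finiteIndex_equivHom [Finite G] [hp : Fact p.Prime] (hM : ModPFinite p M)
    [Module.Free ℤ P] [Module.Finite ℤ P] :
    (nsmulAddMonoidHom p : equivHom (C := M) hS →+ equivHom (C := M) hS).range.index ≠ 0 := by
  have := free_subgroup (P := P) S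
  have : Module.Finite ℤ S := Module.Finite.iff_addGroup_fg.mpr
    (AddGroup.fg_iff_addSubgroup_fg S |>.mpr (by
      have := (IsNoetherian.noetherian (R := ℤ) (AddSubgroup.toIntSubmodule S))
      rw [Submodule.fg_iff_addSubgroup_fg] at this
      simpa using this))
  have := hM.tors
  let N := (nsmulAddMonoidHom p : M →+ M).ker
  have : Finite (S →+ N) := finite_hom_of_finite
  let D := S →+ M
  let H : AddSubgroup D := equivHom (C := M) hS
  let μ : D →+ D := nsmulAddMonoidHom p
  let E : AddSubgroup D := H.comap μ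
  let δ : E →+ (G → (S →+ N)) := AddMonoidHom.mk'
    (fun g h => (conjOn hS h g.1 - g.1).codRestrict N fun s => by
      have e := g.2 h (smulS hS h⁻¹ s)
      have e1 : smulS hS h (smulS hS h⁻¹ s) = s := Subtype.ext (smul_inv_smul h (s : P))
      rw [e1] at e
      show p • (h • g.1 (smulS hS h⁻¹ s) - g.1 s) = 0
      rw [smul_sub, smul_comm p h]
      change (μ g.1) s = h • (μ g.1) (smulS hS h⁻¹ s) at e
      exact sub_eq_zero.mpr e.symm)
    fun g g' => funext fun h => AddMonoidHom.ext fun s => Subtype.ext (by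
      show h • ((g.1 + g'.1) (smulS hS h⁻¹ s)) - (g.1 + g'.1) s =
        (h • g.1 (smulS hS h⁻¹ s) - g.1 s) + (h • g'.1 (smulS hS h⁻¹ s) - g'.1 s)
      rw [show (g.1 + g'.1) (smulS hS h⁻¹ s) = g.1 (smulS hS h⁻¹ s) + g'.1 (smulS hS h⁻¹ s) from rfl,
        show (g.1 + g'.1) s = g.1 s + g'.1 s from rfl, smul_add]
      abel)
  have hδ : δ.ker.map E.subtype ≤ H := by
    rintro _ ⟨g, hg, rfl⟩ h s
    have e := congrArg Subtype.val (DFunLike.congr_fun (congrFun hg h) (smulS hS h s))
    have e1 : smulS hS h⁻¹ (smulS hS h s) = s := Subtype.ext (inv_smul_smul h (s : P))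
    change h • g.1 (smulS hS h⁻¹ (smulS hS h s)) - g.1 (smulS hS h s) = 0 at e
    rw [e1] at e
    exact (sub_eq_zero.mp e).symm
  have hEH : H.relIndex E ≠ 0 := by
    have h1 : δ.ker.index ≠ 0 := by rw [AddSubgroup.index_ker]; exact Nat.card_pos.ne'
    have h2 : δ.ker ≤ H.addSubgroupOf E := fun g hg => hδ ⟨g, hg, rfl⟩
    exact fun h0 => h1 (zero_dvd_iff.mp (h0 ▸ AddSubgroup.index_dvd_of_le h2))
  have h3 : (E.map μ).relIndex H ≠ 0 := by
    have e : E.map μ = μ.range ⊓ H := by
      rw [AddSubgroup.map_comap_eq]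
    rw [e, AddSubgroup.inf_relIndex_right]
    exact fun h0 => finiteIndex_hom_pow hM (X := S)
      (zero_dvd_iff.mp (h0 ▸ AddSubgroup.relIndex_dvd_index_of_normal μ.range H))
  have h4 : (H.map μ).relIndex (E.map μ) ≠ 0 := fun h0 => hEH (by
    have hkE : μ.ker ≤ E := fun g hg => by
      show μ g ∈ H
      rw [show μ g = 0 from hg]
      exact H.zero_mem
    rw [AddSubgroup.relIndex_map_map, sup_eq_left.mpr hkE] at h0
    have h := AddSubgroup.relIndex_dvd_of_le_left (L := E) (le_sup_left : H ≤ H ⊔ μ.ker)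
    rw [h0] at h
    exact zero_dvd_iff.mp h)
  have h5 : (H.map μ).relIndex H ≠ 0 :=
    AddSubgroup.relIndex_ne_zero_trans h4 h3
  refine fun h0 => h5 ?_
  rw [← h0, AddSubgroup.relIndex]
  congr 1
  ext x
  constructor
  · rintro ⟨y, hy, hyx⟩
    exact ⟨⟨y, hy⟩, Subtype.ext hyx⟩
  · rintro ⟨y, rfl⟩
    exact ⟨y.1, y.2, rfl⟩

/-- The restriction along `p K ⊆ S` has finite kernel and cokernel. -/
theorem finiteIndexHom_resHom [Finite G] [hp : Fact p.Prime] (hM : ModPFinite p M)
    [Module.Free ℤ P] [Module.Finite ℤ P] (hpK : ∀ x ∈ K, p • x ∈ S) :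
    FiniteIndexHom (resHom (M := M) hK hS hle) := by
  have : Module.Finite ℤ K := Module.Finite.iff_addGroup_fg.mpr
    (AddGroup.fg_iff_addSubgroup_fg K |>.mpr (by
      have := (IsNoetherian.noetherian (R := ℤ) (AddSubgroup.toIntSubmodule K))
      rw [Submodule.fg_iff_addSubgroup_fg] at this
      simpa using this))
  refine ⟨?_, ?_⟩
  · have := hM.tors
    have : Finite (K →+ (nsmulAddMonoidHom p : M →+ M).ker) := finite_hom_of_finite
    refine Finite.of_injective (fun f : (resHom (M := M) hK hS hle).ker =>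
      f.1.1.codRestrict (nsmulAddMonoidHom p : M →+ M).ker fun x => by
        show p • f.1.1 x = 0
        rw [← map_nsmul]
        exact (resHom_eq_zero_iff hK hS hle f.1).mp f.2 _ (hpK x x.2)) fun f f' h => ?_
    exact Subtype.ext (Subtype.ext (AddMonoidHom.ext fun x =>
      congrArg Subtype.val (DFunLike.congr_fun h x)))
  · refine fun h0 => finiteIndex_equivHom hS hM (p := p) (zero_dvd_iff.mp (h0 ▸
      AddSubgroup.index_dvd_of_le (?_ : (nsmulAddMonoidHom p : equivHom (C := M) hS →+ _).range ≤ _)))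
    rintro _ ⟨f, rfl⟩
    let μK : K →+ S := AddMonoidHom.mk' (fun x => ⟨p • (x : P), hpK x x.2⟩)
      fun x y => Subtype.ext (smul_add p (x : P) y)
    refine ⟨⟨f.1.comp μK, fun h x => ?_⟩, Subtype.ext (AddMonoidHom.ext fun s => ?_)⟩
    · show f.1 (μK (smulS hK h x)) = h • f.1 (μK x)
      rw [show μK (smulS hK h x) = smulS hS h (μK x) from
        Subtype.ext (smul_comm p h (x : P))]
      exact f.2 h _
    · show f.1 (μK (AddSubgroup.inclusion hle s)) = p • f.1 s
      rw [show μK (AddSubgroup.inclusion hle s) = p • s from Subtype.ext rfl, map_nsmul]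

end Fermat.Agent.CFT.Euler
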