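import Fermat.Agent.CFT.Euler.ExtCount

/-!
Homomorphisms of a module killed by `p` into the quotient by a submodule whose `p`-divisibility is
detected in the big module.
-/

set_option autoImplicit false
set_option linter.unusedSectionVars false
set_option linter.style.haveILetI false

noncomputable section

namespace Fermat.Agent.CFT.Euler

open Fermat.Agent.CFT

variable {p : ℕ} [hp : Fact p.Prime] {G : Type} [Group G] [Fintype G]
  {A : Type} [AddCommGroup A] [DistribMulAction G A]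
  {U M D : Type} [AddCommGroup U] [DistribMulAction G U] [AddCommGroup M] [DistribMulAction G M]
  [AddCommGroup D] [DistribMulAction G D]

/-- Homomorphisms between modules over `ZMod p` lift along surjections. -/
theorem exists_lift_zmod {Q N N' : Type} [AddCommGroup Q] [AddCommGroup N] [AddCommGroup N']
    [Module (ZMod p) Q] [Module (ZMod p) N] [Module (ZMod p) N'] (f : Q →+ N') (π : N →+ N')
    (hπ : Function.Surjective π) : ∃ g : Q →+ N, ∀ x, π (g x) = f x := by
  obtain ⟨s, hs⟩ := (AddMonoidHom.toZModLinearMap p π).exists_rightInverse_of_surjective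
    (LinearMap.range_eq_top.mpr hπ)
  exact ⟨s.toAddMonoidHom.comp f, fun x => LinearMap.congr_fun hs (f x)⟩

/-- Homomorphisms into the quotient lift, so are at most as many. -/
theorem Pres.hLp_le_of_exact [Finite A] (X : Pres p G A) (hA : ∀ a : A, p • a = 0)
    (i : U →+ M) (q : M →+ D) (hi : ∀ (g : G) (x : U), i (g • x) = g • i x)
    (hq : ∀ (g : G) (x : M), q (g • x) = g • q x) (hinj : Function.Injective i)
    (hex : ∀ y, q y = 0 → ∃ x, i x = y) (hqi : ∀ x, q (i x) = 0) (hqs : Function.Surjective q)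
    (hpow : ∀ (u : U) (m : M), p • m = i u → ∃ v : U, p • v = u) (hM : ModPFinite p M)
    (hvan : ∀ c : G → (A →+ U), (∀ g h a, c (g * h) a = g • c h (g⁻¹ • a) + c g a) →
      ∃ e : A →+ U, ∀ g a, c g a = g • e (g⁻¹ • a) - e a) :
    X.hLp D ≤ X.hLp M := by
  haveI := (X.finiteIndexHom hM).ker
  let ψ : (X.res M).ker →+ (X.res D).ker :=
    ((postHom X.hK q hq).comp (X.res M).ker.subtype).codRestrict (X.res D).ker fun f => by
      refine (resHom_eq_zero_iff X.hK X.hS X.le _).mpr fun x hx => ?_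
      show q (f.1.1 x) = 0
      rw [(resHom_eq_zero_iff X.hK X.hS X.le f.1).mp f.2 x hx, map_zero]
  suffices hψ : Function.Surjective ψ from lpN_mono p (AddSubgroup.card_dvd_of_surjective ψ hψ)
    Nat.card_pos.ne'
  rintro ⟨f, hf⟩
  have hfS := (resHom_eq_zero_iff X.hK X.hS X.le f).mp hf
  have hker : X.π.ker ≤ f.1.ker := fun x hx => hfS x ((X.ker x).mp hx)
  let fA : A →+ D := AddMonoidHom.liftOfSurjective X.π X.surj ⟨f.1, hker⟩
  have hfA : ∀ x, fA (X.π x) = f.1 x := fun x =>
    AddMonoidHom.liftOfRightInverse_comp_apply X.π _ _ ⟨f.1, hker⟩ x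
  have hfAe : ∀ (g : G) a, fA (g • a) = g • fA a := fun g a => by
    obtain ⟨x, rfl⟩ := X.surj a
    rw [← X.equi, hfA, hfA]
    exact f.2 g x
  -- lifts killed by `p`
  have hlift : ∀ a : A, ∃ m : M, q m = fA a ∧ p • m = 0 := fun a => by
    obtain ⟨m, hm⟩ := hqs (fA a)
    obtain ⟨u, hu⟩ := hex (p • m) (by rw [map_nsmul, hm, ← map_nsmul, hA, map_zero])
    obtain ⟨v, rfl⟩ := hpow u m hu.symm
    exact ⟨m - i v, by rw [map_sub, hqi, sub_zero, hm],
      by rw [smul_sub, ← hu, map_nsmul, sub_self]⟩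
  let M₀ := (nsmulAddMonoidHom p : M →+ M).ker
  let D₀ := (nsmulAddMonoidHom p : D →+ D).ker
  letI : Module (ZMod p) A := AddCommGroup.zmodModule hA
  letI : Module (ZMod p) M₀ := AddCommGroup.zmodModule fun z => Subtype.ext z.2
  let f₀ : A →+ D₀ := fA.codRestrict D₀ fun a => by
    show p • fA a = 0
    rw [← map_nsmul, hA, map_zero]
  let q₀ : M₀ →+ D₀ := (q.comp M₀.subtype).codRestrict D₀ fun m => by
    show p • q m.1 = 0
    rw [← map_nsmul, show p • (m : M) = 0 from m.2, map_zero]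
  let R := q₀.range
  have hf₀ : ∀ a, f₀ a ∈ R := fun a => by
    obtain ⟨m, hm, hm0⟩ := hlift a
    exact ⟨⟨m, hm0⟩, Subtype.ext hm⟩
  letI : Module (ZMod p) R := AddCommGroup.zmodModule fun z => Subtype.ext (Subtype.ext z.1.2)
  obtain ⟨g₀, hg₀⟩ := exists_lift_zmod (p := p) (f₀.codRestrict R hf₀) q₀.rangeRestrict
    q₀.rangeRestrict_surjective
  let gA : A →+ M := M₀.subtype.comp g₀
  have hgA : ∀ a, q (gA a) = fA a := fun a =>
    congrArg (fun z : R => ((z : D₀) : D)) (hg₀ a)
  -- the obstruction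
  choose c₀ hc₀ using fun (g : G) (a : A) => hex (g • gA (g⁻¹ • a) - gA a) (by
    rw [map_sub, hq, hgA, hgA, hfAe, smul_inv_smul, sub_self])
  let c : G → (A →+ U) := fun g => AddMonoidHom.mk' (c₀ g) fun a a' => hinj (by
    rw [map_add, hc₀, hc₀, hc₀, smul_add, map_add, smul_add, map_add]
    abel)
  obtain ⟨e, he⟩ := hvan c fun g h a => hinj (by
    show i (c₀ (g * h) a) = i (g • c₀ h (g⁻¹ • a) + c₀ g a)
    rw [map_add, hi, hc₀, hc₀, hc₀, smul_sub, mul_inv_rev, mul_smul, mul_smul]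
    abel)
  let g₁ : A →+ M := gA - i.comp e
  have hg₁ : ∀ (g : G) a, g₁ (g • a) = g • g₁ a := fun g a => by
    have h := congrArg i (he g (g • a))
    rw [map_sub, hi, inv_smul_smul] at h
    change i (c₀ g (g • a)) = _ at h
    rw [hc₀, inv_smul_smul] at h
    show gA (g • a) - i (e (g • a)) = g • (gA a - i (e a))
    rw [smul_sub, ← sub_eq_zero]
    rw [← sub_eq_zero] at h
    rw [← neg_eq_zero, ← h]
    abel
  refine ⟨⟨⟨g₁.comp X.π, fun g x => ?_⟩, ?_⟩, Subtype.ext (Subtype.ext (AddMonoidHom.ext fun x => ?_))⟩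
  · show g₁ (X.π (smulS X.hK g x)) = g • g₁ (X.π x)
    rw [X.equi, hg₁]
  · refine (resHom_eq_zero_iff X.hK X.hS X.le _).mpr fun x hx => ?_
    show g₁ (X.π x) = 0
    rw [(X.ker x).mpr hx, map_zero]
  · show q (g₁ (X.π x)) = f.1 x
    rw [AddMonoidHom.sub_apply, map_sub, hgA, AddMonoidHom.comp_apply, hqi, sub_zero, hfA]

end Fermat.Agent.CFT.Euler
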