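import Fermat.Agent.CFT.Euler.EMod
import Fermat.Agent.CFT.Euler.Additive

/-!
Shapiro in the first argument of the Euler index.
-/

set_option autoImplicit false
set_option linter.unusedSectionVars false
set_option linter.style.haveILetI false

noncomputable section

namespace Fermat.Agent.CFT.Euler

open Fermat.Agent.CFT

variable {G : Type} [Group G] [Fintype G] (H : Subgroup G)

namespace CoindQ

instance (P : Type) [AddCommGroup P] [Module.Free ℤ P] [Module.Finite ℤ P] :
    Module.Free ℤ (CoindQ H P) := inferInstanceAs (Module.Free ℤ (G ⧸ H → P))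

instance (P : Type) [AddCommGroup P] [Module.Free ℤ P] [Module.Finite ℤ P] :
    Module.Finite ℤ (CoindQ H P) := inferInstanceAs (Module.Finite ℤ (G ⧸ H → P))

variable {H} {P : Type} [AddCommGroup P] [DistribMulAction G P]

theorem smul_apply (g : G) (f : CoindQ H P) (x : G ⧸ H) : (g • f) x = g • f (g⁻¹ • x) := rfl

theorem sum_apply {ι : Type*} (s : Finset ι) (f : ι → CoindQ H P) (x : G ⧸ H) :
    (∑ i ∈ s, f i) x = ∑ i ∈ s, f i x :=
  map_sum (AddMonoidHom.mk' (fun f : CoindQ H P => f x) fun _ _ => rfl) f s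

theorem isInduced (h : IsInduced G P) : IsInduced G (CoindQ H P) := by
  obtain ⟨T, hT⟩ := h
  refine ⟨AddMonoidHom.mk' (fun f x => T (f x)) fun f f' => funext fun x => map_add T _ _,
    fun f => funext fun x => ?_⟩
  rw [sum_apply]
  refine Eq.trans (Finset.sum_congr rfl fun g _ => ?_) (hT (f x))
  show g • T ((g⁻¹ • f) (g⁻¹ • x)) = g • T (g⁻¹ • f x)
  rw [smul_apply, inv_inv, smul_inv_smul]

open scoped Classical in
/-- A value at the base point, unbundled. -/
def pointFn (v : P) : CoindQ H P := fun x => if x = ((1 : G) : G ⧸ H) then v else 0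

theorem pointFn_base (v : P) : pointFn (H := H) v ((1 : G) : G ⧸ H) = v := if_pos rfl

theorem pointFn_ne (v : P) {x : G ⧸ H} (hx : x ≠ ((1 : G) : G ⧸ H)) : pointFn (H := H) v x = 0 :=
  if_neg hx

theorem pointFn_mem {R : AddSubgroup P} {v : P} (hv : v ∈ R) (x : G ⧸ H) :
    pointFn (H := H) v x ∈ R := by
  by_cases hx : x = ((1 : G) : G ⧸ H)
  · rw [hx, pointFn_base]; exact hv
  · rw [pointFn_ne _ hx]; exact R.zero_mem

theorem pointFn_add (v w : P) : pointFn (H := H) (v + w) = pointFn v + pointFn w := funext fun x => by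
  show pointFn (v + w) x = pointFn v x + pointFn w x
  by_cases hx : x = ((1 : G) : G ⧸ H)
  · rw [hx, pointFn_base, pointFn_base, pointFn_base]
  · rw [pointFn_ne _ hx, pointFn_ne _ hx, pointFn_ne _ hx, add_zero]

theorem smul_base_iff (h : H) (x : G ⧸ H) :
    ((h : G))⁻¹ • x = ((1 : G) : G ⧸ H) ↔ x = ((1 : G) : G ⧸ H) := by
  have e : ∀ k : H, (k : G) • ((1 : G) : G ⧸ H) = ((1 : G) : G ⧸ H) := fun k => by
    rw [MulAction.Quotient.smul_coe, smul_eq_mul, mul_one, QuotientGroup.eq, mul_one]
    exact inv_mem k.2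
  rw [inv_smul_eq_iff, e]

theorem smul_pointFn (h : H) (v : P) :
    (h : G) • pointFn (H := H) v = pointFn ((h : G) • v) := funext fun x => by
  rw [smul_apply]
  by_cases hx : x = ((1 : G) : G ⧸ H)
  · rw [(smul_base_iff h x).mpr hx, hx, pointFn_base, pointFn_base]
  · rw [pointFn_ne _ fun h' => hx ((smul_base_iff h x).mp h'), pointFn_ne _ hx, smul_zero]

/-- Decomposition along the cosets. -/
theorem eq_sum [Fintype (G ⧸ H)] (f : CoindQ H P) :
    f = ∑ x : G ⧸ H, x.out • pointFn (x.out⁻¹ • f x) := funext fun y => by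
  rw [sum_apply, Finset.sum_eq_single y]
  · rw [smul_apply]
    conv_rhs => arg 2; arg 2; arg 2; rw [← QuotientGroup.out_eq' y]
    rw [MulAction.Quotient.smul_coe, smul_eq_mul, inv_mul_cancel, pointFn_base, smul_inv_smul]
  · intro x _ hx
    rw [smul_apply, pointFn_ne, smul_zero]
    intro h
    refine hx ?_
    rw [inv_smul_eq_iff, MulAction.Quotient.smul_coe, smul_eq_mul, mul_one,
      QuotientGroup.out_eq'] at h
    exact h.symm
  · exact fun h => absurd (Finset.mem_univ _) h

/-- Families with values in a subgroup. -/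
def piSub (H : Subgroup G) (R : AddSubgroup P) : AddSubgroup (CoindQ H P) where
  carrier := {f | ∀ x, f x ∈ R}
  add_mem' hf hf' x := R.add_mem (hf x) (hf' x)
  zero_mem' _ := R.zero_mem
  neg_mem' hf x := R.neg_mem (hf x)

theorem piSub_stable {R : AddSubgroup P} (hR : IsStable G R) : IsStable G (piSub H R) :=
  fun g _ hf _ => hR g _ (hf _)

/-- The inclusion at the base point. -/
def point {R : AddSubgroup P} : R →+ piSub H R :=
  AddMonoidHom.mk' (fun v => ⟨pointFn v.1, pointFn_mem v.2⟩) fun v w =>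
    Subtype.ext (pointFn_add v.1 w.1)

theorem point_smulS {R : AddSubgroup P} (hR : IsStable G R) (h : H) (v : R) :
    point (H := H) (smulS (IsStable.restrict hR H) h v) =
      smulS (piSub_stable hR) (h : G) (point v) :=
  Subtype.ext (smul_pointFn h (v : P)).symm

variable {M : Type} [AddCommGroup M] [DistribMulAction G M]

theorem point_bijective {R : AddSubgroup P} (hR : IsStable G R) :
    Function.Bijective (fun f : equivHom (C := M) (piSub_stable (H := H) hR) =>
      (⟨f.1.comp point, fun h v => by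
        show f.1 (point _) = (h : G) • f.1 (point v)
        rw [point_smulS hR, f.2]⟩ : equivHom (C := M) (IsStable.restrict hR H))) := by
  letI : Fintype (G ⧸ H) := Fintype.ofFinite _
  have hdec : ∀ F : piSub H R, F = ∑ x : G ⧸ H,
      smulS (piSub_stable hR) x.out (point (smulS hR x.out⁻¹ ⟨_, F.2 x⟩)) := fun F =>
    Subtype.ext (by rw [AddSubgroup.val_finsetSum]; exact eq_sum F.1)
  refine ⟨fun f f' h => Subtype.ext (AddMonoidHom.ext fun F => ?_), fun k => ?_⟩
  · rw [hdec F, map_sum, map_sum]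
    refine Finset.sum_congr rfl fun x _ => ?_
    rw [f.2, f'.2]
    exact congrArg (x.out • ·) (DFunLike.congr_fun (congrArg Subtype.val h) _)
  · let T : piSub H R →+ M := AddMonoidHom.mk'
      (fun F => ∑ x : G ⧸ H, x.out • k.1 (smulS hR x.out⁻¹ ⟨_, F.2 x⟩)) fun F F' => by
        rw [← Finset.sum_add_distrib]
        refine Finset.sum_congr rfl fun x _ => ?_
        rw [← smul_add, ← map_add, ← smulS_add]
        rfl
    refine ⟨⟨T, fun g F => ?_⟩, Subtype.ext (AddMonoidHom.ext fun v => ?_)⟩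
    · show ∑ x : G ⧸ H, _ = g • ∑ x : G ⧸ H, _
      rw [Finset.smul_sum]
      refine (Fintype.sum_equiv (MulAction.toPerm g) _ _ fun x => ?_).symm
      obtain ⟨h, hh⟩ : ∃ h : H, (g • x).out = g * x.out * (h : G) := by
        refine ⟨⟨(g * x.out)⁻¹ * (g • x).out, ?_⟩, (mul_inv_cancel_left _ _).symm⟩
        rw [← QuotientGroup.eq, QuotientGroup.out_eq']
        conv_rhs => rw [← QuotientGroup.out_eq' x]
        rfl
      show g • x.out • k.1 _ = (g • x).out • k.1
        (smulS hR (g • x).out⁻¹ ⟨_, (smulS (piSub_stable hR) g F).2 (g • x)⟩)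
      have hs : smulS hR (g • x).out⁻¹ ⟨_, (smulS (piSub_stable hR) g F).2 (g • x)⟩ =
          smulS (IsStable.restrict hR H) h⁻¹ (smulS hR x.out⁻¹ ⟨_, F.2 x⟩) := Subtype.ext (by
        show (g • x).out⁻¹ • g • F.1 (g⁻¹ • g • x) = ((h : G))⁻¹ • x.out⁻¹ • F.1 x
        rw [inv_smul_smul, hh, mul_inv_rev, mul_inv_rev, smul_smul, smul_smul, mul_assoc,
          mul_assoc, inv_mul_cancel, mul_one])
      rw [hs, k.2, hh, Subgroup.smul_def, InvMemClass.coe_inv, smul_smul, smul_smul,
        mul_inv_cancel_right]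
    · show ∑ x : G ⧸ H, _ = k.1 v
      rw [Finset.sum_eq_single ((1 : G) : G ⧸ H)]
      · obtain ⟨h, hh⟩ : ∃ h : H, (((1 : G) : G ⧸ H)).out = (h : G) := by
          refine ⟨⟨_, ?_⟩, rfl⟩
          have e := QuotientGroup.eq.mp (QuotientGroup.out_eq' ((1 : G) : G ⧸ H))
          rw [mul_one] at e
          exact H.inv_mem_iff.mp e
        have hs : smulS hR (((1 : G) : G ⧸ H)).out⁻¹ ⟨_, (point (H := H) v).2 ((1 : G) : G ⧸ H)⟩ =
            smulS (IsStable.restrict hR H) h⁻¹ v := Subtype.ext (by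
          show _ • pointFn v.1 _ = ((h : G))⁻¹ • v.1
          rw [pointFn_base, hh])
        rw [hs, k.2, hh, Subgroup.smul_def, InvMemClass.coe_inv, smul_inv_smul]
      · intro x _ hx
        have hs : smulS hR x.out⁻¹ ⟨_, (point (H := H) v).2 x⟩ = 0 := Subtype.ext (by
          show _ • pointFn v.1 x = 0
          rw [pointFn_ne _ hx, smul_zero])
        rw [hs, map_zero, smul_zero]
      · exact fun h => absurd (Finset.mem_univ _) h

end CoindQ

variable {p : ℕ} [hp : Fact p.Prime] {A : Type} [AddCommGroup A] [DistribMulAction G A]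

/-- The coinduced presentation. -/
def Pres.coind (X : Pres p G A) : Pres p G (CoindQ H A) where
  P := CoindQ H X.P
  induced := CoindQ.isInduced X.induced
  K := CoindQ.piSub H X.K
  S := CoindQ.piSub H X.S
  hK := CoindQ.piSub_stable X.hK
  hS := CoindQ.piSub_stable X.hS
  le _ hf x := X.le (hf x)
  level f x := X.level (f x)
  π := AddMonoidHom.mk' (fun f x => X.π ⟨f.1 x, f.2 x⟩) fun f f' => funext fun x =>
    map_add X.π ⟨f.1 x, f.2 x⟩ ⟨f'.1 x, f'.2 x⟩
  surj := fun a => by
    choose y hy using fun x => X.surj (a x)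
    exact ⟨⟨fun x => (y x).1, fun x => (y x).2⟩, funext hy⟩
  ker f := ⟨fun h x => (X.ker _).mp (congrFun h x), fun h => funext fun x => (X.ker _).mpr (h x)⟩
  equi g f := funext fun x => X.equi g ⟨f.1 (g⁻¹ • x), f.2 _⟩

/-- Shapiro in the first argument. -/
theorem eMod_coindQ [Fintype H] {M : Type} [AddCommGroup M] [DistribMulAction G M] [Finite A]
    (hGood : Good p G M) (hA : ∀ a : A, p • a = 0) (X : Pres p G A) :
    eMod p (G := G) (A := CoindQ H A) M (CoindQ.nsmul_eq_zero hA) = (X.restrict H).index M := by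
  rw [eMod_eq_index p hGood (CoindQ.nsmul_eq_zero hA) (X.coind H)]
  let e : ∀ {R : AddSubgroup X.P} (hR : IsStable G R),
      equivHom (C := M) (CoindQ.piSub_stable (H := H) hR) →+
        equivHom (C := M) (IsStable.restrict hR H) := fun hR =>
    AddMonoidHom.mk' (fun f => ⟨f.1.comp CoindQ.point, fun h v => by
      show f.1 (CoindQ.point _) = (h : G) • f.1 (CoindQ.point v)
      rw [CoindQ.point_smulS hR, f.2]⟩) fun _ _ => rfl
  exact (lpIndex_of_bijective p (e X.hK) (e X.hS) (CoindQ.point_bijective X.hK)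
    (CoindQ.point_bijective X.hS) fun _ => rfl).1

end Fermat.Agent.CFT.Euler
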