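import Fermat.Agent.CFT.Euler.Semilocal
import Fermat.Agent.CFT.Euler.Extension
import Fermat.Agent.Arith.Frobenius

/-!
The Kummer class of an equivariant homomorphism into `T`-units: a cocycle with values in the
homomorphisms into roots of unity, detecting extensions globally and locally.
-/

set_option autoImplicit false
set_option synthInstance.maxHeartbeats 200000
set_option maxHeartbeats 1000000
set_option linter.unusedSectionVars false
set_option linter.style.haveILetI false

noncomputable section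

namespace Fermat.Agent.CFT.Euler

open ExtCitation Fermat.Agent.Arith IntermediateField Fermat.Agent.CFT
open Fermat.Agent.CFT.Local Fermat.Agent.CFT.Idele Fermat.Agent.CFT.Duality
open scoped Pointwise

local instance factPrimeEulerKummer (q : Nat.Primes) : Fact (q : ℕ).Prime := ⟨q.2⟩

variable (K : IntermediateField ℚ QBar) [FiniteDimensional ℚ K] [Normal ℚ K]
  (T : Finset Nat.Primes)

/-- The `T`-units in `ℚ̄`. -/
def TUnits.toBar : TUnits K T →+ Additive QBarˣ :=
  (MonoidHom.toAdditive (Units.map K.val.toRingHom.toMonoidHom)).comp (TUnits.incl K T)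

theorem TUnits.toBar_smul (g : GQ) (x : TUnits K T) :
    TUnits.toBar K T (res K g • x) = g • TUnits.toBar K T x :=
  Additive.toMul.injective (Units.ext (res_apply K g ((TUnits.incl K T x).toMul : Kˣ)))

theorem TUnits.toBar_injective : Function.Injective (TUnits.toBar K T) := fun _ _ h =>
  Subtype.ext (Additive.toMul.injective
    (Units.ext (Subtype.ext (congrArg (fun z : Additive QBarˣ => (z.toMul : QBar)) h))))

variable {K T} {p : ℕ} [hp : Fact p.Prime] {A : Type} [AddCommGroup A]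
  [DistribMulAction (K ≃ₐ[ℚ] K) A] [Fintype (K ≃ₐ[ℚ] K)] (X : Pres p (K ≃ₐ[ℚ] K) A)
  (u : equivHom (C := TUnits K T) X.hS)

/-- A root: a homomorphism on the lattice extending `u`. -/
theorem exists_root (hfull : ∀ x : X.P, x ∈ X.K) :
    ∃ y : X.P →+ Additive QBarˣ, ∀ s : X.S, y (s : X.P) = TUnits.toBar K T (u.1 s) := by
  let b := Module.Free.chooseBasis ℤ X.P
  have h0 : ∀ i, ∃ m : Additive QBarˣ, p • m = TUnits.toBar K T (u.1 (mulP X.level (b i))) :=
    fun i => by
      set v := (TUnits.toBar K T (u.1 (mulP X.level (b i)))).toMul with hv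
      obtain ⟨w, hw⟩ := IsAlgClosed.exists_pow_nat_eq (v : QBar) hp.out.pos
      refine ⟨Additive.ofMul (Units.mk0 w fun h => ?_), Additive.toMul.injective (Units.ext ?_)⟩
      · rw [h, zero_pow hp.out.ne_zero] at hw
        exact v.ne_zero hw.symm
      · rw [toMul_nsmul, toMul_ofMul, Units.val_pow_eq_pow_val, Units.val_mk0, hw]
  choose m hm using h0
  let y₀ : X.P →+ Additive QBarˣ := (b.constr ℤ m).toAddMonoidHom
  have hy₀ : ∀ x : X.P, p • y₀ x = TUnits.toBar K T (u.1 (mulP X.level x)) := by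
    have e : (p • y₀).toIntLinearMap =
        ((TUnits.toBar K T).comp (u.1.comp (mulP X.level))).toIntLinearMap := b.ext fun i => by
      show p • b.constr ℤ m (b i) = TUnits.toBar K T (u.1 (mulP X.level (b i)))
      rw [Module.Basis.constr_basis, hm]
    exact fun x => LinearMap.congr_fun e x
  let M₀ := (nsmulAddMonoidHom p : Additive QBarˣ →+ _).ker
  let ε : X.S →+ M₀ := ((TUnits.toBar K T).comp u.1 - y₀.comp X.S.subtype).codRestrict M₀ fun s => by
    show p • (TUnits.toBar K T (u.1 s) - y₀ (s : X.P)) = 0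
    rw [nsmul_sub, hy₀, mulP_coe, map_nsmul, map_nsmul, sub_self]
  obtain ⟨g, hg⟩ := exists_extend_killed (p := p) (M := M₀) (fun z => Subtype.ext z.2) X.le
    (fun s _ => X.level s) ε fun x hx => Subtype.ext (by
      show TUnits.toBar K T (u.1 ⟨p • x, _⟩) - y₀ (p • x) = 0
      rw [map_nsmul, hy₀, sub_eq_zero]
      rfl)
  let e : X.P →+ X.K := AddMonoidHom.mk' (fun x => ⟨x, hfull x⟩) fun _ _ => rfl
  refine ⟨y₀ + M₀.subtype.comp (g.comp e), fun s => ?_⟩
  show y₀ (s : X.P) + ((g _ : M₀) : Additive QBarˣ) = _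
  rw [show e (s : X.P) = AddSubgroup.inclusion X.le s from rfl, hg]
  exact add_sub_cancel _ _

variable (hfull : ∀ x : X.P, x ∈ X.K)

/-- The chosen root. -/
def root : X.P →+ Additive QBarˣ := (exists_root X u hfull).choose

theorem root_apply (s : X.S) : root X u hfull (s : X.P) = TUnits.toBar K T (u.1 s) :=
  (exists_root X u hfull).choose_spec s

/-- The root moved by `σ`, minus the root. -/
def rootDiff (σ : GQ) : X.K →+ Additive QBarˣ :=
  AddMonoidHom.mk' (fun x => σ • root X u hfull ((res K σ)⁻¹ • (x : X.P)) - root X u hfull x)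
    fun x x' => by
      rw [AddSubgroup.coe_add, smul_add, map_add, smul_add, map_add]
      abel

theorem rootDiff_eq_zero (σ : GQ) : X.π.ker ≤ (rootDiff X u hfull σ).ker := fun x hx => by
  have hs : (x : X.P) ∈ X.S := (X.ker x).mp hx
  show σ • root X u hfull ((res K σ)⁻¹ • (x : X.P)) - root X u hfull x = 0
  rw [show ((res K σ)⁻¹ • (x : X.P)) = ((smulS X.hS (res K σ)⁻¹ ⟨x, hs⟩ : X.S) : X.P) from rfl,
    root_apply, u.2, ← TUnits.toBar_smul, smul_inv_smul, ← root_apply X u hfull ⟨x, hs⟩, sub_self]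

/-- The Kummer cocycle. -/
def kum (σ : GQ) : A →+ Additive QBarˣ :=
  AddMonoidHom.liftOfSurjective X.π X.surj ⟨rootDiff X u hfull σ, rootDiff_eq_zero X u hfull σ⟩

theorem kum_apply (σ : GQ) (x : X.K) :
    kum X u hfull σ (X.π x) =
      σ • root X u hfull ((res K σ)⁻¹ • (x : X.P)) - root X u hfull x :=
  AddMonoidHom.liftOfRightInverse_comp_apply X.π _ _
    ⟨rootDiff X u hfull σ, rootDiff_eq_zero X u hfull σ⟩ x

theorem kum_mul (σ τ : GQ) (a : A) :
    kum X u hfull (σ * τ) a =
      σ • kum X u hfull τ ((res K σ)⁻¹ • a) + kum X u hfull σ a := by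
  obtain ⟨x, rfl⟩ := X.surj a
  rw [← X.equi, kum_apply, kum_apply, kum_apply, map_mul, mul_inv_rev, mul_smul, mul_smul,
    smul_sub, coe_smulS]
  abel

theorem kum_pow (hA : ∀ a : A, p • a = 0) (σ : GQ) (a : A) :
    p • kum X u hfull σ a = 0 := by
  rw [← map_nsmul, hA, map_zero]

/-- The Kummer cocycle has finite level. -/
theorem exists_level_kum : ∃ F : IntermediateField ℚ QBar, FiniteDimensional ℚ F ∧
    ∀ σ : GQ, (∀ x ∈ F, σ x = x) → kum X u hfull σ = 0 := by
  let b := Module.Free.chooseBasis ℤ X.P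
  let S : Set QBar := Set.range fun i => ((root X u hfull (b i)).toMul : QBar)
  haveI : Finite S := (Set.finite_range _).to_subtype
  haveI : FiniteDimensional ℚ (IntermediateField.adjoin ℚ S) :=
    IntermediateField.finiteDimensional_adjoin fun x _ => Algebra.IsIntegral.isIntegral x
  refine ⟨K ⊔ IntermediateField.adjoin ℚ S, inferInstance, fun σ hσ => AddMonoidHom.ext fun a => ?_⟩
  obtain ⟨x, rfl⟩ := X.surj a
  have h1 : res K σ = 1 := (res_eq_one_iff K).mpr ((IntermediateField.mem_fixingSubgroup_iff _ _).mpr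
    fun z hz => hσ z (le_sup_left (b := IntermediateField.adjoin ℚ S) hz))
  rw [kum_apply, h1, inv_one, one_smul, AddMonoidHom.zero_apply, sub_eq_zero]
  have e : ((DistribSMul.toAddMonoidHom (Additive QBarˣ) σ).comp (root X u hfull)).toIntLinearMap =
      (root X u hfull).toIntLinearMap := b.ext fun i => Additive.toMul.injective (Units.ext
    (hσ _ (le_sup_right (a := K) (IntermediateField.subset_adjoin ℚ S ⟨i, rfl⟩))))
  exact LinearMap.congr_fun e (x : X.P)

/-- A class which is a coboundary comes from an extension. -/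
theorem mem_range_of_kum_eq (hA : ∀ a : A, p • a = 0) (e : A →+ Additive QBarˣ)
    (he : ∀ σ a, kum X u hfull σ a = σ • e ((res K σ)⁻¹ • a) - e a) :
    u ∈ (X.res (TUnits K T)).range := by
  let Y₀ : X.K →+ Additive QBarˣ := (root X u hfull).comp X.K.subtype - e.comp X.π
  have hY : ∀ (σ : GQ) (x : X.K), σ • Y₀ (smulS X.hK (res K σ)⁻¹ x) = Y₀ x := fun σ x => by
    have h := he σ (X.π x)
    rw [kum_apply, ← X.equi] at h
    show σ • (root X u hfull ((res K σ)⁻¹ • (x : X.P)) - e _) = root X u hfull (x : X.P) - e (X.π x)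
    rw [smul_sub, sub_eq_sub_iff_sub_eq_sub]
    exact h
  haveI : IsGalois ℚ QBar := ⟨⟩
  have hK : ∀ x : X.K, ((Y₀ x).toMul : QBar) ∈ K := fun x => by
    refine (InfiniteGalois.fixedField_fixingSubgroup K).le
      ((IntermediateField.mem_fixedField_iff _ _).mpr fun σ hσ => ?_)
    have h1 : res K σ = 1 := (res_eq_one_iff K).mpr hσ
    have h2 := hY σ x
    rw [h1, inv_one, show smulS X.hK (1 : K ≃ₐ[ℚ] K) x = x from Subtype.ext (one_smul _ _)] at h2
    exact congrArg (fun z : Additive QBarˣ => (z.toMul : QBar)) h2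
  let z : X.K → Kˣ := fun x => Units.mk0 ⟨((Y₀ x).toMul : QBar), hK x⟩ fun h =>
    (Y₀ x).toMul.ne_zero (congrArg Subtype.val h)
  have hzq : ∀ x, Units.map K.val.toRingHom.toMonoidHom (z x) = (Y₀ x).toMul := fun x => Units.ext rfl
  have hp' : ∀ x : X.K, p • Y₀ x = TUnits.toBar K T (u.1 (mulP X.level (x : X.P))) := fun x => by
    show p • (root X u hfull (x : X.P) - e (X.π x)) = _
    rw [nsmul_sub, ← map_nsmul e, hA, map_zero, sub_zero, ← map_nsmul, ← root_apply X u hfull]
    rfl
  have hmem : ∀ x, Additive.ofMul (z x) ∈ tUnits K T := fun x q hq σ => by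
    set w := u.1 (mulP X.level (x : X.P))
    have hzw : z x ^ p = (TUnits.incl K T w).toMul := by
      refine Units.ext (Subtype.ext ?_)
      have h := congrArg (fun v : Additive QBarˣ => (v.toMul : QBar)) (hp' x)
      rw [toMul_nsmul, Units.val_pow_eq_pow_val] at h
      rw [Units.val_pow_eq_pow_val, SubmonoidClass.coe_pow]
      exact h
    have h1 : val (diag K (TUnits.incl K T w)).toMul q σ ∈ unitGroup (E K q) := w.2 q hq σ
    have e' : val (diag K (TUnits.incl K T w)).toMul q σ = val (prinL K (z x)) q σ ^ p := by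
      show val (prinL K (TUnits.incl K T w).toMul) q σ = valHom q σ (prinL K (z x)) ^ p
      rw [← map_pow, ← map_pow, hzw]
      rfl
    rw [e', Local.mem_unitGroup, Units.val_pow_eq_pow_val, norm_pow,
      pow_eq_one_iff_of_nonneg (norm_nonneg _) hp.out.ne_zero] at h1
    rw [Local.mem_unitGroup]
    exact h1
  let Y : X.K →+ TUnits K T := AddMonoidHom.mk' (fun x => ⟨_, hmem x⟩) fun x x' =>
    TUnits.toBar_injective K T (by
      refine Eq.trans ?_ (map_add (TUnits.toBar K T) _ _).symm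
      show Additive.ofMul (Units.map K.val.toRingHom.toMonoidHom (z (x + x'))) =
        Additive.ofMul (Units.map K.val.toRingHom.toMonoidHom (z x)) +
          Additive.ofMul (Units.map K.val.toRingHom.toMonoidHom (z x'))
      rw [hzq, hzq, hzq, ofMul_toMul, ofMul_toMul, ofMul_toMul, map_add])
  have hYY : ∀ x, TUnits.toBar K T (Y x) = Y₀ x := fun x => congrArg Additive.ofMul (hzq x)
  refine ⟨⟨Y, fun g x => TUnits.toBar_injective K T ?_⟩, Subtype.ext (AddMonoidHom.ext fun s => ?_)⟩
  · obtain ⟨σ, rfl⟩ : ∃ σ, res K σ = g := ⟨lift K g, res_lift K g⟩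
    rw [hYY, TUnits.toBar_smul, hYY, ← hY σ (smulS X.hK (res K σ) x), smulS_smulS,
      inv_mul_cancel, show smulS X.hK (1 : K ≃ₐ[ℚ] K) x = x from Subtype.ext (one_smul _ _)]
  · refine TUnits.toBar_injective K T ((hYY _).trans ?_)
    show root X u hfull (s : X.P) - e (X.π (AddSubgroup.inclusion X.le s)) = _
    rw [(X.ker _).mpr s.2, map_zero, sub_zero, root_apply]

/-- The value of a `T`-unit at the distinguished place over `q`. -/
def tLoc (q : Nat.Primes) : TUnits K T →+ LocUnits K q :=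
  (toLoc K q).toAddMonoidHom.comp ((MonoidHom.toAdditive
    (Units.map (localEmb (q : ℕ) K).toMonoidHom)).comp (TUnits.incl K T))

theorem localGalois_smul_loc (q : Nat.Primes) (τ : Ω q ≃ₐ[ℚ_[(q : ℕ)]] Ω q) (y : LocUnits K q) :
    ((((toLoc K q).symm (locEquiv K q (AlgEquiv.restrictNormalHom (E K q) τ) • y)).toMul :
      (E K q)ˣ) : Ω q) = τ ((((toLoc K q).symm y).toMul : (E K q)ˣ) : Ω q) := by
  obtain ⟨z, rfl⟩ := (toLoc K q).surjective y
  rw [smul_toLoc, AddEquiv.symm_apply_apply, AddEquiv.symm_apply_apply]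
  exact AlgEquiv.restrictNormal_commutes τ (E K q) ((z.toMul : (E K q)ˣ) : E K q)

theorem val_equiv_smul (q : Nat.Primes) [Fintype (decomp K q)] (Y : X.K →+ LocUnits K q)
    (hY : ∀ (d : decomp K q) (x : X.K), Y (smulS X.hK (d : K ≃ₐ[ℚ] K) x) = d • Y x)
    (g : K ≃ₐ[ℚ] K) (τ : Ω q ≃ₐ[ℚ_[(q : ℕ)]] Ω q)
    (hd : g = toGlobal (q : ℕ) K (AlgEquiv.restrictNormalHom (E K q) τ)) (x : X.K) :
    τ ((((toLoc K q).symm (Y (smulS X.hK g⁻¹ x))).toMul : (E K q)ˣ) : Ω q) =
      ((((toLoc K q).symm (Y x)).toMul : (E K q)ˣ) : Ω q) := by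
  rw [← localGalois_smul_loc q τ, ← hY,
    show ((locEquiv K q (AlgEquiv.restrictNormalHom (E K q) τ) : decomp K q) : K ≃ₐ[ℚ] K) = g from
      hd.symm, smulS_smulS, mul_inv_cancel,
    show smulS X.hK (1 : K ≃ₐ[ℚ] K) x = x from Subtype.ext (one_smul _ _)]

/-- Roots of unity come from `ℚ̄`. -/
theorem exists_emb_eq_of_pow_eq_one (q : Nat.Primes) {z : (Ω q)ˣ} (hz : z ^ p = 1) :
    ∃ w : QBarˣ, Units.map (emb q).toRingHom.toMonoidHom w = z ∧ w ^ p = 1 := by
  haveI : NeZero p := ⟨hp.out.ne_zero⟩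
  obtain ⟨ζ, hζ⟩ := HasEnoughRootsOfUnity.exists_primitiveRoot QBar p
  have hζ' : IsPrimitiveRoot (emb q ζ) p := hζ.map_of_injective (emb q).injective
  obtain ⟨j, -, hj⟩ := hζ'.eq_pow_of_pow_eq_one
    (ξ := (z : Ω q)) (by rw [← Units.val_pow_eq_pow_val, hz, Units.val_one])
  refine ⟨(hζ.isUnit hp.out.ne_zero).unit ^ j, Units.ext ?_, ?_⟩
  · rw [Units.coe_map, Units.val_pow_eq_pow_val]
    show emb q (ζ ^ j) = _
    rw [map_pow, hj]
  · rw [← pow_mul, mul_comm, pow_mul]
    have h1 : (hζ.isUnit hp.out.ne_zero).unit ^ p = 1 := Units.ext (by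
      rw [Units.val_pow_eq_pow_val, IsUnit.unit_spec, hζ.pow_eq_one, Units.val_one])
    rw [h1, one_pow]

/-- A class which extends locally is a coboundary on the decomposition group. -/
theorem exists_kum_eq_of_local (hA : ∀ a : A, p • a = 0) (q : Nat.Primes)
    [Fintype (decomp K q)] (Y : equivHom (C := LocUnits K q) (X.restrict (decomp K q)).hK)
    (hY : ∀ s : X.S, Y.1 (AddSubgroup.inclusion X.le s) = tLoc q (u.1 s)) :
    ∃ e : A →+ Additive QBarˣ, (∀ a, p • e a = 0) ∧
      ∀ σ ∈ (padicPlace (q : ℕ)).decompositionSubgroup ℚ, ∀ a,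
        kum X u hfull σ a = σ • e ((res K σ)⁻¹ • a) - e a := by
  let embA : Additive QBarˣ →+ Additive (Ω q)ˣ :=
    MonoidHom.toAdditive (Units.map (emb q).toRingHom.toMonoidHom)
  let valA : LocUnits K q →+ Additive (Ω q)ˣ :=
    (MonoidHom.toAdditive (Units.map (E K q).val.toRingHom.toMonoidHom)).comp
      (toLoc K q).symm.toAddMonoidHom
  have hembA : Function.Injective embA := fun a b h => Additive.toMul.injective (Units.ext
    ((emb q).injective (congrArg (fun z : Additive (Ω q)ˣ => (z.toMul : Ω q)) h)))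
  let w : X.K →+ Additive (Ω q)ˣ :=
    embA.comp ((root X u hfull).comp X.K.subtype) - valA.comp (show X.K →+ LocUnits K q from Y.1)
  have hw : X.π.ker ≤ w.ker := fun x hx => by
    have hs : (x : X.P) ∈ X.S := (X.ker x).mp hx
    show embA (root X u hfull (x : X.P)) - valA (Y.1 x) = 0
    rw [root_apply X u hfull ⟨x, hs⟩, sub_eq_zero, ← show Y.1 (AddSubgroup.inclusion X.le ⟨x, hs⟩) =
      Y.1 x from rfl, hY]
    exact Additive.toMul.injective (Units.ext rfl)
  let e₁ : A →+ Additive (Ω q)ˣ := AddMonoidHom.liftOfSurjective X.π X.surj ⟨w, hw⟩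
  have he₁ : ∀ x, e₁ (X.π x) = w x := fun x =>
    AddMonoidHom.liftOfRightInverse_comp_apply X.π _ _ ⟨w, hw⟩ x
  have he₀ : ∀ a, ∃ v : Additive QBarˣ, embA v = e₁ a ∧ p • v = 0 := fun a => by
    obtain ⟨v, hv, hvp⟩ := exists_emb_eq_of_pow_eq_one (p := p) q (z := (e₁ a).toMul) (by
      rw [← toMul_nsmul, ← map_nsmul, hA, map_zero, toMul_zero])
    exact ⟨Additive.ofMul v, congrArg Additive.ofMul hv, congrArg Additive.ofMul hvp⟩
  choose e₀ he₀ he₀p using he₀
  let e : A →+ Additive QBarˣ := AddMonoidHom.mk' e₀ fun a b => hembA (by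
    rw [map_add, he₀, he₀, he₀, map_add])
  refine ⟨e, he₀p, fun σ hσ a => ?_⟩
  obtain ⟨F, hF, hFk⟩ := exists_level_kum X u hfull
  obtain ⟨x, rfl⟩ := X.surj a
  -- an element of the local group agreeing with `σ` on a finite level
  let pts : Set QBar := {((root X u hfull ((res K σ)⁻¹ • (x : X.P))).toMul : QBar),
    ((e₀ (X.π (smulS X.hK (res K σ)⁻¹ x))).toMul : QBar)}
  haveI : Finite pts := (Set.toFinite _).to_subtype
  haveI : FiniteDimensional ℚ (IntermediateField.adjoin ℚ pts) :=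
    IntermediateField.finiteDimensional_adjoin fun x _ => Algebra.IsIntegral.isIntegral x
  let L₀ : IntermediateField ℚ QBar := K ⊔ IntermediateField.adjoin ℚ pts
  let L : IntermediateField ℚ QBar := IntermediateField.normalClosure ℚ L₀ QBar
  haveI : Normal ℚ L := normalClosure.normal ℚ L₀ QBar
  haveI : FiniteDimensional ℚ L := inferInstance
  obtain ⟨t, ht⟩ := (Local.mem_range_toGlobal_iff (q : ℕ) L (AlgEquiv.restrictNormalHom L σ)).mpr
    fun z hz => by
      rw [AlgEquiv.restrictNormalHom, MonoidHom.mk'_apply]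
      rw [show ((σ.restrictNormal L z : L) : QBar) = σ (z : QBar) from
        AlgEquiv.restrictNormal_commutes σ L z]
      exact map_mem_of_mem_decomposition (mem_decomposition_iff.mp hσ) hz
  let τ : Ω q ≃ₐ[ℚ_[(q : ℕ)]] Ω q := t.liftNormal (Ω q)
  set σ' := localGaloisToGlobal (q : ℕ) τ with hσ'
  have hag : ∀ z ∈ L, σ' z = σ z := fun z hz => by
    have h1 : AlgEquiv.restrictNormalHom L σ' = AlgEquiv.restrictNormalHom L σ := ht
    exact (res_apply L σ' ⟨z, hz⟩).symm.trans
      ((congrArg (fun g : L ≃ₐ[ℚ] L => ((g ⟨z, hz⟩ : L) : QBar)) h1).trans (res_apply L σ ⟨z, hz⟩))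
  have hL₀ : L₀ ≤ L := L₀.le_normalClosure
  have hres : res K σ' = res K σ := AlgEquiv.ext fun z => Subtype.ext (by
    rw [res_apply, res_apply]
    exact hag _ (hL₀ (le_sup_left (b := IntermediateField.adjoin ℚ pts) z.2)))
  have hemb : ∀ z : Additive QBarˣ, (z.toMul : QBar) ∈ L →
      ((embA (σ • z)).toMul : Ω q) = τ ((embA z).toMul : Ω q) := fun z hz => by
    show emb q (σ (z.toMul : QBar)) = τ (emb q (z.toMul : QBar))
    rw [← hag _ hz, hσ']
    exact padicEmbedding_localGaloisToGlobal (q : ℕ) τ _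
  have hd : res K σ = toGlobal (q : ℕ) K (AlgEquiv.restrictNormalHom (E K q) τ) := by
    rw [← hres, Local.toGlobal_restrict]
  -- compare after embedding
  refine hembA ?_
  rw [kum_apply, ← X.equi, map_sub, map_sub]
  show _ = embA (σ • e₀ _) - embA (e₀ _)
  rw [he₀ (X.π x), he₁]
  have hmem₁ : ((root X u hfull ((res K σ)⁻¹ • (x : X.P))).toMul : QBar) ∈ L :=
    hL₀ (le_sup_right (a := K) (IntermediateField.subset_adjoin ℚ pts (Or.inl rfl)))
  have hmem₂ : ((e₀ (X.π (smulS X.hK (res K σ)⁻¹ x))).toMul : QBar) ∈ L :=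
    hL₀ (le_sup_right (a := K) (IntermediateField.subset_adjoin ℚ pts (Or.inr rfl)))
  have key : embA (σ • e₀ (X.π (smulS X.hK (res K σ)⁻¹ x))) =
      embA (σ • root X u hfull ((res K σ)⁻¹ • (x : X.P))) - valA (Y.1 x) := by
    refine Additive.toMul.injective (Units.ext ?_)
    rw [hemb _ hmem₂, he₀, he₁, toMul_sub, Units.val_div_eq_div_val, hemb _ hmem₁]
    show τ (((embA (root X u hfull ((res K σ)⁻¹ • (x : X.P))) -
      valA ((show X.K →+ LocUnits K q from Y.1) (smulS X.hK (res K σ)⁻¹ x))).toMul : (Ω q)ˣ) :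
        Ω q) = _
    rw [toMul_sub, Units.val_div_eq_div_val, map_div₀]
    exact congrArg (fun w : Ω q => _ / w)
      (val_equiv_smul X q (show X.K →+ LocUnits K q from Y.1) (fun d y => Y.2 d y) _ τ hd x)
  rw [key]
  show _ = _ - (embA (root X u hfull (x : X.P)) - valA (Y.1 x))
  abel

end Fermat.Agent.CFT.Euler
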