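import Fermat.Agent.CFT.PT.LocalPerfect
import Fermat.Agent.CFT.Euler.Semilocal
import Fermat.Agent.CFT.Idele.LocalClass

/-!
# The local units of a completion as a class formation of the decomposition group
-/

set_option autoImplicit false
set_option synthInstance.maxHeartbeats 200000
set_option linter.style.haveILetI false

noncomputable section

namespace Fermat.Agent.CFT.Euler

open ExtCitation Fermat.Agent.Arith IntermediateField Fermat.Agent.CFT
open Fermat.Agent.CFT.Local Fermat.Agent.CFT.Idele Fermat.Agent.CFT.Duality

local instance factPrimeLocalFormation (q : Nat.Primes) : Fact (q : ℕ).Prime := ⟨q.2⟩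

variable {p : ℕ} [hp : Fact p.Prime]

/-- The units of the completion at the distinguished place over `q` form a class formation of the
decomposition group. -/
theorem exists_locUnits_formation (K : IntermediateField ℚ QBar) [FiniteDimensional ℚ K]
    [Normal ℚ K] (hp2 : p ≠ 2) {ζ : K} (hζ : IsPrimitiveRoot ζ p) (q : Nat.Primes)
    [Fintype (decomp K q)] :
    ∃ uE : NormCocycle (decomp K q) (LocUnits K q), IsClassFormation p uE := by
  classical
  obtain ⟨c, hc, -⟩ := exists_local_fundamental K hp2 hζ q
  letI : DistribMulAction (decomp K q) (Additive (E K q)ˣ) :=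
    DistribMulAction.compHom _ (locEquiv K q).symm.toMonoidHom
  exact ⟨_, PT.isClassFormation_pull hc (locEquiv K q).symm.toMonoidHom
    (locEquiv K q).symm.injective fun _ _ => rfl⟩

end Fermat.Agent.CFT.Euler
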