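import Fermat.Agent.CFT.Euler.CyclicUnits
import Fermat.Agent.CFT.Euler.Semilocal
import Fermat.Agent.CFT.Idele.SUnits
import Fermat.Agent.CFT.Coh.Norms
import Fermat.Agent.CFT.Local.Unramified

/-!
The units of a completion at a prime congruent to one modulo `p` and unramified: the quotient by
`p`-th powers has order dividing `p` and trivial Galois action.
-/

set_option autoImplicit false
set_option synthInstance.maxHeartbeats 200000
set_option linter.unusedSectionVars false
set_option linter.style.haveILetI false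

noncomputable section

namespace Fermat.Agent.CFT.Euler

open ExtCitation Fermat.Agent.Arith IntermediateField Fermat.Agent.CFT
open Fermat.Agent.CFT.Local Fermat.Agent.CFT.Idele Fermat.Agent.CFT.Duality

section Field

variable {p : ℕ} [hp : Fact p.Prime] {q : ℕ} [Fact q.Prime]
  {E : IntermediateField ℚ_[q] (PadicAlgCl q)} [FiniteDimensional ℚ_[q] E]

theorem index_pow_unitGroup_dvd (hp2 : p ≠ 2) (hqp : q ≠ p) :
    (powMonoidHom p : unitGroup E →* unitGroup E).range.index ∣ p := by
  haveI : NeZero p := ⟨hp.out.ne_zero⟩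
  let f : (E)ˣ →* (Unit → Multiplicative ℤ) := MonoidHom.pi fun _ => ord E
  have hker : f.ker = unitGroup E := by
    ext x
    rw [MonoidHom.mem_ker, funext_iff, ← ord_eq_one_iff]
    exact ⟨fun h => h (), fun h _ => h⟩
  have hf : f.range.index ≠ 0 := by
    have : f.range = ⊤ := MonoidHom.range_eq_top.mpr fun y => by
      obtain ⟨x, hx⟩ := ord_surjective E (y ())
      exact ⟨x, funext fun _ => hx⟩
    rw [this, Subgroup.index_top]
    exact one_ne_zero
  have h := index_range_pow_of_hom hp.out.ne_zero f hf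
  rw [index_range_pow (E := E) hp2, if_neg hqp, mul_one, Fintype.card_unit, pow_one, hker] at h
  have e : (powMonoidHom p : Eˣ →* Eˣ).ker = rootsOfUnity p E := by ext x; rfl
  rw [← Nat.eq_of_mul_eq_mul_left hp.out.pos h, e, ← IsCyclic.exponent_eq_card]
  exact Monoid.exponent_dvd_of_forall_pow_eq_one fun x => Subtype.ext x.2

variable (E) in
/-- The reduction of a unit. -/
def resUnit' : unitGroup E →* (ResField E)ˣ :=
  MonoidHom.mk' (fun u => Units.mk0 (resMap E ⟨((u : Eˣ) : E), ((mem_unitGroup E).mp u.2).le⟩)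
    fun h => by
      rw [resMap_eq_zero_iff] at h
      exact h.ne ((mem_unitGroup E).mp u.2))
    fun u v => Units.ext (by
      rw [Units.val_mul, Units.val_mk0, Units.val_mk0, Units.val_mk0, ← map_mul]
      rfl)

theorem resUnit'_surjective : Function.Surjective (resUnit' E) := by
  intro c
  obtain ⟨x, hx⟩ := resMap_surjective E (c : ResField E)
  have h1 : ‖(x : E)‖ = 1 := le_antisymm x.2 (not_lt.mp fun h => c.ne_zero
    (hx ▸ (resMap_eq_zero_iff E).mpr h))
  refine ⟨⟨Units.mk0 (x : E) fun h => by rw [h, norm_zero] at h1; exact zero_ne_one h1,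
    (mem_unitGroup E).mpr h1⟩, Units.ext ?_⟩
  exact hx

theorem dvd_card_resField (hq1 : p ∣ q - 1) : p ∣ Nat.card (ResField E)ˣ := by
  classical
  letI : Fintype (ResField E) := Fintype.ofFinite _
  obtain ⟨n, -, hn⟩ := FiniteField.card (ResField E) q
  rw [Nat.card_units, Nat.card_eq_fintype_card, hn]
  exact hq1.trans (Nat.sub_one_dvd_pow_sub_one q _)

/-- An automorphism moves a unit by a `p`-th power, if `p ∣ q - 1`. -/
theorem exists_pow_eq_smul_div (hp2 : p ≠ 2) (hqp : q ≠ p) (hq1 : p ∣ q - 1)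
    (σ : E ≃ₐ[ℚ_[q]] E) (u : unitGroup E) :
    ∃ w : unitGroup E, (σ • (u : Eˣ)) / (u : Eˣ) = (w : Eˣ) ^ p := by
  classical
  let P := (powMonoidHom p : unitGroup E →* unitGroup E).range
  let Pk := (powMonoidHom p : (ResField E)ˣ →* (ResField E)ˣ).range
  have hPk : Pk.index = p := by
    rw [IsCyclic.index_powMonoidHom_range, Nat.gcd_eq_right (dvd_card_resField hq1)]
  have hle : P ≤ Pk.comap (resUnit' E) := by
    rintro _ ⟨v, rfl⟩
    exact ⟨resUnit' E v, (map_pow _ v p).symm⟩
  have heq : Pk.comap (resUnit' E) = P := by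
    have h1 := Subgroup.relIndex_mul_index hle
    rw [Subgroup.index_comap_of_surjective _ resUnit'_surjective, hPk] at h1
    have h2 : P.relIndex (Pk.comap (resUnit' E)) * p ∣ 1 * p := by
      rw [one_mul, h1]
      exact index_pow_unitGroup_dvd hp2 hqp
    refine le_antisymm (Subgroup.relIndex_eq_one.mp ?_) hle
    exact Nat.eq_one_of_dvd_one (Nat.dvd_of_mul_dvd_mul_right hp.out.pos h2)
  let z : unitGroup E := ⟨σ • (u : Eˣ), (smul_mem_unitGroup_iff σ _).mpr u.2⟩ / u
  -- the automorphism is a power of Frobenius on the residue field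
  obtain ⟨i, hi⟩ := (FiniteField.bijective_frobeniusAlgEquivOfAlgebraic_pow (ZMod q)
    (ResField E)).2 (resAut E σ)
  have hres : resUnit' E z ∈ Pk := by
    obtain ⟨m, hm⟩ := hq1.trans (Nat.sub_one_dvd_pow_sub_one q (i : ℕ))
    have hσ : resUnit' E ⟨σ • (u : Eˣ), (smul_mem_unitGroup_iff σ _).mpr u.2⟩ =
        resUnit' E u ^ (q ^ (i : ℕ)) := by
      refine Units.ext ?_
      rw [Units.val_pow_eq_pow_val]
      show resMap E (galInt σ ⟨((u : Eˣ) : E), ((mem_unitGroup E).mp u.2).le⟩) =
        resMap E ⟨((u : Eˣ) : E), ((mem_unitGroup E).mp u.2).le⟩ ^ (q ^ (i : ℕ))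
      rw [← resAut_resMap, ← hi]
      simp only [FiniteField.coe_frobeniusAlgEquivOfAlgebraic_iterate, AlgEquiv.coe_pow,
        ZMod.card]
    refine ⟨resUnit' E u ^ m, ?_⟩
    have hpos : 1 ≤ q ^ (i : ℕ) := Nat.one_le_pow _ _ (Fact.out : q.Prime).pos
    rw [map_div, hσ, eq_div_iff_mul_eq', powMonoidHom_apply, ← pow_mul, ← pow_succ]
    congr 1
    rw [mul_comm m p, ← hm]
    omega
  obtain ⟨w, hw⟩ : z ∈ P := by rw [← heq]; exact hres
  exact ⟨w, (congrArg (fun v : unitGroup E => (v : Eˣ)) hw).symm⟩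

end Field

local instance factPrimeEulerUnitMod (q : Nat.Primes) : Fact (q : ℕ).Prime := ⟨q.2⟩

variable (K : IntermediateField ℚ QBar) [FiniteDimensional ℚ K] [Normal ℚ K]

/-- The unit group of the completion at the distinguished place over `q`. -/
def LocUnit (q : Nat.Primes) : Type := Additive (unitGroup (E K q))

instance (q : Nat.Primes) : AddCommGroup (LocUnit K q) :=
  inferInstanceAs (AddCommGroup (Additive (unitGroup (E K q))))

instance (q : Nat.Primes) : DistribMulAction (decomp K q) (LocUnit K q) :=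
  DistribMulAction.compHom (Additive (unitGroup (E K q))) (locEquiv K q).symm.toMonoidHom

/-- A unit as an element of the local unit module. -/
def toUnit (q : Nat.Primes) : Additive (unitGroup (E K q)) ≃+ LocUnit K q := AddEquiv.refl _

/-- The units among the local module. -/
def LocUnit.incl (q : Nat.Primes) : LocUnit K q →+ LocUnits K q :=
  (toLoc K q).toAddMonoidHom.comp
    ((MonoidHom.toAdditive (unitGroup (E K q)).subtype).comp (toUnit K q).symm.toAddMonoidHom)

theorem LocUnit.incl_injective (q : Nat.Primes) : Function.Injective (LocUnit.incl K q) :=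
  fun _ _ h => Subtype.ext h

theorem LocUnit.incl_smul (q : Nat.Primes) (h : decomp K q) (x : LocUnit K q) :
    LocUnit.incl K q (h • x) = h • LocUnit.incl K q x := rfl

variable {p : ℕ} [hp : Fact p.Prime] {q : Nat.Primes}

theorem decomp_cyclic (hq : inertia (E K q) = ⊥) :
    ∃ φ : decomp K q, ∀ g, g ∈ Subgroup.zpowers φ := by
  haveI := isCyclic_of_inf_inertia_eq_bot (⊤ : Subgroup (E K q ≃ₐ[ℚ_[(q : ℕ)]] E K q))
    (by rw [hq, inf_bot_eq])
  haveI : IsCyclic (decomp K q) := isCyclic_of_surjective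
    (Subgroup.topEquiv.trans (locEquiv K q)).toMonoidHom
    (Subgroup.topEquiv.trans (locEquiv K q)).surjective
  exact IsCyclic.exists_generator

theorem locUnit_h1Zero (hq : inertia (E K q) = ⊥) (H : Subgroup (decomp K q)) :
    H1Zero H (LocUnit K q) := by
  let S := H.comap (locEquiv K q).toMonoidHom
  let e : S ≃* H :=
    { toFun := fun t => ⟨locEquiv K q t, t.2⟩
      invFun := fun h => ⟨(locEquiv K q).symm h, by
        show locEquiv K q ((locEquiv K q).symm h) ∈ H
        rw [MulEquiv.apply_symm_apply]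
        exact h.2⟩
      left_inv := fun t => Subtype.ext ((locEquiv K q).symm_apply_apply _)
      right_inv := fun h => Subtype.ext ((locEquiv K q).apply_symm_apply _)
      map_mul' := fun t t' => Subtype.ext (map_mul (locEquiv K q) _ _) }
  intro c hc
  obtain ⟨β, hβ⟩ := h1Zero_unitGroup S (by rw [hq, inf_bot_eq])
    (fun t => (toUnit K q).symm (c (e t))) fun t t' => by
      dsimp only
      refine (congrArg (fun z => (toUnit K q).symm (c z)) (map_mul e t t')).trans
        ((congrArg (toUnit K q).symm (hc (e t) (e t'))).trans ?_)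
      rw [map_add]
      refine congrArg (fun z => z + _) ?_
      show (locEquiv K q).symm (locEquiv K q (t : E K q ≃ₐ[ℚ_[(q : ℕ)]] E K q)) •
        (toUnit K q).symm (c (e t')) = _
      rw [MulEquiv.symm_apply_apply]
      rfl
  refine ⟨toUnit K q β, fun h => ?_⟩
  exact (hβ (e.symm h)).trans (congrArg (fun z => (toUnit K q).symm (c z)) (e.apply_symm_apply h))

theorem locUnit_normSurj (hq : inertia (E K q) = ⊥) (H : Subgroup (decomp K q)) [Fintype H] :
    NormSurj H (LocUnit K q) := by
  classical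
  let S := H.comap (locEquiv K q).toMonoidHom
  haveI : Fintype S := Fintype.ofFinite _
  let e : S ≃ H :=
    { toFun := fun t => ⟨locEquiv K q t, t.2⟩
      invFun := fun h => ⟨(locEquiv K q).symm h, by
        show locEquiv K q ((locEquiv K q).symm h) ∈ H
        rw [MulEquiv.apply_symm_apply]
        exact h.2⟩
      left_inv := fun t => Subtype.ext ((locEquiv K q).symm_apply_apply _)
      right_inv := fun h => Subtype.ext ((locEquiv K q).apply_symm_apply _) }
  intro x hx
  obtain ⟨a, ha⟩ := normSurj_unitGroup S (by rw [hq, inf_bot_eq]) ((toUnit K q).symm x) fun t => by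
    have h1 := congrArg (toUnit K q).symm (hx (e t))
    change (locEquiv K q).symm (locEquiv K q (t : E K q ≃ₐ[ℚ_[(q : ℕ)]] E K q)) •
      (toUnit K q).symm x = _ at h1
    rwa [MulEquiv.symm_apply_apply] at h1
  refine ⟨toUnit K q a, (toUnit K q).symm.injective ?_⟩
  rw [← ha, normSum, normSum, map_sum]
  refine (Fintype.sum_equiv e _ _ fun t => ?_).symm
  show _ = (locEquiv K q).symm (locEquiv K q (t : E K q ≃ₐ[ℚ_[(q : ℕ)]] E K q)) • a
  rw [MulEquiv.symm_apply_apply]
  rfl

theorem locUnit_good [Fintype (decomp K q)] (hq : inertia (E K q) = ⊥) :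
    Good p (decomp K q) (LocUnit K q) := by
  classical
  intro P _ _ _ _ hP S hS hpS f hf
  obtain ⟨Q⟩ := (inferInstance : Nonempty (Sylow p (decomp K q)))
  haveI : Fintype (Q : Subgroup (decomp K q)) := Fintype.ofFinite _
  exact exists_normOn_of_sylow hS Q (locUnit_h1Zero K hq _) (locUnit_normSurj K hq _) hP hpS f hf

theorem locUnit_modPFinite (hp2 : p ≠ 2) (hqp : (q : ℕ) ≠ p) : ModPFinite p (LocUnit K q) := by
  refine ⟨(locUnits_modPFinite K hp2 q).of_injective (LocUnit.incl K q)
    (LocUnit.incl_injective K q), fun h => hp.out.ne_zero (zero_dvd_iff.mp (h ▸ ?_))⟩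
  exact index_pow_unitGroup_dvd (E := E K q) hp2 hqp

/-- Extensions by the local units at an unramified prime congruent to one. -/
theorem xLp_locUnit_le [Fintype (decomp K q)] {A : Type} [AddCommGroup A]
    [DistribMulAction (decomp K q) A] [Finite A] (X : Pres p (decomp K q) A)
    (hfull : ∀ x : X.P, x ∈ X.K) (hA : ∀ a : A, p • a = 0) (hp2 : p ≠ 2)
    (hq : inertia (E K q) = ⊥) (hqp : (q : ℕ) ≠ p) (hq1 : p ∣ (q : ℕ) - 1) :
    X.xLp (LocUnit K q) ≤ lpN p (Nat.card (fixPts (decomp K q) A)) := by
  obtain ⟨φ, hφ⟩ := decomp_cyclic K hq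
  refine X.xLp_le_fixPts hfull hA hφ (locUnit_good K hq) ?_ fun h x => ?_
  · exact index_pow_unitGroup_dvd (E := E K q) hp2 hqp
  · obtain ⟨w, hw⟩ := exists_pow_eq_smul_div hp2 hqp hq1 ((locEquiv K q).symm h)
      ((toUnit K q).symm x).toMul
    exact ⟨toUnit K q (Additive.ofMul w), (LocUnit.incl_injective K q) (congrArg Additive.ofMul hw)⟩

end Fermat.Agent.CFT.Euler
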