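import Fermat.Agent.CFT.Coh.H2

/-!
Class formations modulo a cohomologically trivial submodule.
-/

set_option autoImplicit false
set_option linter.unusedSectionVars false
set_option linter.style.haveILetI false

noncomputable section

namespace Fermat.Agent.CFT.Euler

open Fermat.Agent.CFT groupCohomology

variable {p : ℕ} [hp : Fact p.Prime] {G : Type} [Group G] [Fintype G]
  {U : Type} [AddCommGroup U] [DistribMulAction G U]
  {C : Type} [AddCommGroup C] [DistribMulAction G C]
  {D : Type} [AddCommGroup D] [DistribMulAction G D]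

/-- An element fixed by the smaller group of a step and by the generator is fixed by the larger. -/
theorem fixed_of_step {H K : Subgroup G} {g : G} (hs : IsStep p H K g) {x : C}
    (hg : g • x = x) (hK : ∀ k ∈ K, k • x = x) : ∀ h ∈ H, h • x = x := by
  intro h hh
  obtain ⟨χ, -, hker, hgχ⟩ := hs.exists_char
  set γ : H := ⟨g, hs.mem⟩
  set j := (Multiplicative.toAdd (χ ⟨h, hh⟩)).val
  have hk : (γ ^ j)⁻¹ * ⟨h, hh⟩ ∈ χ.ker := by
    rw [MonoidHom.mem_ker, map_mul, map_inv, map_pow, hgχ, ← ofAdd_nsmul, nsmul_one,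
      ZMod.natCast_zmod_val, ofAdd_toAdd, inv_mul_cancel]
  rw [hker, Subgroup.mem_subgroupOf] at hk
  have hgj : ∀ n : ℕ, g ^ n • x = x := fun n => by
    induction n with
    | zero => rw [pow_zero, one_smul]
    | succ n ih => rw [pow_succ, mul_smul, hg, ih]
  have e : h = g ^ j * (((γ ^ j)⁻¹ * ⟨h, hh⟩ : H) : G) := by
    rw [Subgroup.coe_mul, InvMemClass.coe_inv, SubmonoidClass.coe_pow]
    exact (mul_inv_cancel_left _ _).symm
  conv_lhs => rw [e]
  rw [mul_smul, hK _ hk, hgj]

omit hp in
theorem IsStep.conj_pow_mem [Fact p.Prime] {H K : Subgroup G} {g : G} (hs : IsStep p H K g)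
    {k : G} (hk : k ∈ K) (j : ℕ) : (g ^ j)⁻¹ * k * g ^ j ∈ K := by
  obtain ⟨χ, -, hker, -⟩ := hs.exists_char
  have h0 : (⟨k, hs.le hk⟩ : H) ∈ χ.ker := by rw [hker, Subgroup.mem_subgroupOf]; exact hk
  have h1 := (inferInstance : χ.ker.Normal).conj_mem _ h0 ((⟨g, hs.mem⟩ : H) ^ j)⁻¹
  rw [hker, Subgroup.mem_subgroupOf] at h1
  simpa using h1

/-- The norm of an element fixed by the smaller group of a step is fixed by the larger. -/
theorem stepNorm_fixed {H K : Subgroup G} {g : G} (hs : IsStep p H K g) {x : C}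
    (hK : ∀ k ∈ K, k • x = x) : ∀ h ∈ H, h • stepNorm p g x = stepNorm p g x := by
  refine fixed_of_step hs ?_ fun k hk => ?_
  · unfold stepNorm
    rw [Finset.smul_sum]
    simp only [smul_smul, ← pow_succ']
    have h := Finset.sum_range_succ' (fun j => g ^ j • x) p
    rw [Finset.sum_range_succ, hK _ hs.pow_mem, pow_zero, one_smul] at h
    exact (add_right_cancel h).symm
  · unfold stepNorm
    rw [Finset.smul_sum]
    refine Finset.sum_congr rfl fun j _ => ?_
    rw [smul_smul, show k * g ^ j = g ^ j * ((g ^ j)⁻¹ * k * g ^ j) by group, mul_smul,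
      hK _ (IsStep.conj_pow_mem hs hk j)]

/-- A norm from the larger group of a step is a step norm from the smaller. -/
theorem exists_stepNorm_eq {H K : Subgroup G} {g : G} (hs : IsStep p H K g) [Fintype H] (w : C) :
    ∃ b : C, (∀ k ∈ K, k • b = b) ∧ stepNorm p g b = normSum H C w := by
  classical
  obtain ⟨χ, -, hker, hgχ⟩ := hs.exists_char
  haveI : Fintype K := Fintype.ofFinite _
  set γ : H := ⟨g, hs.mem⟩
  refine ⟨∑ k : K, (k : G) • w, fun k hk => ?_, ?_⟩
  · rw [Finset.smul_sum]
    refine Fintype.sum_equiv (Equiv.mulLeft (⟨k, hk⟩ : K)) _ _ fun k' => ?_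
    rw [smul_smul]
    rfl
  · let e : Fin p × K → H := fun jk => γ ^ (jk.1 : ℕ) * ⟨jk.2, hs.le jk.2.2⟩
    have hχe : ∀ jk, χ (e jk) = Multiplicative.ofAdd ((jk.1 : ℕ) : ZMod p) := fun jk => by
      have h0 : χ ⟨(jk.2 : G), hs.le jk.2.2⟩ = 1 := by
        rw [← MonoidHom.mem_ker, hker, Subgroup.mem_subgroupOf]
        exact jk.2.2
      rw [map_mul, h0, mul_one, map_pow, hgχ, ← ofAdd_nsmul, nsmul_one]
    have he : Function.Bijective e := by
      refine (Fintype.bijective_iff_injective_and_card e).mpr ⟨?_, ?_⟩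
      · rintro ⟨j, k⟩ ⟨j', k'⟩ h
        have h1 := congrArg χ h
        rw [hχe, hχe] at h1
        have h2 : ((j : ℕ) : ZMod p) = ((j' : ℕ) : ZMod p) := Multiplicative.ofAdd.injective h1
        obtain rfl : j = j' := by
          refine Fin.ext ?_
          have h3 := congrArg ZMod.val h2
          rwa [ZMod.val_natCast_of_lt j.2, ZMod.val_natCast_of_lt j'.2] at h3
        exact Prod.ext rfl (Subtype.ext (congrArg (fun z : H => (z : G)) (mul_left_cancel h :) :))
      · rw [Fintype.card_prod, Fintype.card_fin, ← Nat.card_eq_fintype_card,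
          ← Nat.card_eq_fintype_card, hs.card_eq]
    rw [normSum, ← Fintype.sum_bijective e he (fun jk => (g ^ (jk.1 : ℕ) * (jk.2 : G)) • w)
      (fun h : H => h • w) (fun jk => by
        show _ = ((e jk : H) : G) • w
        rfl), Fintype.sum_prod_type, stepNorm, Finset.sum_range]
    refine Finset.sum_congr rfl fun j _ => ?_
    rw [Finset.smul_sum]
    exact Finset.sum_congr rfl fun k _ => (mul_smul _ _ _).symm

variable (h1U : ∀ H : Subgroup G, IsPGroup p H → H1Zero H U)
  (hNU : ∀ (H : Subgroup G) [Fintype H], IsPGroup p H → NormSurj H U)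

include h1U hNU in
theorem h2_of_normSurj (H : Subgroup G) (hH : IsPGroup p H) (c : H × H → U) (hc : IsCocycle₂ c) :
    c ∈ cobound₂ H U := by
  suffices key : ∀ (n : ℕ) (H : Subgroup G), Nat.card H = n → IsPGroup p H →
      ∀ c : H × H → U, IsCocycle₂ c → c ∈ cobound₂ H U from key _ H rfl hH c hc
  intro n
  induction n using Nat.strong_induction_on with
  | _ n ih =>
  intro H hn hH c hc
  rcases subsingleton_or_nontrivial H with hs | hs
  · refine ⟨fun _ => c (1, 1), fun a b => ?_⟩
    rw [Subsingleton.elim a 1, Subsingleton.elim b 1, one_smul, mul_one, sub_self, zero_add]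
  obtain ⟨K, g, hs⟩ := exists_isStep hH
  obtain ⟨χ, hχ, hker, hg⟩ := hs.exists_char
  haveI : Fintype H := Fintype.ofFinite _
  have hlt : Nat.card K < n := by
    rw [← hn, hs.card_eq]; exact lt_mul_left Nat.card_pos hp.out.one_lt
  have hres := ih _ hlt K rfl hs.isPGroup_left
    (fun x => c (⟨x.1, hs.le x.1.2⟩, ⟨x.2, hs.le x.2.2⟩)) fun a b d =>
      hc ⟨a.1, hs.le a.2⟩ ⟨b.1, hs.le b.2⟩ ⟨d.1, hs.le d.2⟩
  obtain ⟨x, hx, hcx⟩ := exists_carry_congr hs (h1U K hs.isPGroup_left) χ hχ hker hg c hc hres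
  obtain ⟨w, hw⟩ := hNU H hH x fun h => hx h h.2
  obtain ⟨b, hb, hbw⟩ := exists_stepNorm_eq hs w
  have h2 : carry χ x ∈ cobound₂ H U := by
    rw [← hw, ← hbw]
    exact carry_stepNorm_mem hs χ hker hg b hb
  simpa using add_mem hcx h2

variable (i : U →+ C) (hi : ∀ (g : G) (x : U), i (g • x) = g • i x) (hinj : Function.Injective i)
  (q : C →+ D) (hq : ∀ (g : G) (x : C), q (g • x) = g • q x)
  (hex : ∀ y, q y = 0 → ∃ x, i x = y) (hqi : ∀ x, q (i x) = 0) (hqs : Function.Surjective q)

include h1U hi hinj hq hex hqi hqs in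
theorem exists_fixed_lift (H : Subgroup G) (hH : IsPGroup p H) (x : D)
    (hx : ∀ h ∈ H, h • x = x) : ∃ x' : C, (∀ h ∈ H, h • x' = x') ∧ q x' = x := by
  obtain ⟨x', rfl⟩ := hqs x
  choose c hc using fun h : H => hex ((h : G) • x' - x') (by
    rw [map_sub, hq, hx _ h.2, sub_self])
  obtain ⟨y, hy⟩ := h1U H hH c fun a b => hinj (by
    show i (c (a * b)) = i ((a : G) • c b + c a)
    rw [map_add, hi, hc, hc, hc, Subgroup.coe_mul, mul_smul, smul_sub]
    abel)
  refine ⟨x' - i y, fun h hh => ?_, by rw [map_sub, hqi, sub_zero]⟩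
  have e := congrArg i (hy ⟨h, hh⟩)
  rw [map_sub, hc] at e
  rw [show i ((⟨h, hh⟩ : H) • y) = h • i y from hi h y] at e
  rw [smul_sub, sub_eq_sub_iff_sub_eq_sub]
  exact e.symm

include h1U hNU hi hinj hq hex hqi hqs in
/-- The step axioms pass to the quotient by a cohomologically trivial module. -/
theorem stepAxioms_quotient (hC : StepAxioms p G C) : StepAxioms p G D := by
  have hqN : ∀ (g : G) (b : C), q (stepNorm p g b) = stepNorm p g (q b) := fun g b => by
    simp only [stepNorm, map_sum, hq]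
  refine ⟨fun H K g hs a ha hN => ?_, fun H K g hs => ?_⟩
  · obtain ⟨a', ha', rfl⟩ := exists_fixed_lift h1U i hi hinj q hq hex hqi hqs K hs.isPGroup_left a ha
    obtain ⟨z, hz⟩ := hex (stepNorm p g a') (by rw [hqN, hN])
    haveI : Fintype H := Fintype.ofFinite _
    obtain ⟨w, hw⟩ := hNU H hs.isPGroup z fun h => hinj (by
      rw [show i (h • z) = (h : G) • i z from hi h z, hz, stepNorm_fixed hs ha' h h.2])
    obtain ⟨b₀, hb₀, hb₀w⟩ := exists_stepNorm_eq hs w
    obtain ⟨b, hb, hgb⟩ := hC.h1 H K g hs (a' - i b₀)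
      (fun k hk => by rw [smul_sub, ha' k hk, ← hi, hb₀ k hk]) (by
        have e : i (stepNorm p g b₀) = stepNorm p g (i b₀) := by simp only [stepNorm, map_sum, hi]
        unfold stepNorm at *
        simp only [smul_sub, Finset.sum_sub_distrib]
        rw [← e, hb₀w, hw, hz, sub_self])
    refine ⟨q b, fun k hk => by rw [← hq, hb k hk], ?_⟩
    rw [← hq, ← map_sub, hgb, map_sub, hqi, sub_zero]
  · obtain ⟨x₀, hx₀, hgen⟩ := hC.index_le H K g hs
    refine ⟨q x₀, fun h hh => by rw [← hq, hx₀ h hh], fun x hx => ?_⟩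
    obtain ⟨x', hx', rfl⟩ := exists_fixed_lift h1U i hi hinj q hq hex hqi hqs H hs.isPGroup x hx
    obtain ⟨m, b, hb, rfl⟩ := hgen x' hx'
    exact ⟨m, q b, fun k hk => by rw [← hq, hb k hk], by rw [map_add, map_zsmul, hqN]⟩

/-- The image of a normalised cocycle. -/
def mapCocycle (q : C →+ D) (hq : ∀ (g : G) (x : C), q (g • x) = g • q x) (u : NormCocycle G C) :
    NormCocycle G D where
  toFun gh := q (u.toFun gh)
  isCocycle a b d := by
    have h := congrArg q (u.isCocycle a b d)
    simpa only [map_add, hq] using h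
  one_left g := by rw [u.one_left, map_zero]

include h1U hNU hi hinj hex hqs in
/-- Class formations pass to the quotient by a cohomologically trivial module. -/
theorem isClassFormation_quotient (hqi : ∀ x, q (i x) = 0) (hC : StepAxioms p G C)
    {u : NormCocycle G C} (hu : IsClassFormation p u) :
    IsClassFormation p (mapCocycle q hq u) := by
  refine StepAxioms.isClassFormation
    (stepAxioms_quotient h1U hNU i hi hinj q hq hex hqi hqs hC) _ fun P k hk => ?_
  obtain ⟨β, hβ⟩ := hk
  refine hu.order P P.isPGroup' k ?_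
  choose β' hβ' using fun h => hqs (β h)
  let H : Subgroup G := P
  let d : H × H → C := fun gh => k • u.toFun ((gh.1 : G), (gh.2 : G)) - dOne β' gh
  choose c hc using fun gh => hex (d gh) (by
    have e := hβ gh.1 gh.2
    change _ = k • q (u.toFun ((gh.1 : G), (gh.2 : G))) at e
    show q (k • _ - (gh.1 • β' gh.2 - β' (gh.1 * gh.2) + β' gh.1)) = 0
    rw [map_sub, map_zsmul, map_add, map_sub,
      show q (gh.1 • β' gh.2) = gh.1 • q (β' gh.2) from hq _ _, hβ', hβ', hβ', ← e, sub_self])
  have hd : IsCocycle₂ d :=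
    isCocycle₂_sub (isCocycle₂_zsmul (c := fun gh : H × H => u.toFun ((gh.1 : G), (gh.2 : G)))
      (fun a b e => u.isCocycle (a : G) (b : G) (e : G)) k)
      (isCocycle₂_dOne β')
  obtain ⟨x, hx⟩ := h2_of_normSurj h1U hNU H P.isPGroup' c fun a b e => hinj (by
    have h := hd a b e
    simp only [← hc] at h
    simpa only [map_add, show ∀ z, i (a • z) = a • i z from fun z => hi (a : G) z] using h)
  have h2 : d ∈ cobound₂ H C := ⟨fun h => i (x h), fun a b => by
    rw [← hc (a, b), ← hx a b, map_add, map_sub, show i (a • x b) = a • i (x b) from hi (a : G) _]⟩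
  have h3 := add_mem h2 (dOne_mem β')
  simp only [d] at h3
  rw [show (fun gh : H × H => k • u.toFun ((gh.1 : G), (gh.2 : G)) - dOne β' gh) + dOne β' =
    fun gh : H × H => k • u.toFun ((gh.1 : G), (gh.2 : G)) from funext fun gh => by simp] at h3
  exact h3

end Fermat.Agent.CFT.Euler
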