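import Fermat.Agent.CFT.Euler.Index

/-!
The counting step: functionals on a finite group of classes against local extensions.
-/

set_option autoImplicit false
set_option linter.unusedSectionVars false
set_option linter.style.haveILetI false

noncomputable section

namespace Fermat.Agent.CFT.Euler

variable (p : ℕ) [hp : Fact p.Prime]

theorem lpN_prod {ι : Type*} (s : Finset ι) (g : ι → ℕ) (hg : ∀ i ∈ s, g i ≠ 0) :
    lpN p (∏ i ∈ s, g i) = ∑ i ∈ s, lpN p (g i) := by
  classical
  induction s using Finset.induction_on with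
  | empty => simp
  | insert i s hi ih =>
    rw [Finset.prod_insert hi, Finset.sum_insert hi,
      lpN_mul p (hg i (Finset.mem_insert_self _ _))
        (Finset.prod_ne_zero_iff.mpr fun j hj => hg j (Finset.mem_insert_of_mem hj)),
      ih fun j hj => hg j (Finset.mem_insert_of_mem hj)]

omit hp in
theorem index_pi_univ {ι : Type*} [Fintype ι] {F : ι → Type*} [∀ i, AddCommGroup (F i)]
    (W : ∀ i, AddSubgroup (F i)) :
    (AddSubgroup.pi Set.univ W).index = ∏ i, (W i).index := by
  let φ : (∀ i, F i) →+ ∀ i, F i ⧸ W i :=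
    AddMonoidHom.pi fun i => (QuotientAddGroup.mk' _).comp (Pi.evalAddMonoidHom F i)
  have hφ : Function.Surjective φ := fun z => by
    choose y hy using fun i => QuotientAddGroup.mk'_surjective (W i) (z i)
    exact ⟨y, funext hy⟩
  have hker : AddSubgroup.pi Set.univ W = φ.ker := by
    ext y
    exact ⟨fun h => funext fun i => (QuotientAddGroup.eq_zero_iff _).mpr (h i (Set.mem_univ i)),
      fun h i _ => (QuotientAddGroup.eq_zero_iff _).mp (congrFun h i)⟩
  rw [hker, AddSubgroup.index_ker, AddMonoidHom.range_eq_top.mpr hφ, AddSubgroup.card_top,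
    Nat.card_pi]
  rfl

/-- The Selmer count. -/
theorem selmer_count {N X₀ X₁ : Type*} [AddCommGroup N] [Finite N] [AddCommGroup X₀]
    [AddCommGroup X₁] {ι : Type*} [Fintype ι] {F : ι → Type*} [∀ i, AddCommGroup (F i)]
    (Φ : X₀ →+ N) (hΦ : Function.Surjective Φ) (ξ : X₀ →+ X₁) (R : AddSubgroup X₁)
    (hR : R.index ≠ 0) (hker : ∀ s, ξ s ∈ R → Φ s = 0) (lam : (∀ i, F i) →+ X₀)
    (B : ∀ i, AddSubgroup (F i)) (hB : ∀ i, (B i).index ≠ 0)
    (hinj : ∀ w, ξ (lam w) ∈ R → ∀ i, w i ∈ B i) (D : ∀ i, AddSubgroup (F i))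
    (hD : ∀ (w : ∀ i, F i), (∀ i, w i ∈ D i) → Φ (lam w) = 0) (hD0 : ∀ i, (D i).index ≠ 0)
    (L : ι → ℤ) (hL : ∀ i, lpN p (D i).index ≤ L i) :
    lpN p (Nat.card N) + ∑ i, (lpN p (B i).index - L i) ≤ lpN p R.index := by
  let PD := AddSubgroup.pi Set.univ D
  let PB := AddSubgroup.pi Set.univ B
  let f : PD →+ X₁ := ξ.comp (lam.comp PD.subtype)
  set J := f.range ⊔ R with hJ
  -- the order of `N` divides the index of `J`
  have h1 : Nat.card N ∣ J.index := by
    have e : Φ.ker.index = Nat.card N := by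
      rw [AddSubgroup.index_ker, AddMonoidHom.range_eq_top.mpr hΦ, AddSubgroup.card_top]
    have hle : J.comap ξ ≤ Φ.ker := by
      intro s hs
      obtain ⟨_, ⟨w, rfl⟩, r, hr, hsr⟩ := AddSubgroup.mem_sup.mp hs
      have h0 : ξ (s - lam w.1) ∈ R := by
        rw [map_sub, ← hsr, show f w = ξ (lam w.1) from rfl, add_sub_cancel_left]
        exact hr
      have h := hker _ h0
      rw [map_sub, sub_eq_zero] at h
      exact h.trans (hD w.1 fun i => w.2 i (Set.mem_univ i))
    rw [← e]
    refine (AddSubgroup.index_dvd_of_le hle).trans ?_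
    rw [AddSubgroup.index_comap]
    exact AddSubgroup.relIndex_dvd_index_of_normal _ _
  -- the index of `R` in `J`
  have h2 : PB.relIndex PD ∣ R.relIndex J := by
    rw [hJ, AddSubgroup.relIndex_sup_right, ← AddSubgroup.index_comap]
    exact AddSubgroup.index_dvd_of_le fun w hw i _ => hinj w.1 hw i
  have h3 : R.relIndex J * J.index = R.index := AddSubgroup.relIndex_mul_index le_sup_right
  have h4 : PB.index ∣ PB.relIndex PD * PD.index := by
    rw [← AddSubgroup.inf_relIndex_right, AddSubgroup.relIndex_mul_index inf_le_right]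
    exact AddSubgroup.index_dvd_of_le inf_le_left
  have hB0 : PB.index ≠ 0 := by
    rw [index_pi_univ]; exact Finset.prod_ne_zero_iff.mpr fun i _ => hB i
  have hPD : PD.index ≠ 0 := by
    rw [index_pi_univ]; exact Finset.prod_ne_zero_iff.mpr fun i _ => hD0 i
  have h5 : Nat.card N * PB.index ∣ R.index * PD.index := by
    refine (mul_dvd_mul h1 (h4.trans (mul_dvd_mul_right h2 _))).trans ?_
    rw [← mul_assoc, mul_comm J.index, h3]
  have h6 := lpN_mono p h5 (mul_ne_zero hR hPD)
  rw [lpN_mul p Nat.card_pos.ne' hB0, lpN_mul p hR hPD, index_pi_univ, index_pi_univ,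
    lpN_prod p _ _ (fun i _ => hB i), lpN_prod p _ _ (fun i _ => hD0 i)] at h6
  have h7 := Finset.sum_le_sum (s := Finset.univ) fun i _ => hL i
  rw [Finset.sum_sub_distrib]
  linarith

end Fermat.Agent.CFT.Euler
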