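import Fermat.Agent.CFT.Euler.SelmerPieces
import Fermat.Agent.CFT.Euler.SelmerCount
import Fermat.Agent.CFT.Euler.GlobalCount

/-!
The bound on a group of classes by the auxiliary primes and the local conditions.
-/

set_option autoImplicit false
set_option synthInstance.maxHeartbeats 200000
set_option maxHeartbeats 1000000
set_option linter.unusedSectionVars false
set_option linter.style.haveILetI false

noncomputable section

namespace Fermat.Agent.CFT.Euler

open ExtCitation Fermat.Agent.Arith IntermediateField Fermat.Agent.CFT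
open Fermat.Agent.CFT.Local Fermat.Agent.CFT.Idele Fermat.Agent.CFT.Duality

local instance factPrimeEulerSelmer (q : Nat.Primes) : Fact (q : ℕ).Prime := ⟨q.2⟩

variable {p : ℕ} [hp : Fact p.Prime]

/-- Extension of a functional killing a subgroup which meets the domain trivially. -/
theorem exists_extend_functional {M : Type} [AddCommGroup M] (hM : ∀ x : M, p • x = 0)
    (W Cb : AddSubgroup M) (h : ∀ x ∈ W, x ∈ Cb → x = 0) (μ : W →+ ZMod p) :
    ∃ μ' : M →+ ZMod p, (∀ w : W, μ' w = μ w) ∧ ∀ c ∈ Cb, μ' c = 0 := by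
  letI : Module (ZMod p) (M ⧸ Cb) := AddCommGroup.zmodModule (G := M ⧸ Cb) (n := p) fun x => by
    obtain ⟨y, rfl⟩ := QuotientAddGroup.mk'_surjective Cb x
    rw [← map_nsmul, hM, map_zero]
  let π : W →+ M ⧸ Cb := (QuotientAddGroup.mk' Cb).comp W.subtype
  have hπ : Function.Injective π := (injective_iff_map_eq_zero _).mpr fun w hw =>
    Subtype.ext (h w w.2 ((QuotientAddGroup.eq_zero_iff _).mp hw))
  let e := AddMonoidHom.ofInjective hπ
  obtain ⟨L, hL⟩ := exists_extend_zmod (p := p) π.range (μ.comp e.symm.toAddMonoidHom)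
  refine ⟨L.comp (QuotientAddGroup.mk' Cb), fun w => ?_, fun c hc => ?_⟩
  · refine (hL (e w)).trans ?_
    show μ (e.symm (e w)) = μ w
    rw [AddEquiv.symm_apply_apply]
  · show L (QuotientAddGroup.mk' Cb c) = 0
    rw [show QuotientAddGroup.mk' Cb c = 0 from (QuotientAddGroup.eq_zero_iff _).mpr hc, map_zero]

/-- Functionals killing a subgroup are at most as many as its index. -/
theorem card_dvd_of_vanish {M : Type} [AddCommGroup M] [Finite M] (hM : ∀ x : M, p • x = 0)
    (W' : AddSubgroup M) (R : AddSubgroup (M →+ ZMod p)) (hR : ∀ f ∈ R, ∀ x ∈ W', f x = 0) :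
    Nat.card R ∣ W'.index := by
  have hQ : ∀ x : M ⧸ W', p • x = 0 := fun x => by
    obtain ⟨y, rfl⟩ := QuotientAddGroup.mk'_surjective W' x
    rw [← map_nsmul, hM, map_zero]
  let j : R →+ (M ⧸ W' →+ ZMod p) := AddMonoidHom.mk'
    (fun f => QuotientAddGroup.lift W' f.1 fun x hx => hR f.1 f.2 x hx)
    fun f g => AddMonoidHom.ext fun x => by
      obtain ⟨y, rfl⟩ := QuotientAddGroup.mk'_surjective W' x
      rfl
  have hj : Function.Injective j := fun f g hfg => Subtype.ext (AddMonoidHom.ext fun x =>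
    DFunLike.congr_fun hfg (x : M ⧸ W'))
  refine (AddSubgroup.card_dvd_of_injective j hj).trans (dvd_of_eq ?_)
  rw [card_dual hQ]
  rfl

variable {K : IntermediateField ℚ QBar} [FiniteDimensional ℚ K] [Normal ℚ K] {A ι : Type}
  [AddCommGroup A] [DistribMulAction (K ≃ₐ[ℚ] K) A] [Fintype ι]
  {L : IntermediateField ℚ QBar} [FiniteDimensional ℚ L] [Normal ℚ L]

/-- The classes which are coboundaries on the decomposition group at `q`. -/
def locCobd (h : K ≤ L) (q : Nat.Primes) : AddSubgroup (levelCocycles (levelRes h) A) where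
  carrier := {a | ∃ x : A, ∀ g ∈ decomp L q,
    (a : (L ≃ₐ[ℚ] L) → A) g = levelRes h g • x - x}
  add_mem' := by
    rintro a b ⟨x, hx⟩ ⟨y, hy⟩
    refine ⟨x + y, fun g hg => ?_⟩
    show (a : (L ≃ₐ[ℚ] L) → A) g + (b : (L ≃ₐ[ℚ] L) → A) g = _
    rw [hx g hg, hy g hg, smul_add]
    abel
  zero_mem' := ⟨0, fun g _ => by rw [smul_zero, sub_zero]; rfl⟩
  neg_mem' := by
    rintro a ⟨x, hx⟩
    refine ⟨-x, fun g hg => ?_⟩
    show -(a : (L ≃ₐ[ℚ] L) → A) g = _
    rw [hx g hg, smul_neg]
    abel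

/-- The coboundaries. -/
def cobdSub (h : K ≤ L) : AddSubgroup (levelCocycles (levelRes h) A) where
  carrier := {a | ∃ x : A, ∀ g, (a : (L ≃ₐ[ℚ] L) → A) g = levelRes h g • x - x}
  add_mem' := by
    rintro a b ⟨x, hx⟩ ⟨y, hy⟩
    refine ⟨x + y, fun g => ?_⟩
    show (a : (L ≃ₐ[ℚ] L) → A) g + (b : (L ≃ₐ[ℚ] L) → A) g = _
    rw [hx g, hy g, smul_add]
    abel
  zero_mem' := ⟨0, fun g => by rw [smul_zero, sub_zero]; rfl⟩
  neg_mem' := by
    rintro a ⟨x, hx⟩
    refine ⟨-x, fun g => ?_⟩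
    show -(a : (L ≃ₐ[ℚ] L) → A) g = _
    rw [hx g, smul_neg]
    abel

variable {T T₁ Q : Finset Nat.Primes} {ε : CFT.Lat (K ≃ₐ[ℚ] K) ι →+ A} (hε : Presentation p ε)

/-- A family of semilocal maps as a map into ideles. -/
def semiFam : (∀ v : T, equivHom (C := SemiLoc K v) hε.isStable_ker) →+
    equivHom (C := J K) hε.isStable_ker :=
  AddMonoidHom.mk'
    (fun w => ⟨(semiIdl K T).comp (AddMonoidHom.pi fun v => (w v).1), fun g s => by
      show semiIdl K T (fun v => (w v).1 _) = g • semiIdl K T (fun v => (w v).1 s)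
      rw [← semiIdl_smul]
      exact congrArg _ (funext fun v => (w v).2 g s)⟩)
    fun w w' => Subtype.ext (AddMonoidHom.ext fun s =>
      (semiIdl K T).map_add (fun v => (w v).1 s) (fun v => (w' v).1 s))

theorem semiFam_single [DecidableEq T] (v : T) (z : equivHom (C := SemiLoc K v) hε.isStable_ker)
    (s : ε.ker) :
    (semiFam hε (Pi.single v z)).1 s ∈ supportedIn K ({(v : Nat.Primes)} : Set Nat.Primes) :=
  fun q hq σ => by
    show val (semiIdl K T fun v' => ((Pi.single v z :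
      ∀ v : T, equivHom (C := SemiLoc K v) hε.isStable_ker) v').1 s).toMul q σ = 1
    by_cases hqT : q ∈ T
    · rw [val_semiIdl_mem K T _ q hqT]
      have e0 : (Pi.single v z : ∀ v : T, equivHom (C := SemiLoc K v) hε.isStable_ker) ⟨q, hqT⟩ = 0 :=
        Pi.single_eq_of_ne (M := fun v : T => equivHom (C := SemiLoc K v) hε.isStable_ker)
          (show (⟨q, hqT⟩ : T) ≠ v from fun e => hq (congrArg Subtype.val e)) z
      refine (congrArg (fun F : equivHom (C := SemiLoc K q) hε.isStable_ker =>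
        ((toLoc K q).symm (CoInd.fn (F.1 s) σ)).toMul) e0).trans ?_
      show ((toLoc K q).symm (CoInd.fn (0 : SemiLoc K q) σ)).toMul = 1
      rw [map_zero CoInd.fn, Pi.zero_apply, map_zero, toMul_zero]
    · exact val_semiIdl_notMem K T _ q hqT σ

variable [Fintype (K ≃ₐ[ℚ] K)] (h : K ≤ L) {uL : NormCocycle (L ≃ₐ[ℚ] L) (C L)}
  (huL : IsClassFormation p uL) (hk : IsPGroup p (levelRes h).ker)
  (W : AddSubgroup (levelCocycles (levelRes h) A))

/-- The duality map, evaluated on a group of classes. -/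
def dualOn : equivHom (C := C K) hε.isStable_ker →+ (W →+ ZMod p) :=
  AddMonoidHom.mk' (fun f => (dual hε h huL hk f).comp W.subtype) fun f f' => by
    rw [map_add, AddMonoidHom.add_comp]

theorem dualOn_apply (f : equivHom (C := C K) hε.isStable_ker) (w : W) :
    dualOn hε h huL hk W f w = dual hε h huL hk f (w : levelCocycles (levelRes h) A) := rfl

attribute [local irreducible] dual dualOn

theorem dualOn_surjective (hM : ∀ a : levelCocycles (levelRes h) A, p • a = 0)
    (hW : ∀ a ∈ W, a ∈ cobdSub h → a = 0) : Function.Surjective (dualOn hε h huL hk W) := fun μ => by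
  obtain ⟨μ', h1, h2⟩ := exists_extend_functional hM W (cobdSub h) hW μ
  obtain ⟨f, hf⟩ := exists_dual_eq hε h huL hk μ' fun a x hx => h2 a ⟨x, hx⟩
  exact ⟨f, AddMonoidHom.ext fun w => by rw [dualOn_apply, hf]; exact h1 w⟩

theorem dualOn_eq_zero_of_ext (hT : T₁.Nonempty) (hLur : ∀ q ∉ T₁, inertia (E L q) = ⊥)
    (s : equivHom (C := C K) hε.isStable_ker)
    (hs : postHom hε.isStable_ker (toClassMod K T₁) (toClassMod_smul K T₁) s ∈
      ((latPres hε).res (ClassMod K T₁)).range) : dualOn hε h huL hk W s = 0 :=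
  AddMonoidHom.ext fun w => by
    rw [dualOn_apply, dual_eq_zero_of_ext hε h huL hk hT hLur s hs]
    rfl

/-- The duality map on semilocal maps at one prime. -/
def localDual [DecidableEq T] (v : T) :
    equivHom (C := SemiLoc K v) hε.isStable_ker →+ (W →+ ZMod p) :=
  (dualOn hε h huL hk W).comp ((projHom hε).comp ((semiFam hε).comp (AddMonoidHom.single
    (fun v : T => equivHom (C := SemiLoc K v) hε.isStable_ker) v)))

theorem card_localDual_dvd [DecidableEq T] [Finite W] (hW' : ∀ a : W, p • a = 0) (v : T) :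
    Nat.card (localDual hε h huL hk W v).range ∣
      (locCobd h (v : Nat.Primes)).relIndex W := by
  refine card_dvd_of_vanish hW' ((locCobd h (v : Nat.Primes)).addSubgroupOf W) _ ?_
  rintro _ ⟨z, rfl⟩ a ha
  show dualOn hε h huL hk W (projHom hε (semiFam hε (Pi.single v z))) a = 0
  rw [dualOn_apply]
  exact dual_supported hε h huL hk (v : Nat.Primes) _
    (fun s => semiFam_single hε v z s) (a : levelCocycles (levelRes h) A)
    (show (a : levelCocycles (levelRes h) A) ∈ locCobd h (v : Nat.Primes) from ha)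

variable [Fintype (infStab K)]
  [∀ q : T, Fintype (decomp K (q : Nat.Primes))] [∀ q : Q, Fintype (decomp K (q : Nat.Primes))]

/-- Families of local maps whose classes extend have local extensions. -/
theorem mem_range_of_lam (hQ : ∀ q, q ∈ T₁ ↔ q ∈ T ∨ q ∈ Q) (hd : ∀ q ∈ Q, q ∉ T)
    (hgen : ∀ f : J K, ∃ a : Additive Kˣ, ∀ q ∉ T, ∀ σ,
      val (f + diag K a).toMul q σ ∈ unitGroup (E K q))
    (hdetect : ∀ w : equivHom (C := TUnits K T) hε.isStable_ker,
      (∀ q : Q, ∃ Y : equivHom (C := LocUnits K q)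
          ((latPres hε).restrict (decomp K (q : Nat.Primes))).hK,
        ∀ s : ε.ker, Y.1 (AddSubgroup.inclusion (latPres hε).le s) =
          tLoc (q : Nat.Primes) (w.1 s)) →
      w ∈ ((latPres hε).res (TUnits K T)).range)
    (w : ∀ v : T, equivHom (C := SemiLoc K v) hε.isStable_ker)
    (hw : postHom hε.isStable_ker (toClassMod K T₁) (toClassMod_smul K T₁)
      (projHom hε (semiFam hε w)) ∈ ((latPres hε).res (ClassMod K T₁)).range) :
    ∀ v : T, w v ∈ ((latPres hε).res (SemiLoc K v)).range := by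
  obtain ⟨Y, hY⟩ := hw
  obtain ⟨u₀, hu₀, hQu⟩ := exists_tUnit_of_class hQ hd (latPres hε)
    (fun x => AddSubgroup.mem_top x) hgen w Y fun s =>
      DFunLike.congr_fun (congrArg Subtype.val hY) s
  exact hu₀ (hdetect u₀ hQu)

omit [Fintype (infStab K)] in
/-- Local families are killed when each component is. -/
theorem dualOn_lam_eq_zero [DecidableEq T]
    (w : ∀ v : T, equivHom (C := SemiLoc K v) hε.isStable_ker)
    (hw : ∀ v, w v ∈ (localDual hε h huL hk W v).ker) :
    dualOn hε h huL hk W (projHom hε (semiFam hε w)) = 0 := by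
  rw [← Finset.univ_sum_single w, map_sum, map_sum, map_sum]
  exact Finset.sum_eq_zero fun v _ => hw v

include huL hk in
/-- The count at the level. -/
theorem selmer_level [Finite A] (hA : ∀ a : A, p • a = 0) (hp2 : p ≠ 2)
    (hC₁ : ModPFinite p (ClassMod K T₁)) (hT₁ : T₁.Nonempty)
    (hQ : ∀ q, q ∈ T₁ ↔ q ∈ T ∨ q ∈ Q) (hd : ∀ q ∈ Q, q ∉ T)
    (hgen : ∀ f : J K, ∃ a : Additive Kˣ, ∀ q ∉ T, ∀ σ,
      val (f + diag K a).toMul q σ ∈ unitGroup (E K q))
    (hLur : ∀ q ∉ T₁, inertia (E L q) = ⊥) (hW : ∀ a ∈ W, a ∈ cobdSub h → a = 0)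
    (hdetect : ∀ w : equivHom (C := TUnits K T) hε.isStable_ker,
      (∀ q : Q, ∃ Y : equivHom (C := LocUnits K q)
          ((latPres hε).restrict (decomp K (q : Nat.Primes))).hK,
        ∀ s : ε.ker, Y.1 (AddSubgroup.inclusion (latPres hε).le s) =
          tLoc (q : Nat.Primes) (w.1 s)) →
      w ∈ ((latPres hε).res (TUnits K T)).range) :
    lpN p (Nat.card W) + ∑ v : T, (((latPres hε).restrict (decomp K (v : Nat.Primes))).xLp
      (LocUnits K v) - lpN p ((locCobd h (v : Nat.Primes)).relIndex W)) ≤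
        (latPres hε).xLp (ClassMod K T₁) := by
  classical
  have hM : ∀ a : levelCocycles (levelRes h) A, p • a = 0 := fun a =>
    Subtype.ext (funext fun g => hA _)
  have hW' : ∀ a : W, p • a = 0 := fun a => Subtype.ext (hM a.1)
  haveI : Finite (levelCocycles (levelRes h) A) :=
    Finite.of_injective (fun a => (a : (L ≃ₐ[ℚ] L) → A)) Subtype.val_injective
  haveI : Finite (W →+ ZMod p) := finite_dual
  have hcount := selmer_count p (dualOn hε h huL hk W) (dualOn_surjective hε h huL hk W hM hW)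
    (postHom hε.isStable_ker (toClassMod K T₁) (toClassMod_smul K T₁))
    ((latPres hε).res (ClassMod K T₁)).range ((latPres hε).finiteIndexHom hC₁).index
    (fun s hs => dualOn_eq_zero_of_ext hε h huL hk W hT₁ hLur s hs)
    ((projHom hε).comp (semiFam hε))
    (fun v : T => ((latPres hε).res (SemiLoc K v)).range)
    (fun v => ((latPres hε).finiteIndexHom (semiLoc_modPFinite K hp2 (v : Nat.Primes))).index)
    (fun w hw => mem_range_of_lam hε hQ hd hgen hdetect w hw)
    (fun v => (localDual hε h huL hk W v).ker)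
    (fun w hw => dualOn_lam_eq_zero hε h huL hk W w hw)
    (fun v => by
      show (localDual hε h huL hk W v).ker.index ≠ 0
      rw [AddSubgroup.index_ker]
      exact Nat.card_pos.ne')
    (fun v => lpN p ((locCobd h (v : Nat.Primes)).relIndex W))
    (fun v => by
      show lpN p (localDual hε h huL hk W v).ker.index ≤ _
      rw [AddSubgroup.index_ker]
      exact lpN_mono p (card_localDual_dvd hε h huL hk W hW' v) AddSubgroup.index_ne_zero_of_finite)
  rw [card_dual hW'] at hcount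
  refine le_trans (le_of_eq ?_) hcount
  refine congrArg (fun z => lpN p (Nat.card W) + z) (Finset.sum_congr rfl fun v _ => ?_)
  refine congrArg (fun z => z - lpN p ((locCobd h (v : Nat.Primes)).relIndex W)) ?_
  exact ((latPres hε).xLp_coInd (H := decomp K (v : Nat.Primes)) (N := LocUnits K v)).symm

include huL hk in
/-- **The Selmer bound.** -/
theorem selmer_bound [Finite A] (hA : ∀ a : A, p • a = 0) (hp2 : p ≠ 2)
    {ζ : QBar} (hζ : IsPrimitiveRoot ζ p) (hζK : ζ ∈ K) (hfix : fixPts (K ≃ₐ[ℚ] K) A = ⊥)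
    (hvan : TUnitsH1Zero K T A) (d : ℤ) (hd' : d ≤ lpN p (Nat.card (fixDual p (infStab K) A)))
    (hpT : (⟨p, hp.out⟩ : Nat.Primes) ∈ T)
    (hgen : ∀ f : J K, ∃ a : Additive Kˣ, ∀ q ∉ T, ∀ σ,
      val (f + diag K a).toMul q σ ∈ unitGroup (E K q))
    (hunr : ∀ q ∉ T, inertia (E K q) = ⊥)
    (hQ : ∀ q, q ∈ T₁ ↔ q ∈ T ∨ q ∈ Q) (hd : ∀ q ∈ Q, q ∉ T)
    (hQp : ∀ q ∈ Q, (q : ℕ) ≠ p) (hQ1 : ∀ q ∈ Q, p ∣ (q : ℕ) - 1)
    (hQfix : ∀ q ∈ Q, lpN p (Nat.card (fixPts (decomp K q) A)) ≤ d)
    (hC : StepAxioms p (K ≃ₐ[ℚ] K) (C K)) {u : NormCocycle (K ≃ₐ[ℚ] K) (C K)}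
    (hu : IsClassFormation p u) (uE : ∀ q : T, NormCocycle (decomp K (q : Nat.Primes))
      (LocUnits K q)) (hE : ∀ q, IsClassFormation p (uE q))
    (hLur : ∀ q ∉ T₁, inertia (E L q) = ⊥) (hW : ∀ a ∈ W, a ∈ cobdSub h → a = 0)
    (hdetect : ∀ w : equivHom (C := TUnits K T) hε.isStable_ker,
      (∀ q : Q, ∃ Y : equivHom (C := LocUnits K q)
          ((latPres hε).restrict (decomp K (q : Nat.Primes))).hK,
        ∀ s : ε.ker, Y.1 (AddSubgroup.inclusion (latPres hε).le s) =
          tLoc (q : Nat.Primes) (w.1 s)) →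
      w ∈ ((latPres hε).res (TUnits K T)).range) :
    lpN p (Nat.card W) + d + ∑ v : T, lpN p (Nat.card (fixPts (decomp K (v : Nat.Primes)) A)) ≤
      Fintype.card Q * d + ∑ v : T, lpN p ((locCobd h (v : Nat.Primes)).relIndex W) := by
  classical
  set X := latPres hε with hX
  have hfull : ∀ x : X.P, x ∈ X.K := fun x => AddSubgroup.mem_top x
  have hsub : T ⊆ T₁ := fun q hq => (hQ q).mpr (Or.inl hq)
  have hT : T.Nonempty := ⟨_, hpT⟩
  have hgen₁ : ∀ f : J K, ∃ a : Additive Kˣ, ∀ q ∉ T₁, ∀ σ,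
      val (f + diag K a).toMul q σ ∈ unitGroup (E K q) := fun f =>
    (hgen f).imp fun a ha q hq σ => ha q (fun h => hq (hsub h)) σ
  have hU : ModPFinite p (TUnits K T) := tUnits_modPFinite K T
  have hU₁ : ModPFinite p (TUnits K T₁) := tUnits_modPFinite K T₁
  have hC₁ : ModPFinite p (ClassMod K T₁) :=
    classMod_modPFinite K T₁ hp2 (hT.mono hsub) hgen₁ hU₁
  have hcount' := selmer_level hε h huL hk W hA hp2 hC₁ (hT.mono hsub) hQ hd hgen hLur hW hdetect
  have hQur : ∀ q ∈ Q, inertia (E K q) = ⊥ := fun q hq => hunr q (hd q hq)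
  have h1 := xLp_classMod_le (T₁ := T₁) K hQ hd X hfull hA hp2 hT hgen hU hU₁ hQur hQp hQ1
  have h2 := xLp_classMod_add_le (K := K) (T := T) hA X hfull hfix hp2 hζ hζK hpT hgen hunr hvan hC
    hu uE hE
  have h3 : ∑ q : Q, lpN p (Nat.card (fixPts (decomp K (q : Nat.Primes)) A)) ≤
      Fintype.card Q * d := by
    refine le_trans (Finset.sum_le_sum fun q _ => hQfix q q.2) (le_of_eq ?_)
    rw [Finset.sum_const, Finset.card_univ, nsmul_eq_mul]
  rw [Finset.sum_sub_distrib] at hcount'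
  linarith

end Fermat.Agent.CFT.Euler
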