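import Fermat.Agent.CFT.Euler.LevelChange
import Fermat.Agent.CFT.Euler.ExtCount
import Fermat.Agent.CFT.Euler.KummerClass
import Fermat.Agent.CFT.Duality.Main

/-!
The lattice presentation, the classes against unit families at the level, and the reduction of a
family of local maps with global extension to a map into units.
-/

set_option autoImplicit false
set_option synthInstance.maxHeartbeats 200000
set_option maxHeartbeats 1000000
set_option linter.unusedSectionVars false
set_option linter.style.haveILetI false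

noncomputable section

namespace Fermat.Agent.CFT.Euler

open ExtCitation Fermat.Agent.Arith IntermediateField Fermat.Agent.CFT
open Fermat.Agent.CFT.Local Fermat.Agent.CFT.Idele Fermat.Agent.CFT.Duality

local instance factPrimeEulerPieces (q : Nat.Primes) : Fact (q : ℕ).Prime := ⟨q.2⟩

local instance (priority := high) addCommGroupClassesPieces (L : IntermediateField ℚ QBar)
    [FiniteDimensional ℚ L] [Normal ℚ L] : AddCommGroup (C L) := inferInstance
local instance (priority := high) addGroupClassesPieces (L : IntermediateField ℚ QBar)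
    [FiniteDimensional ℚ L] [Normal ℚ L] : AddGroup (C L) := inferInstance
local instance (priority := high) addMonoidClassesPieces (L : IntermediateField ℚ QBar)
    [FiniteDimensional ℚ L] [Normal ℚ L] : AddMonoid (C L) := inferInstance
local instance (priority := high) addCommMonoidIdelesPieces (L : IntermediateField ℚ QBar)
    [FiniteDimensional ℚ L] [Normal ℚ L] : AddCommMonoid (J L) := inferInstance

theorem sub_snd_apply {M : Type*} {ι : Type*} {N : ι → Type*} [AddCommGroup M]
    [∀ i, AddCommGroup (N i)] (a : M) (y : M × (∀ i, N i)) (i : ι) : ((a, 0) - y).2 i = -y.2 i :=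
  zero_sub _

/-- A presentation by a free lattice. -/
def latPres {p : ℕ} {G : Type} [Group G] [Fintype G] {A : Type} [AddCommGroup A]
    [DistribMulAction G A] {ι : Type} [Fintype ι] {ε : Lat G ι →+ A} (hε : Presentation p ε) :
    Pres p G A where
  P := Lat G ι
  induced := Lat.isInduced
  K := ⊤
  S := ε.ker
  hK _ _ _ := AddSubgroup.mem_top _
  hS := hε.isStable_ker
  le := le_top
  level := hε.smul_mem
  π := ε.comp (⊤ : AddSubgroup (Lat G ι)).subtype
  surj a := by
    obtain ⟨x, hx⟩ := hε.surjective a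
    exact ⟨⟨x, AddSubgroup.mem_top x⟩, hx⟩
  ker _ := Iff.rfl
  equi g x := hε.map_smul g (x : Lat G ι)

/-- Every finite module killed by `p` has a lattice presentation. -/
theorem exists_presentation {p : ℕ} {G : Type} [Group G] [Fintype G] {A : Type} [AddCommGroup A]
    [DistribMulAction G A] [Fintype A] (hA : ∀ a : A, p • a = 0) :
    ∃ ε : Lat G A →+ A, Presentation p ε := by
  classical
  let ε : Lat G A →+ A := AddMonoidHom.mk' (fun f => ∑ q : A × G, f q • (q.2 • q.1)) fun f f' => by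
    rw [← Finset.sum_add_distrib]
    exact Finset.sum_congr rfl fun q _ => by rw [Lat.add_apply, add_smul]
  refine ⟨ε, fun a => ⟨Lat.e a 1, ?_⟩, fun g f => ?_, hA⟩
  · show ∑ q : A × G, Lat.e a 1 q • (q.2 • q.1) = a
    rw [Finset.sum_eq_single (a, (1 : G)) (fun q _ hq => by rw [Lat.e_apply, if_neg hq, zero_smul])
      fun h => absurd (Finset.mem_univ _) h, Lat.e_apply, if_pos rfl, one_smul, one_smul]
  · show ∑ q : A × G, (g • f) q • (q.2 • q.1) = g • ∑ q : A × G, f q • (q.2 • q.1)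
    rw [Finset.smul_sum]
    refine Fintype.sum_equiv (Equiv.prodCongr (Equiv.refl A) (Equiv.mulLeft g⁻¹)) _ _ fun q => ?_
    rw [Lat.smul_apply]
    show f (q.1, g⁻¹ * q.2) • (q.2 • q.1) = g • (f (q.1, g⁻¹ * q.2) • ((g⁻¹ * q.2) • q.1))
    rw [smul_comm g, ← mul_smul g, mul_inv_cancel_left]

variable (K : IntermediateField ℚ QBar) [FiniteDimensional ℚ K] [Normal ℚ K]
  (T T₁ Q : Finset Nat.Primes)

/-- Semilocal values at `T` and semilocal units at `Q`, as classes at the level `T₁`. -/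
def selMap : ((∀ q : T, SemiLoc K q) ×
    (∀ q : Q, CoInd (decomp K (q : Nat.Primes)) (LocUnit K q))) →+ ClassMod K T₁ :=
  (toClassMod K T₁).comp ((proj K).comp
    ((semiIdl K T).coprod ((semiIdl K Q).comp (unitIncl K Q))))

theorem selMap_apply (F : (∀ q : T, SemiLoc K q) ×
    (∀ q : Q, CoInd (decomp K (q : Nat.Primes)) (LocUnit K q))) :
    selMap K T T₁ Q F =
      toClassMod K T₁ (proj K (semiIdl K T F.1)) + unitClass K T₁ Q F.2 := by
  show toClassMod K T₁ (proj K (semiIdl K T F.1 + semiIdl K Q (unitIncl K Q F.2))) = _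
  rw [map_add, map_add]
  rfl

theorem selMap_smul (g : K ≃ₐ[ℚ] K) (F : (∀ q : T, SemiLoc K q) ×
    (∀ q : Q, CoInd (decomp K (q : Nat.Primes)) (LocUnit K q))) :
    selMap K T T₁ Q (g • F) = g • selMap K T T₁ Q F := by
  rw [selMap_apply, selMap_apply, smul_add, Prod.smul_fst, Prod.smul_snd, unitClass_smul,
    semiIdl_smul, proj_smul, toClassMod_smul]

variable {K T T₁ Q} (hQ : ∀ q, q ∈ T₁ ↔ q ∈ T ∨ q ∈ Q) (hd : ∀ q ∈ Q, q ∉ T)

include hQ hd in
theorem selMap_surjective (hgen : ∀ f : J K, ∃ a : Additive Kˣ, ∀ q ∉ T, ∀ σ,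
      val (f + diag K a).toMul q σ ∈ unitGroup (E K q)) :
    Function.Surjective (selMap K T T₁ Q) := fun y => by
  have hsub : T ⊆ T₁ := fun q hq => (hQ q).mpr (Or.inl hq)
  obtain ⟨F, hF⟩ := semiProj_surjective K T hgen (classProj K T T₁ hsub y)
  obtain ⟨G, hG⟩ := exists_unitClass_eq K hQ hd hsub
    (y - toClassMod K T₁ (proj K (semiIdl K T F))) (by
      rw [map_sub, sub_eq_zero, ← hF]
      rfl)
  exact ⟨(F, G), by rw [selMap_apply, hG]; exact add_sub_cancel _ _⟩

include hQ hd in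
theorem exists_selMap_ker (F : (∀ q : T, SemiLoc K q) ×
    (∀ q : Q, CoInd (decomp K (q : Nat.Primes)) (LocUnit K q))) (h : selMap K T T₁ Q F = 0) :
    ∃ x : TUnits K T, tDiag K T x = F.1 ∧
      ∀ q : Q, tLoc (q : Nat.Primes) x = LocUnit.incl K q (CoInd.ev (F.2 q)) := by
  obtain ⟨w, hw, hpw⟩ := (toClassMod_eq_zero_iff K T₁ _).mp h
  obtain ⟨a, ha⟩ := (proj_eq_zero_iff K).mp (show proj K
      (((semiIdl K T).coprod ((semiIdl K Q).comp (unitIncl K Q))) F - w) = 0 by
    rw [map_sub, hpw]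
    exact sub_self _)
  have ha' : diag K (Additive.ofMul a) =
      semiIdl K T F.1 + semiIdl K Q (unitIncl K Q F.2) - w := congrArg Additive.ofMul ha
  have hval : ∀ q σ, val (diag K (Additive.ofMul a)).toMul q σ =
      val (semiIdl K T F.1).toMul q σ * val (semiIdl K Q (unitIncl K Q F.2)).toMul q σ /
        val w.toMul q σ := fun q σ => by
    rw [ha', val_toMul_sub, toMul_add, val_mul]
  have hmem : Additive.ofMul a ∈ tUnits K T := fun q hq σ => by
    rw [hval, val_semiIdl_notMem K T _ q hq, one_mul]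
    exact div_mem (semiIdl_unit_mem K Q F.2 q σ) (hw q σ).1
  refine ⟨⟨Additive.ofMul a, hmem⟩, funext fun q => CoInd.ext fun σ => ?_, fun q => ?_⟩
  · show toLoc K q (Additive.ofMul (val (diag K (Additive.ofMul a)).toMul q σ)) = CoInd.fn (F.1 q) σ
    rw [hval, (hw _ σ).2 ((hQ _).mpr (Or.inl q.2)), div_one, val_semiIdl_mem K T _ _ q.2,
      val_semiIdl_notMem K Q _ _ (fun h2 => hd _ h2 q.2), mul_one, ofMul_toMul,
      AddEquiv.apply_symm_apply]
  · have h1 := hval q 1
    rw [(hw _ 1).2 ((hQ _).mpr (Or.inr q.2)), div_one,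
      val_semiIdl_notMem K T _ _ (hd _ q.2), one_mul, val_semiIdl_mem K Q _ _ q.2] at h1
    show toLoc K q (Additive.ofMul (Units.map (localEmb ((q : Nat.Primes) : ℕ) K).toMonoidHom a)) = _
    refine (congrArg (fun v => toLoc K q (Additive.ofMul v))
      (Units.ext (val_prinL (L := K) a q 1).symm)).trans ?_
    rw [show val (prinL K a) q 1 = _ from h1, ofMul_toMul, AddEquiv.apply_symm_apply]
    rfl

variable (T Q) in
/-- The component at a prime of `Q`, negated. -/
def qComp (q : Q) : ((∀ q : T, SemiLoc K q) ×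
    (∀ q : Q, CoInd (decomp K (q : Nat.Primes)) (LocUnit K q))) →+ LocUnits K q :=
  -((LocUnit.incl K q).comp (CoInd.ev.comp
    ((Pi.evalAddMonoidHom (fun q : Q => CoInd (decomp K (q : Nat.Primes)) (LocUnit K q)) q).comp
      (AddMonoidHom.snd _ _))))

theorem qComp_apply (q : Q) (F : (∀ q : T, SemiLoc K q) ×
    (∀ q : Q, CoInd (decomp K (q : Nat.Primes)) (LocUnit K q))) :
    qComp T Q q F = -LocUnit.incl K q (CoInd.ev (F.2 q)) := rfl

theorem incl_ev_neg (q : Nat.Primes) (z : CoInd (decomp K q) (LocUnit K q)) :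
    LocUnit.incl K q (CoInd.ev (-z)) = -LocUnit.incl K q (CoInd.ev z) :=
  ((LocUnit.incl K q).comp (CoInd.ev (H := decomp K q) (N := LocUnit K q))).map_neg z

theorem qComp_smul (q : Q) (d : decomp K (q : Nat.Primes)) (F : (∀ q : T, SemiLoc K q) ×
    (∀ q : Q, CoInd (decomp K (q : Nat.Primes)) (LocUnit K q))) :
    qComp T Q q ((d : K ≃ₐ[ℚ] K) • F) = d • qComp T Q q F := by
  rw [qComp_apply, qComp_apply, Prod.smul_snd, Pi.smul_apply, CoInd.ev_smul_mem,
    LocUnit.incl_smul, smul_neg]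

variable [Fintype (K ≃ₐ[ℚ] K)] {p : ℕ} {A : Type} [AddCommGroup A]
  [DistribMulAction (K ≃ₐ[ℚ] K) A]

/-- Composing an equivariant map with a map equivariant for a subgroup. -/
theorem exists_restrict_comp (X : Pres p (K ≃ₐ[ℚ] K) A) (H : Subgroup (K ≃ₐ[ℚ] K)) [Fintype H]
    {M N : Type} [AddCommGroup M] [DistribMulAction (K ≃ₐ[ℚ] K) M] [AddCommGroup N]
    [DistribMulAction H N] (i : M →+ N) (hi : ∀ (h : H) (m : M), i ((h : K ≃ₐ[ℚ] K) • m) = h • i m)
    (Y : equivHom (C := M) X.hK) :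
    ∃ Y' : equivHom (C := N) (X.restrict H).hK,
      ∀ s : X.S, Y'.1 (AddSubgroup.inclusion X.le s) = i (Y.1 (AddSubgroup.inclusion X.le s)) :=
  ⟨⟨i.comp Y.1, fun d x => (congrArg i (Y.2 (d : K ≃ₐ[ℚ] K) x)).trans (hi d _)⟩, fun _ => rfl⟩

/-- The component at a prime of `Q` of a lift. -/
theorem exists_qExt (X : Pres p (K ≃ₐ[ℚ] K) A) (q : Q) [Fintype (decomp K (q : Nat.Primes))]
    (Y₀ : equivHom (C := ((∀ q : T, SemiLoc K q) ×
      (∀ q : Q, CoInd (decomp K (q : Nat.Primes)) (LocUnit K q)))) X.hK) :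
    ∃ Y' : equivHom (C := LocUnits K q) (X.restrict (decomp K (q : Nat.Primes))).hK,
      ∀ s : X.S, Y'.1 (AddSubgroup.inclusion X.le s) =
        qComp T Q q (Y₀.1 (AddSubgroup.inclusion X.le s)) := by
  exact exists_restrict_comp X (decomp K (q : Nat.Primes)) (qComp (K := K) T Q q) (qComp_smul q) Y₀

include hQ hd in
/-- Local maps with a global extension come from a map into units. -/
theorem exists_tUnit_of_class [∀ q : T, Fintype (decomp K (q : Nat.Primes))]
    [∀ q : Q, Fintype (decomp K (q : Nat.Primes))] (X : Pres p (K ≃ₐ[ℚ] K) A)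
    (hfull : ∀ x : X.P, x ∈ X.K)
    (hgen : ∀ f : J K, ∃ a : Additive Kˣ, ∀ q ∉ T, ∀ σ,
      val (f + diag K a).toMul q σ ∈ unitGroup (E K q))
    (w : ∀ q : T, equivHom (C := SemiLoc K q) X.hS)
    (Y : equivHom (C := ClassMod K T₁) X.hK)
    (hY : ∀ s : X.S, Y.1 (AddSubgroup.inclusion X.le s) =
      toClassMod K T₁ (proj K (semiIdl K T fun q => (w q).1 s))) :
    ∃ u : equivHom (C := TUnits K T) X.hS,
      (u ∈ (X.res (TUnits K T)).range → ∀ q : T, w q ∈ (X.res (SemiLoc K q)).range) ∧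
      ∀ q : Q, ∃ Y' : equivHom (C := LocUnits K q) (X.restrict (decomp K (q : Nat.Primes))).hK,
        ∀ s : X.S, Y'.1 (AddSubgroup.inclusion X.le s) = tLoc (q : Nat.Primes) (u.1 s) := by
  refine (X.exists_lift hfull (selMap K T T₁ Q) (selMap_smul K T T₁ Q)
    (selMap_surjective hQ hd hgen) Y).elim fun Y₀ hY₀ => ?_
  let F : X.S → (∀ q : T, SemiLoc K q) ×
      (∀ q : Q, CoInd (decomp K (q : Nat.Primes)) (LocUnit K q)) := fun s =>
    ((fun q => (w q).1 s), 0) - Y₀.1 (AddSubgroup.inclusion X.le s)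
  have hF : ∀ s, selMap K T T₁ Q (F s) = 0 := fun s => by
    rw [map_sub, sub_eq_zero, selMap_apply, map_zero, add_zero]
    exact ((DFunLike.congr_fun (congrArg Subtype.val hY₀) _).trans (hY s)).symm
  choose φ hφ hφQ using fun s => exists_selMap_ker hQ hd (F s) (hF s)
  refine (Finset.eq_empty_or_nonempty T).elim (fun hT₀ => ?_) fun h₀ => h₀.elim fun q₀ hq₀ => ?_
  · refine ⟨0, fun _ q => (Finset.eq_empty_iff_forall_notMem.mp hT₀ _ q.2).elim,
      fun q => ⟨0, fun s => ?_⟩⟩
    exact (map_zero (tLoc (q : Nat.Primes))).symm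
  · have hinj := tDiag_injective K T ⟨q₀, hq₀⟩
    have hFadd : ∀ s t, (F (s + t)).1 = (F s).1 + (F t).1 := fun s t => by
      show (fun q => (w q).1 (s + t)) - (Y₀.1 (AddSubgroup.inclusion X.le (s + t))).1 = _
      rw [map_add (AddSubgroup.inclusion X.le), map_add Y₀.1, Prod.fst_add]
      show _ = ((fun q => (w q).1 s) - (Y₀.1 _).1) + ((fun q => (w q).1 t) - (Y₀.1 _).1)
      funext q
      simp only [Pi.sub_apply, Pi.add_apply, map_add]
      abel
    let u₀ : X.S →+ TUnits K T := AddMonoidHom.mk' φ fun s t => hinj (by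
      rw [map_add, hφ, hφ, hφ, hFadd])
    have hu : IsEquivariantOn X.hS u₀ := fun g s => hinj (by
      show tDiag K T (φ _) = tDiag K T (g • φ s)
      rw [tDiag_smul, hφ, hφ]
      show (fun q => (w q).1 (smulS X.hS g s)) -
        (Y₀.1 (AddSubgroup.inclusion X.le (smulS X.hS g s))).1 = g • (F s).1
      rw [show AddSubgroup.inclusion X.le (smulS X.hS g s) =
        smulS X.hK g (AddSubgroup.inclusion X.le s) from rfl, Y₀.2, Prod.smul_fst]
      funext q
      show (w q).1 (smulS X.hS g s) - g • _ = g • ((w q).1 s - _)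
      rw [(w q).2, smul_sub])
    refine ⟨⟨u₀, hu⟩, fun hu' q => ?_, fun q => ?_⟩
    · obtain ⟨Yu, hYu⟩ := hu'
      refine ⟨postHom X.hK ((Pi.evalAddMonoidHom (fun q : T => SemiLoc K q) q).comp (tDiag K T))
          (fun g x => congrFun (tDiag_smul K T g x) q) Yu +
        postHom X.hK ((Pi.evalAddMonoidHom (fun q : T => SemiLoc K q) q).comp
          (AddMonoidHom.fst _ _)) (fun g x => rfl) Y₀, Subtype.ext (AddMonoidHom.ext fun s => ?_)⟩
      show tDiag K T (Yu.1 (AddSubgroup.inclusion X.le s)) q +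
        (Y₀.1 (AddSubgroup.inclusion X.le s)).1 q = (w q).1 s
      rw [show Yu.1 (AddSubgroup.inclusion X.le s) = φ s from
        DFunLike.congr_fun (congrArg Subtype.val hYu) s, hφ]
      exact sub_add_cancel _ _
    · refine (exists_qExt (K := K) (T := T) (Q := Q) X q Y₀).imp fun Y' hY' s => (hY' s).trans ?_
      show qComp T Q q (Y₀.1 (AddSubgroup.inclusion X.le s)) = tLoc (q : Nat.Primes) (φ s)
      rw [hφQ, qComp_apply]
      have e : (F s).2 q = -(Y₀.1 (AddSubgroup.inclusion X.le s)).2 q := sub_snd_apply _ _ q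
      rw [e]
      exact (incl_ev_neg _ _).symm

theorem exists_preimage_of_eq (c c' : C K) (h : toClassMod K T₁ c' = toClassMod K T₁ c) :
    ∃ x : unitsOff K (T₁ : Set Nat.Primes),
      ((proj K).comp (unitsOff K (T₁ : Set Nat.Primes)).subtype) x = c - c' := by
  obtain ⟨x, hx, hpx⟩ := (toClassMod_eq_zero_iff K T₁ (c - c')).mp
    ((AddMonoidHom.map_sub (toClassMod K T₁) c c').trans (sub_eq_zero.mpr h.symm))
  exact ⟨⟨x, hx⟩, hpx⟩

/-- Maps into classes which extend modulo unit families are extensions plus unit families. -/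
theorem exists_split_of_ext (X : Pres p (K ≃ₐ[ℚ] K) A) (hfull : ∀ x : X.P, x ∈ X.K)
    (hT : T₁.Nonempty) (f : equivHom (C := C K) X.hS)
    (hf : postHom X.hS (toClassMod K T₁) (toClassMod_smul K T₁) f ∈
      (X.res (ClassMod K T₁)).range) :
    ∃ (Y₀ : equivHom (C := C K) X.hK)
      (w : equivHom (C := unitsOff K (T₁ : Set Nat.Primes)) X.hS),
      f = X.res (C K) Y₀ + postHom X.hS ((proj K).comp (unitsOff K (T₁ : Set Nat.Primes)).subtype)
        (fun g x => proj_smul K g x) w := by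
  obtain ⟨Y, hY⟩ := hf
  refine (X.exists_lift hfull (toClassMod K T₁)
    (toClassMod_smul K T₁) (fun c => QuotientAddGroup.mk_surjective c) Y).elim fun Y₀ hY₀ => ?_
  refine (exists_postHom_eq X.hS
    ((proj K).comp (unitsOff K (T₁ : Set Nat.Primes)).subtype) (fun g x => proj_smul K g x)
    (proj_unitsOff_injective K T₁ hT) (f - X.res (C K) Y₀) fun s => by
      exact exists_preimage_of_eq (f.1 s) (Y₀.1 (AddSubgroup.inclusion X.le s))
        ((DFunLike.congr_fun (congrArg Subtype.val hY₀) _).trans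
          (DFunLike.congr_fun (congrArg Subtype.val hY) s))).elim fun w hw => ?_
  exact ⟨Y₀, w, (add_sub_cancel (X.res (C K) Y₀) f).symm.trans
    (congrArg (fun z => X.res (C K) Y₀ + z) hw.symm)⟩

/-- Extensions are killed by the duality map. -/
theorem dual_res_eq_zero [hp : Fact p.Prime] {ι : Type} [Fintype ι]
    {ε : Lat (K ≃ₐ[ℚ] K) ι →+ A} (hε : Presentation p ε) {L : IntermediateField ℚ QBar}
    [FiniteDimensional ℚ L] [Normal ℚ L] (h : K ≤ L) {uL : NormCocycle (L ≃ₐ[ℚ] L) (C L)}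
    (hu : IsClassFormation p uL) (hk : IsPGroup p (levelRes h).ker)
    (f₁ : equivHom (C := C K) hε.isStable_ker) (e : Lat (K ≃ₐ[ℚ] K) ι →+ C K)
    (he : ∀ (g : K ≃ₐ[ℚ] K) x, e (g • x) = g • e x) (hfe : ∀ s : ε.ker, f₁.1 s = e s) :
    dual hε h hu hk f₁ = 0 :=
  theta_eq_zero_of_ext (levelSystem h hu hk) hε f₁ e he hfe

/-- Maps into classes which extend modulo unit families are killed by the duality map. -/
theorem dual_eq_zero_of_ext [hp : Fact p.Prime] {ι : Type} [Fintype ι]
    {ε : Lat (K ≃ₐ[ℚ] K) ι →+ A} (hε : Presentation p ε) {L : IntermediateField ℚ QBar}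
    [FiniteDimensional ℚ L] [Normal ℚ L] (h : K ≤ L) {uL : NormCocycle (L ≃ₐ[ℚ] L) (C L)}
    (hu : IsClassFormation p uL) (hk : IsPGroup p (levelRes h).ker) (hT : T₁.Nonempty)
    (hL : ∀ q ∉ T₁, inertia (E L q) = ⊥) (f : equivHom (C := C K) hε.isStable_ker)
    (hf : postHom hε.isStable_ker (toClassMod K T₁) (toClassMod_smul K T₁) f ∈
      ((latPres hε).res (ClassMod K T₁)).range) :
    dual hε h hu hk f = 0 := by
  refine (exists_split_of_ext (latPres hε) (fun x => AddSubgroup.mem_top x) hT f hf).elim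
    fun Y₀ h₀ => h₀.elim fun w hfw => ?_
  let toTop : Lat (K ≃ₐ[ℚ] K) ι →+ (latPres hε).K :=
    AddMonoidHom.mk' (fun x => (⟨x, AddSubgroup.mem_top x⟩ : (latPres hε).K)) fun _ _ => rfl
  let e : Lat (K ≃ₐ[ℚ] K) ι →+ C K := (show (latPres hε).K →+ C K from Y₀.1).comp toTop
  have h1 : dual hε h hu hk ((latPres hε).res (C K) Y₀) = 0 :=
    dual_res_eq_zero hε h hu hk _ e (fun g x => Y₀.2 g (toTop x)) fun _ => rfl
  let w' : equivHom (C := J K) hε.isStable_ker :=
    ⟨(unitsOff K (T₁ : Set Nat.Primes)).subtype.comp w.1,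
      fun g s => congrArg Subtype.val (w.2 g s)⟩
  have h2 : dual hε h hu hk (projHom hε w') = 0 := dual_unitsOff hε h hu hk hL w' fun s => (w.1 s).2
  have h3 : f = (show equivHom (C := C K) hε.isStable_ker from (latPres hε).res (C K) Y₀) +
      projHom hε w' := hfw
  rw [h3]
  refine (map_add (dual hε h hu hk) _ _).trans ?_
  exact (congrArg₂ (· + ·) h1 h2).trans (add_zero _)

end Fermat.Agent.CFT.Euler
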