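import Fermat.Agent.CFT.Euler.Semilocal
import Fermat.Agent.CFT.Euler.Lattices
import Fermat.Agent.CFT.Idele.ClassFinite

/-!
The orders of `T`-units at the places over `T`: a map with finite cokernel.
-/

set_option autoImplicit false
set_option synthInstance.maxHeartbeats 200000
set_option linter.unusedSectionVars false
set_option linter.style.haveILetI false

noncomputable section

namespace Fermat.Agent.CFT.Euler

open ExtCitation Fermat.Agent.Arith IntermediateField Fermat.Agent.CFT
open Fermat.Agent.CFT.Local Fermat.Agent.CFT.Idele Fermat.Agent.CFT.Duality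

local instance factPrimeEulerOrd (q : Nat.Primes) : Fact (q : ℕ).Prime := ⟨q.2⟩

theorem CoInd.index_range_nsmul_trivZ_ne_zero {G : Type} [Group G] [Fintype G] (H : Subgroup G)
    {m : ℕ} (hm : m ≠ 0) :
    (nsmulAddMonoidHom m : CoInd H (TrivZ H) →+ CoInd H (TrivZ H)).range.index ≠ 0 := by
  haveI : NeZero m := ⟨hm⟩
  let φ : CoInd H (TrivZ H) →+ (G ⧸ H → ZMod m) := AddMonoidHom.mk'
    (fun F q => ((TrivZ.of.symm (CoInd.coords F q) : ℤ) : ZMod m)) fun F F' => funext fun q => by
      rw [map_add CoInd.coords, Pi.add_apply, map_add TrivZ.of.symm, Int.cast_add]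
      rfl
  have hker : φ.ker ≤ (nsmulAddMonoidHom m : CoInd H (TrivZ H) →+ _).range := by
    intro F hF
    have h : ∀ q, ∃ z : TrivZ H, m • z = CoInd.coords F q := fun q => by
      obtain ⟨z, hz⟩ := (ZMod.intCast_zmod_eq_zero_iff_dvd _ _).mp (congrFun hF q)
      exact ⟨TrivZ.of z, by
        rw [← map_nsmul, nsmul_eq_mul, ← hz, TrivZ.of.apply_symm_apply]⟩
    choose z hz using h
    refine ⟨CoInd.coords.symm z, CoInd.coords.injective ?_⟩
    show CoInd.coords (m • CoInd.coords.symm z) = CoInd.coords F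
    rw [map_nsmul, CoInd.coords.apply_symm_apply]
    exact funext hz
  intro h0
  have h1 := AddSubgroup.index_dvd_of_le hker
  rw [h0, AddSubgroup.index_ker, zero_dvd_iff] at h1
  exact Nat.card_pos.ne' h1

variable (K : IntermediateField ℚ QBar) [FiniteDimensional ℚ K] [Normal ℚ K]
  (T : Finset Nat.Primes)

/-- The order at the distinguished place over `q`, as a map to the trivial lattice. -/
def locOrd (q : Nat.Primes) : LocUnits K q →+ TrivZ (decomp K q) :=
  (TrivZ.of.toAddMonoidHom.comp (MonoidHom.toAdditiveLeft (ord (E K q)))).comp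
    (toLoc K q).symm.toAddMonoidHom

theorem locOrd_toLoc (q : Nat.Primes) (y : Additive (E K q)ˣ) :
    locOrd K q (toLoc K q y) = TrivZ.of (Multiplicative.toAdd (ord (E K q) y.toMul)) := rfl

theorem locOrd_smul (q : Nat.Primes) (h : decomp K q) (y : LocUnits K q) :
    locOrd K q (h • y) = h • locOrd K q y := by
  obtain ⟨t, rfl⟩ := (locEquiv K q).surjective h
  obtain ⟨z, rfl⟩ := (toLoc K q).surjective y
  rw [smul_toLoc, locOrd_toLoc, locOrd_toLoc, TrivZ.smul_eq]
  exact congrArg (fun n => TrivZ.of (Multiplicative.toAdd n)) (ord_algEquiv _ t z.toMul)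

/-- The orders of `T`-units. -/
def tOrd : TUnits K T →+ ∀ q : T, CoInd (decomp K q) (TrivZ (decomp K q)) :=
  (AddMonoidHom.pi fun q : T => (CoInd.map (locOrd K q) (locOrd_smul K q)).comp
    (Pi.evalAddMonoidHom (fun q : T => SemiLoc K q) q)).comp (tDiag K T)

theorem tOrd_smul (g : K ≃ₐ[ℚ] K) (x : TUnits K T) : tOrd K T (g • x) = g • tOrd K T x :=
  funext fun q => by
    show CoInd.map (locOrd K q) (locOrd_smul K q) (tDiag K T (g • x) q) = _
    rw [tDiag_smul]
    rfl

theorem fn_tOrd (x : TUnits K T) (q : T) (σ : K ≃ₐ[ℚ] K) :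
    CoInd.fn (tOrd K T x q) σ = TrivZ.of (Multiplicative.toAdd
      (ord (E K q) (val (diag K (TUnits.incl K T x)).toMul q σ))) := rfl

theorem tOrd_eq_zero_iff (x : TUnits K T) : tOrd K T x = 0 ↔
    ∀ (q : Nat.Primes) (σ : K ≃ₐ[ℚ] K),
      val (diag K (TUnits.incl K T x)).toMul q σ ∈ unitGroup (E K q) := by
  constructor
  · intro h q σ
    by_cases hq : q ∈ T
    · have e : TrivZ.of (G := decomp K q) (Multiplicative.toAdd
          (ord (E K q) (val (diag K (TUnits.incl K T x)).toMul q σ))) = 0 := by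
        rw [← fn_tOrd K T x ⟨q, hq⟩ σ, h]
        exact congrFun (map_zero CoInd.fn) σ
      exact (ord_eq_one_iff _).mp (Multiplicative.toAdd.injective
        (TrivZ.of.map_eq_zero_iff.mp e))
    · exact x.2 q hq σ
  · intro h
    refine funext fun q => CoInd.ext fun σ => ?_
    rw [fn_tOrd, (ord_eq_one_iff _).mpr (h q σ), toAdd_one, map_zero]
    exact (congrFun (map_zero CoInd.fn) σ).symm

/-- Some multiple of every point mass is the order vector of a `T`-unit. -/
theorem exists_tOrd_single (q₀ : T) : ∃ m : ℕ, m ≠ 0 ∧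
    m • Pi.single (M := fun q : T => CoInd (decomp K q) (TrivZ (decomp K q))) q₀
      (CoInd.single (TrivZ.of 1)) ∈ (tOrd K T).range := by
  classical
  obtain ⟨π, hπ⟩ := ord_surjective (E K q₀) (Multiplicative.ofAdd 1)
  haveI : Finite (idl K ⧸ (unitIdl K ⊔ (prinL K).range)) := finite_classes_mod_units
  set F : idl K := locIdl (q₀ : Nat.Primes) π
  set m := orderOf (QuotientGroup.mk F : idl K ⧸ (unitIdl K ⊔ (prinL K).range)) with hm
  have hm0 : 0 < m := by
    rw [hm]; exact orderOf_pos (G := idl K ⧸ (unitIdl K ⊔ (prinL K).range)) _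
  have hFm : F ^ m ∈ unitIdl K ⊔ (prinL K).range := by
    rw [← QuotientGroup.eq_one_iff, QuotientGroup.mk_pow, pow_orderOf_eq_one]
  obtain ⟨u, hu, _, ⟨a, rfl⟩, hua⟩ := Subgroup.mem_sup.mp hFm
  have hval : ∀ (q : Nat.Primes) (σ : K ≃ₐ[ℚ] K),
      val (prinL K a) q σ = (val u q σ)⁻¹ * val F q σ ^ m := fun q σ => by
    have e : val F q σ ^ m = val (u * prinL K a) q σ := by
      rw [hua]
      exact (map_pow (valHom q σ) F m).symm
    rw [e, val_mul, inv_mul_cancel_left]
  have hmem : Additive.ofMul a ∈ tUnits K T := fun q hq σ => by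
    show val (prinL K a) q σ ∈ _
    rw [hval, val_locIdl_of_ne _ _ (fun h : q = (q₀ : Nat.Primes) => hq (h ▸ q₀.2)), one_pow,
      mul_one]
    exact inv_mem (mem_unitIdl.mp hu q σ)
  refine ⟨m, hm0.ne', ⟨Additive.ofMul a, hmem⟩, funext fun q => CoInd.ext fun σ => ?_⟩
  rw [fn_tOrd]
  show TrivZ.of (Multiplicative.toAdd (ord (E K q) (val (prinL K a) q σ))) = _
  rw [hval, map_mul, map_inv, map_pow, (ord_eq_one_iff _).mpr (mem_unitIdl.mp hu q σ), inv_one,
    one_mul, toAdd_pow, map_nsmul, Pi.smul_apply, map_nsmul, Pi.smul_apply]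
  congr 1
  by_cases hq : q = q₀
  · subst hq
    rw [Pi.single_eq_same]
    by_cases hσ : σ ∈ decomp K q
    · rw [CoInd.fn_single_mem _ hσ, TrivZ.smul_eq]
      obtain ⟨t, rfl⟩ := hσ
      rw [val_locIdl_self, show ord (E K q) (t • π) = ord (E K q) π from ord_algEquiv _ t π, hπ]
      rfl
    · rw [CoInd.fn_single_notMem _ hσ, val_locIdl_of_notMem _ _ hσ, map_one, toAdd_one, map_zero]
  · rw [Pi.single_eq_of_ne hq, val_locIdl_of_ne _ _ (fun h => hq (Subtype.ext h)), map_one,
      toAdd_one, map_zero]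
    exact (congrFun (map_zero CoInd.fn) σ).symm

/-- The orders have finite cokernel. -/
theorem tOrd_index_ne_zero : (tOrd K T).range.index ≠ 0 := by
  classical
  choose m hm0 hm using exists_tOrd_single K T
  set M := ∏ q : T, m q with hM
  have hM0 : M ≠ 0 := Finset.prod_ne_zero_iff.mpr fun q _ => hm0 q
  let F : T → Type := fun q => CoInd (decomp K q) (TrivZ (decomp K q))
  have hmem : ∀ (q : T) (Y : F q), M • Pi.single (M := F) q Y ∈ (tOrd K T).range := by
    intro q Y
    letI : Fintype ((K ≃ₐ[ℚ] K) ⧸ decomp K q) := Fintype.ofFinite _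
    let sg : F q →+ ∀ q, F q := AddMonoidHom.single F q
    obtain ⟨k, hk⟩ := Finset.dvd_prod_of_mem m (Finset.mem_univ q)
    have hY : Y = ∑ s : (K ≃ₐ[ℚ] K) ⧸ decomp K q,
        TrivZ.of.symm (CoInd.fn Y s.out⁻¹) • (s.out • CoInd.single (TrivZ.of 1)) := by
      conv_lhs => rw [CoInd.eq_sum Y]
      refine Finset.sum_congr rfl fun s _ => ?_
      rw [← smul_comm, ← map_zsmul CoInd.single, ← map_zsmul, smul_eq_mul, mul_one,
        AddEquiv.apply_symm_apply]
    show M • sg Y ∈ _
    rw [hY, map_sum, Finset.smul_sum]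
    refine AddSubgroup.sum_mem _ fun s _ => ?_
    rw [map_zsmul, smul_comm, hM, hk, mul_comm, mul_smul]
    refine AddSubgroup.zsmul_mem _ (AddSubgroup.nsmul_mem _ ?_ _) _
    have e : sg (s.out • CoInd.single (TrivZ.of 1)) =
        s.out • (Pi.single (M := F) q (CoInd.single (TrivZ.of 1))) := by
      funext r
      rw [Pi.smul_apply]
      by_cases hr : r = q
      · subst hr
        rw [show sg _ r = _ from Pi.single_eq_same r _, Pi.single_eq_same]
      · rw [show sg _ r = _ from Pi.single_eq_of_ne hr _, Pi.single_eq_of_ne hr, smul_zero]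
    rw [e, smul_comm]
    obtain ⟨x, hx⟩ := hm q
    exact ⟨s.out • x, (tOrd_smul K T s.out x).trans (by rw [hx])⟩
  have hle : (AddSubgroup.pi Set.univ fun q : T =>
      (nsmulAddMonoidHom M : F q →+ F q).range) ≤ (tOrd K T).range := by
    intro y hy
    choose z hz using fun q => hy q (Set.mem_univ q)
    rw [← Finset.univ_sum_single y]
    refine AddSubgroup.sum_mem _ fun q _ => ?_
    rw [← hz q]
    show Pi.single q (M • z q) ∈ _
    rw [Pi.single_smul]
    exact hmem q (z q)
  intro h0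
  let μ : (∀ q, F q) →+ ∀ q, F q ⧸ (nsmulAddMonoidHom M : F q →+ F q).range :=
    AddMonoidHom.pi fun q => (QuotientAddGroup.mk' _).comp (Pi.evalAddMonoidHom F q)
  haveI : ∀ q : T, Finite (F q ⧸ (nsmulAddMonoidHom M : F q →+ F q).range) := fun q => by
    haveI : (nsmulAddMonoidHom M : F q →+ F q).range.FiniteIndex :=
      ⟨CoInd.index_range_nsmul_trivZ_ne_zero _ hM0⟩
    exact AddSubgroup.finite_quotient_of_finiteIndex
  have hμ : μ.ker ≤ (tOrd K T).range := fun y hy => hle fun q _ =>
    (QuotientAddGroup.eq_zero_iff _).mp (congrFun hy q)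
  have h1 := AddSubgroup.index_dvd_of_le hμ
  rw [h0, AddSubgroup.index_ker, zero_dvd_iff] at h1
  exact Nat.card_pos.ne' h1

end Fermat.Agent.CFT.Euler
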